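import Fermat.Statements.S53

set_option autoImplicit false

namespace Fermat.Agent.S53

open IsLocalRing

section DAlg

/-- the `𝒪`-algebra structure on the dual numbers used in `GaloisRep.TangentFinite`. -/
@[reducible] noncomputable def dalgDualAlgebra (𝒪 : Type) [CommRing 𝒪] [IsLocalRing 𝒪] :
    Algebra 𝒪 (DualNumber (ResidueField 𝒪)) :=
  ((algebraMap (ResidueField 𝒪) (DualNumber (ResidueField 𝒪))).comp
      (algebraMap 𝒪 (ResidueField 𝒪))).toAlgebra

/-- nilpotent Nakayama without finiteness. -/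
theorem dalg_top_le_of_nilpotent {R M : Type*} [CommRing R] [AddCommGroup M] [Module R M]
    (I : Ideal R) (N : Submodule R M) (h : ⊤ ≤ N ⊔ I • (⊤ : Submodule R M))
    (n : ℕ) : ⊤ ≤ N ⊔ (I ^ n) • (⊤ : Submodule R M) := by
  induction n with
  | zero => simp
  | succ n ih =>
    refine ih.trans (sup_le le_sup_left ?_)
    calc (I ^ n) • (⊤ : Submodule R M) ≤ (I ^ n) • (N ⊔ I • (⊤ : Submodule R M)) :=
          Submodule.smul_mono le_rfl h
      _ = (I ^ n) • N ⊔ (I ^ n) • (I • (⊤ : Submodule R M)) := Submodule.smul_sup _ _ _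
      _ ≤ N ⊔ (I ^ (n + 1)) • (⊤ : Submodule R M) := by
          refine sup_le_sup Submodule.smul_le_right ?_
          rw [← Submodule.mul_smul, pow_succ]

variable {𝒪 : Type} [CommRing 𝒪] [IsLocalRing 𝒪]
variable {S : Type} [CommRing S] [IsLocalRing S] [Algebra 𝒪 S]

/-- The comparison of residue fields is bijective for a test algebra. -/
theorem dalg_resMap_bijective [IsLocalHom (algebraMap 𝒪 S)]
    (hsurj : Function.Surjective (IsLocalRing.residue S ∘ algebraMap 𝒪 S)) :
    Function.Bijective (ResidueField.map (algebraMap 𝒪 S)) := by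
  refine ⟨(ResidueField.map (algebraMap 𝒪 S)).injective, fun y => ?_⟩
  obtain ⟨o, ho⟩ := hsurj y
  exact ⟨residue 𝒪 o, by rw [ResidueField.map_residue]; exact ho⟩

/-- The identification `k ≃ κ(S)`. -/
noncomputable def dalgResEquiv [IsLocalHom (algebraMap 𝒪 S)]
    (hsurj : Function.Surjective (IsLocalRing.residue S ∘ algebraMap 𝒪 S)) :
    ResidueField 𝒪 ≃+* ResidueField S :=
  RingEquiv.ofBijective _ (dalg_resMap_bijective hsurj)

end DAlg

section Hom

variable {𝒪 : Type} [CommRing 𝒪] [IsLocalRing 𝒪]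
variable {S : Type} [CommRing S] [IsLocalRing S] [Algebra 𝒪 S]
variable [IsLocalHom (algebraMap 𝒪 S)]
    (hsurj : Function.Surjective (IsLocalRing.residue S ∘ algebraMap 𝒪 S))

/-- a scalar with the same residue. -/
noncomputable def dalgC (s : S) : 𝒪 := (hsurj (residue S s)).choose

theorem dalgC_spec (s : S) : s - algebraMap 𝒪 S (dalgC hsurj s) ∈ maximalIdeal S := by
  have h := (hsurj (residue S s)).choose_spec
  rw [← residue_eq_zero_iff, map_sub, sub_eq_zero]
  exact h.symm

theorem dalgResEquiv_symm_residue (o : 𝒪) :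
    (dalgResEquiv hsurj).symm (residue S (algebraMap 𝒪 S o)) = residue 𝒪 o := by
  rw [RingEquiv.symm_apply_eq]
  exact (ResidueField.map_residue (algebraMap 𝒪 S) o).symm

/-- the second component -/
noncomputable def dalgSnd (Λ : maximalIdeal S →ₗ[S] ResidueField S) (s : S) : ResidueField S :=
  Λ ⟨s - algebraMap 𝒪 S (dalgC hsurj s), dalgC_spec hsurj s⟩

theorem dalgSnd_eq (Λ : maximalIdeal S →ₗ[S] ResidueField S)
    (hΛ : ∀ (o : 𝒪) (ho : algebraMap 𝒪 S o ∈ maximalIdeal S), Λ ⟨algebraMap 𝒪 S o, ho⟩ = 0)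
    (o : 𝒪) (x : maximalIdeal S) :
    dalgSnd hsurj Λ (algebraMap 𝒪 S o + x) = Λ x := by
  unfold dalgSnd
  have hmem : algebraMap 𝒪 S (o - dalgC hsurj (algebraMap 𝒪 S o + x)) ∈ maximalIdeal S := by
    have h1 := dalgC_spec hsurj (algebraMap 𝒪 S o + x)
    have h2 : algebraMap 𝒪 S (o - dalgC hsurj (algebraMap 𝒪 S o + x)) =
        (algebraMap 𝒪 S o + x - algebraMap 𝒪 S (dalgC hsurj (algebraMap 𝒪 S o + x))) - x := by
      rw [map_sub]; ring
    rw [h2]
    exact Ideal.sub_mem _ h1 x.2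
  have hdec : (⟨algebraMap 𝒪 S o + x - algebraMap 𝒪 S (dalgC hsurj (algebraMap 𝒪 S o + x)),
      dalgC_spec hsurj _⟩ : maximalIdeal S) =
      ⟨algebraMap 𝒪 S (o - dalgC hsurj (algebraMap 𝒪 S o + x)), hmem⟩ + x := by
    apply Subtype.ext
    simp only [Submodule.coe_add, map_sub]
    ring
  rw [hdec, map_add, hΛ, zero_add]

include hsurj in
theorem dalg_decomp (s : S) : ∃ (o : 𝒪) (x : maximalIdeal S), s = algebraMap 𝒪 S o + x :=
  ⟨dalgC hsurj s, ⟨_, dalgC_spec hsurj s⟩, by simp⟩

/-- The algebra map `S → k[ε]` attached to a functional on the maximal ideal. -/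
noncomputable def dalgHom (Λ : maximalIdeal S →ₗ[S] ResidueField S)
    (hΛ : ∀ (o : 𝒪) (ho : algebraMap 𝒪 S o ∈ maximalIdeal S), Λ ⟨algebraMap 𝒪 S o, ho⟩ = 0) :
    letI := dalgDualAlgebra 𝒪
    S →ₐ[𝒪] DualNumber (ResidueField 𝒪) :=
  letI := dalgDualAlgebra 𝒪
  { toFun := fun s => TrivSqZeroExt.inl ((dalgResEquiv hsurj).symm (residue S s)) +
      TrivSqZeroExt.inr ((dalgResEquiv hsurj).symm (dalgSnd hsurj Λ s))
    map_one' := by
      have h1 : dalgSnd hsurj Λ (1 : S) = 0 := by
        have := dalgSnd_eq hsurj Λ hΛ 1 0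
        simpa using this
      rw [h1]; simp
    map_zero' := by
      have h1 : dalgSnd hsurj Λ (0 : S) = 0 := by
        have := dalgSnd_eq hsurj Λ hΛ 0 0
        simpa using this
      rw [h1]; simp
    map_add' := by
      intro s t
      obtain ⟨a, x, rfl⟩ := dalg_decomp hsurj s
      obtain ⟨b, y, rfl⟩ := dalg_decomp hsurj t
      have h1 : algebraMap 𝒪 S a + x + (algebraMap 𝒪 S b + y) =
          algebraMap 𝒪 S (a + b) + ((x + y : maximalIdeal S) : S) := by
        simp only [map_add, Submodule.coe_add]; ring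
      rw [h1, dalgSnd_eq hsurj Λ hΛ, dalgSnd_eq hsurj Λ hΛ, dalgSnd_eq hsurj Λ hΛ, ← h1]
      simp only [map_add, TrivSqZeroExt.inl_add, TrivSqZeroExt.inr_add]
      abel
    map_mul' := by
      intro s t
      obtain ⟨a, x, rfl⟩ := dalg_decomp hsurj s
      obtain ⟨b, y, rfl⟩ := dalg_decomp hsurj t
      have h1 : (algebraMap 𝒪 S a + x) * (algebraMap 𝒪 S b + y) =
          algebraMap 𝒪 S (a * b) +
            ((algebraMap 𝒪 S a • y + algebraMap 𝒪 S b • x + (x : S) • y : maximalIdeal S) : S) := by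
        simp only [map_mul, Submodule.coe_add, Submodule.coe_smul, smul_eq_mul]; ring
      rw [h1, dalgSnd_eq hsurj Λ hΛ, dalgSnd_eq hsurj Λ hΛ, dalgSnd_eq hsurj Λ hΛ, ← h1]
      have hx : residue S (x : S) = 0 := (residue_eq_zero_iff _).mpr x.2
      have hy : residue S (y : S) = 0 := (residue_eq_zero_iff _).mpr y.2
      have hsm : ∀ (c : S) (z : ResidueField S), c • z = residue S c * z := fun c z => by
        rw [Algebra.smul_def]; rfl
      rw [map_add Λ, map_add Λ, map_smul Λ, map_smul Λ, map_smul Λ, hsm, hsm, hsm, hx, zero_mul,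
        add_zero]
      ext
      · simp [hx, hy]
      · simp [hx, hy, dalgResEquiv_symm_residue]
        ring
    commutes' := by
      intro o
      have h1 : dalgSnd hsurj Λ (algebraMap 𝒪 S o) = 0 := by
        have := dalgSnd_eq hsurj Λ hΛ o 0
        simpa using this
      rw [h1, dalgResEquiv_symm_residue]
      simp
      rfl }

end Hom

section Main

variable {𝒪 : Type} [CommRing 𝒪] [IsLocalRing 𝒪]
variable {S : Type} [CommRing S] [IsLocalRing S] [Algebra 𝒪 S]

theorem dalgHom_apply_mem [IsLocalHom (algebraMap 𝒪 S)]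
    (hsurj : Function.Surjective (IsLocalRing.residue S ∘ algebraMap 𝒪 S))
    (Λ : maximalIdeal S →ₗ[S] ResidueField S)
    (hΛ : ∀ (o : 𝒪) (ho : algebraMap 𝒪 S o ∈ maximalIdeal S), Λ ⟨algebraMap 𝒪 S o, ho⟩ = 0)
    (x : maximalIdeal S) :
    (dalgHom hsurj Λ hΛ) (x : S) = TrivSqZeroExt.inr ((dalgResEquiv hsurj).symm (Λ x)) := by
  have h1 : dalgSnd hsurj Λ (x : S) = Λ x := by
    have := dalgSnd_eq hsurj Λ hΛ 0 x
    simpa using this
  have hx : residue S (x : S) = 0 := (residue_eq_zero_iff _).mpr x.2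
  show TrivSqZeroExt.inl ((dalgResEquiv hsurj).symm (residue S (x : S))) +
      TrivSqZeroExt.inr ((dalgResEquiv hsurj).symm (dalgSnd hsurj Λ (x : S))) = _
  rw [h1, hx]
  simp

/-- **D-alg.** If `𝒪`-algebra maps `S → k[ε]` are determined by their restriction to the
subalgebra `S2`, then `S2 = ⊤`. -/
theorem subalgebra_eq_top_of_dualNumber_ext
    (hS : GaloisRep.IsArtinianTestAlgebra 𝒪 S) (S2 : Subalgebra 𝒪 S)
    (h : letI := dalgDualAlgebra 𝒪
      ∀ f g : S →ₐ[𝒪] DualNumber (ResidueField 𝒪), (∀ x ∈ S2, f x = g x) → f = g) :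
    S2 = ⊤ := by
  have := hS.isLocalHom
  have := hS.isArtinian
  have hsurj := hS.residue_surjective
  set s0 : Set (maximalIdeal S) := {x | (x : S) ∈ S2} with hs0
  -- Step 1: the cotangent space is spanned by `S2 ∩ m`.
  have hspan : Submodule.span (ResidueField S) ((maximalIdeal S).toCotangent '' s0) = ⊤ := by
    by_contra hne
    obtain ⟨l, hl0, hl⟩ := Submodule.exists_le_ker_of_lt_top _ (lt_top_iff_ne_top.mpr hne)
    set Λ : maximalIdeal S →ₗ[S] ResidueField S :=
      (l.restrictScalars S) ∘ₗ (maximalIdeal S).toCotangent with hΛdef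
    have hΛs0 : ∀ x ∈ s0, Λ x = 0 := fun x hx =>
      hl (Submodule.subset_span ⟨x, hx, rfl⟩)
    have hΛ : ∀ (o : 𝒪) (ho : algebraMap 𝒪 S o ∈ maximalIdeal S),
        Λ ⟨algebraMap 𝒪 S o, ho⟩ = 0 := fun o ho => hΛs0 _ (S2.algebraMap_mem o)
    have h0 : ∀ (o : 𝒪) (ho : algebraMap 𝒪 S o ∈ maximalIdeal S),
        (0 : maximalIdeal S →ₗ[S] ResidueField S) ⟨algebraMap 𝒪 S o, ho⟩ = 0 := fun _ _ => rfl
    have heq := h (dalgHom hsurj Λ hΛ) (dalgHom hsurj 0 h0) (by
      intro x hx
      obtain ⟨o, y, rfl⟩ := dalg_decomp hsurj x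
      have hy : y ∈ s0 := by
        have : (y : S) = (algebraMap 𝒪 S o + y) - algebraMap 𝒪 S o := by ring
        show (y : S) ∈ S2
        rw [this]
        exact S2.sub_mem hx (S2.algebraMap_mem o)
      rw [map_add, map_add, dalgHom_apply_mem, dalgHom_apply_mem, hΛs0 y hy]
      let _ := dalgDualAlgebra 𝒪
      rw [AlgHom.commutes, AlgHom.commutes]
      simp)
    apply hl0
    apply LinearMap.ext
    intro z
    obtain ⟨x, rfl⟩ := (maximalIdeal S).toCotangent_surjective z
    have h1 := dalgHom_apply_mem hsurj Λ hΛ x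
    have h2 := dalgHom_apply_mem hsurj 0 h0 x
    rw [heq, h2] at h1
    have h3 := TrivSqZeroExt.inr_injective h1
    have h4 := (dalgResEquiv hsurj).symm.injective h3
    have h5 : Λ x = 0 := by simpa using h4.symm
    exact h5
  -- Step 2: `m` is generated by `S2 ∩ m`.
  have hspan2 : Submodule.span S s0 = ⊤ :=
    IsLocalRing.CotangentSpace.span_image_eq_top_iff.mp hspan
  set I : Ideal S2 := (maximalIdeal S).comap (algebraMap S2 S) with hI
  have hm_le : maximalIdeal S ≤ I.map (algebraMap S2 S) := by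
    intro x hx
    have hx' : (⟨x, hx⟩ : maximalIdeal S) ∈ Submodule.span S s0 := hspan2 ▸ Submodule.mem_top
    have key : ∀ y : maximalIdeal S, y ∈ Submodule.span S s0 → (y : S) ∈ I.map (algebraMap S2 S) := by
      intro y hy
      induction hy using Submodule.span_induction with
      | mem y hy =>
        have hyI : (⟨(y : S), hy⟩ : S2) ∈ I := by
          show algebraMap S2 S ⟨(y : S), hy⟩ ∈ maximalIdeal S
          exact y.2
        exact Ideal.mem_map_of_mem (algebraMap S2 S) hyI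
      | zero => exact Ideal.zero_mem _
      | add a b _ _ ha hb => exact Ideal.add_mem _ ha hb
      | smul c a _ ha => exact Ideal.mul_mem_left _ c ha
    exact key _ hx'
  -- Step 3: nilpotent Nakayama over `S2`.
  obtain ⟨n, hn⟩ : ∃ n : ℕ, maximalIdeal S ^ n = ⊥ := by
    have := IsArtinianRing.isNilpotent_jacobson_bot (R := S)
    rw [IsLocalRing.jacobson_eq_maximalIdeal ⊥ bot_ne_top] at this
    exact this
  set N : Submodule S2 S := Submodule.span S2 {1} with hN
  have hstep : (⊤ : Submodule S2 S) ≤ N ⊔ I • (⊤ : Submodule S2 S) := by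
    intro s _
    obtain ⟨o, y, rfl⟩ := dalg_decomp hsurj s
    refine Submodule.add_mem_sup ?_ ?_
    · have : algebraMap 𝒪 S o = (⟨algebraMap 𝒪 S o, S2.algebraMap_mem o⟩ : S2) • (1 : S) := by
        rw [Algebra.smul_def, mul_one]; rfl
      rw [this]
      exact Submodule.smul_mem _ _ (Submodule.subset_span rfl)
    · rw [Ideal.smul_top_eq_map]
      exact hm_le y.2
  have hfin := dalg_top_le_of_nilpotent I N hstep n
  have hzero : (I ^ n) • (⊤ : Submodule S2 S) = ⊥ := by
    rw [Ideal.smul_top_eq_map, Ideal.map_pow]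
    have : (I.map (algebraMap S2 S)) ^ n ≤ ⊥ := by
      rw [← hn]
      exact Ideal.pow_right_mono Ideal.map_comap_le n
    rw [le_bot_iff.mp this]
    rfl
  rw [hzero, sup_bot_eq] at hfin
  rw [eq_top_iff]
  intro s _
  have hs : s ∈ N := hfin Submodule.mem_top
  obtain ⟨t, rfl⟩ := Submodule.mem_span_singleton.mp hs
  have : t • (1 : S) = (t : S) := by rw [Algebra.smul_def, mul_one]; rfl
  rw [this]
  exact t.2

end Main

end Fermat.Agent.S53
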