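import Fermat.Agent.S53.GoodAx
import Fermat.Agent.S53.DAlg

/-!
# S53, piece R2 (uniform algebra generators from `TangentFinite`); R3 is in `IdealGen.lean`
-/

set_option autoImplicit false
set_option linter.style.haveILetI false

namespace Fermat.Agent.S53

open IsLocalRing GaloisRep

/-- a finite family of functions is separated by finitely many points. -/
theorem exists_finset_separating {D X Y : Type*} [Finite D] (ev : D → X → Y)
    (hinj : Function.Injective ev) :
    ∃ F : Finset X, ∀ r r' : D, (∀ x ∈ F, ev r x = ev r' x) → r = r' := by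
  classical
  have := Fintype.ofFinite D
  have hex : ∀ p : D × D, p.1 ≠ p.2 → ∃ x, ev p.1 x ≠ ev p.2 x := by
    intro p hp
    by_contra hcon
    push Not at hcon
    exact hp (hinj (funext hcon))
  refine ⟨Finset.univ.biUnion fun p : D × D =>
    if hp : p.1 ≠ p.2 then {(hex p hp).choose} else ∅, fun r r' h => ?_⟩
  by_contra hne
  have hx := (hex (r, r') hne).choose_spec
  apply hx
  apply h
  rw [Finset.mem_biUnion]
  refine ⟨(r, r'), Finset.mem_univ _, ?_⟩
  rw [dif_pos hne]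
  exact Finset.mem_singleton_self _

section R2

variable {𝒪 : Type} [CommRing 𝒪] [IsLocalRing 𝒪]
variable {𝒟 : ∀ ⦃A : Type⦄ [CommRing A] [IsLocalRing A] [Algebra 𝒪 A], GaloisRepAdic A → Prop}
variable {S : SliceIdx GQ} {c : Fin 3 → 𝒪}

/-- R2a: the normalised deformations to the dual numbers form a finite set. -/
theorem finite_defo_dual (ρbar : ResidualGaloisRep (ResidueField 𝒪))
    (b : Module.Basis (Fin 2) (ResidueField 𝒪) ρbar.V)
    (hS : IsSliceData (matOfRes ρbar b) S c) (hfin : TangentFinite 𝒪 ρbar 𝒟) :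
    letI := dualAlg 𝒪
    Finite {r : GQ →* M2 (DualNumber (ResidueField 𝒪)) // IsDefo 𝒟 (matOfRes ρbar b) S c r} := by
  letI := dualAlg 𝒪
  letI : Algebra (ResidueField 𝒪) (ResidueField (DualNumber (ResidueField 𝒪))) :=
    ((IsLocalRing.residue (DualNumber (ResidueField 𝒪))).comp
      (algebraMap (ResidueField 𝒪) (DualNumber (ResidueField 𝒪)))).toAlgebra
  have e : ρbar.IsEquiv (resOfMat (matOfRes ρbar b) (matOfRes_factors ρbar b)) := by
    rw [res_isEquiv_iff_conj _ _ b (resOfMatBasis _ _), matOfRes_resOfMat]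
    exact ⟨1, isUnit_one, fun σ => by rw [mul_one, one_mul]⟩
  have key : ∀ (s : Setoid {ρ : GaloisRepAdic (DualNumber (ResidueField 𝒪)) //
      𝒟 ρ ∧ ρ.residual.IsEquiv (ρbar.baseChange (ResidueField (DualNumber (ResidueField 𝒪))))}),
      (∀ a b, s.r a b → a.1.IsEquiv b.1) → Finite (Quotient s) →
      Finite {r : GQ →* M2 (DualNumber (ResidueField 𝒪)) //
        IsDefo 𝒟 (matOfRes ρbar b) S c r} := by
    intro s hs hfin
    refine Finite.of_injective (β := Quotient s) (fun r => Quotient.mk s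
      ⟨ofMat r.1 r.2.cont, r.2.type, residual_isEquiv_dual e r.2.cont r.2.lift⟩) ?_
    intro r r' h
    have h2 : (ofMat r.1 r.2.cont).IsEquiv (ofMat r'.1 r'.2.cont) := hs _ _ (Quotient.exact h)
    obtain ⟨P, hP, hc⟩ := (ofMat_isEquiv_iff_isUnit _ _).mp h2
    exact Subtype.ext (eq_of_isConjBy hS r.2.lift r'.2.lift r.2.norm r'.2.norm P hP hc)
  exact key _ (fun _ _ h => h) hfin

/-- R2b: uniform algebra generators. -/
theorem exists_hgen (h𝒟 : IsDeformationCondition 𝒪 𝒟) (ρbar : ResidualGaloisRep (ResidueField 𝒪))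
    (b : Module.Basis (Fin 2) (ResidueField 𝒪) ρbar.V)
    (hS : IsSliceData (matOfRes ρbar b) S c) (hfin : TangentFinite 𝒪 ρbar 𝒟) :
    ∃ T : Finset (GQ × Fin 2 × Fin 2), ∀ I : Ideal (Adm.U 𝒪 GQ),
      Adm.IsAdm (Good 𝒟 (matOfRes ρbar b) S c) I →
      Algebra.adjoin 𝒪 ((fun p => Ideal.Quotient.mk I (MvPolynomial.X p)) '' (T : Set _)) = ⊤ := by
  classical
  letI := dualAlg 𝒪
  haveI := finite_defo_dual ρbar b hS hfin
  obtain ⟨F, hF⟩ := exists_finset_separating
    (D := {r : GQ →* M2 (DualNumber (ResidueField 𝒪)) // IsDefo 𝒟 (matOfRes ρbar b) S c r})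
    (X := GQ × Fin 2 × Fin 2) (fun r x => r.1 x.1 x.2.1 x.2.2) (by
      intro r r' h
      apply Subtype.ext
      apply MonoidHom.ext
      intro σ
      apply Matrix.ext
      intro i j
      exact congrFun h (σ, i, j))
  refine ⟨F, ?_⟩
  rintro I ⟨hloc, hA, r, hrI, hr⟩
  refine subalgebra_eq_top_of_dualNumber_ext hA _ ?_
  intro φ ψ hφψ
  have h1 := IsDefo.map h𝒟 hA isArtinianTestAlgebra_dual φ hr
  have h2 := IsDefo.map h𝒟 hA isArtinianTestAlgebra_dual ψ hr
  have hentry : ∀ σ i j, r σ i j = Ideal.Quotient.mk I (MvPolynomial.X (σ, i, j)) := by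
    intro σ i j
    have := congrFun hrI σ
    rw [this]
    rfl
  have h3 := hF ⟨_, h1⟩ ⟨_, h2⟩ (by
    rintro ⟨σ, i, j⟩ hx
    have h4 := hφψ _ (Algebra.subset_adjoin ⟨_, hx, rfl⟩)
    simp only [mapMat_apply, hentry]
    exact h4)
  have h5 : φ.comp (Ideal.Quotient.mkₐ 𝒪 I) = ψ.comp (Ideal.Quotient.mkₐ 𝒪 I) := by
    apply MvPolynomial.algHom_ext
    rintro ⟨σ, i, j⟩
    have := congrArg (fun q : {r : GQ →* M2 (DualNumber (ResidueField 𝒪)) //
      IsDefo 𝒟 (matOfRes ρbar b) S c r} => q.1 σ i j) h3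
    simp only [mapMat_apply, hentry] at this
    exact this
  ext a : 1
  obtain ⟨f, rfl⟩ := Ideal.Quotient.mk_surjective a
  exact congrArg (fun g => g f) h5

end R2

end Fermat.Agent.S53
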