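import Fermat.Agent.S53.Adm

/-!
# S53, piece R3: from algebra generators to ideal generators of the maximal ideal
-/

set_option autoImplicit false

namespace Fermat.Agent.S53

open IsLocalRing

variable {𝒪 : Type} [CommRing 𝒪] [IsDomain 𝒪] [IsDiscreteValuationRing 𝒪] {G : Type}

/-- R3: from algebra generators to ideal generators of the maximal ideal. -/
theorem exists_ideal_generators (rbar : G → Matrix (Fin 2) (Fin 2) (ResidueField 𝒪))
    (T : Finset (G × Fin 2 × Fin 2)) :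
    ∃ (s : ℕ) (u : Fin s → Adm.U 𝒪 G), (∀ i, u i ∈ Adm.mU rbar) ∧
      ∀ I : Ideal (Adm.U 𝒪 G), I ≤ Adm.mU rbar →
        Algebra.adjoin 𝒪 ((fun p => Ideal.Quotient.mk I (MvPolynomial.X p)) '' (T : Set _)) = ⊤ →
        Adm.mU rbar ≤ I ⊔ Ideal.span (Set.range u) := by
  classical
  obtain ⟨ϖ, hϖ⟩ := IsDiscreteValuationRing.exists_irreducible 𝒪
  have hmax : maximalIdeal 𝒪 = Ideal.span {ϖ} := hϖ.maximalIdeal_eq
  choose cp hcp using fun p : G × Fin 2 × Fin 2 => residue_surjective (rbar p.1 p.2.1 p.2.2)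
  let W : Finset (Adm.U 𝒪 G) :=
    insert (MvPolynomial.C ϖ) (T.image fun p => MvPolynomial.X p - MvPolynomial.C (cp p))
  let u : Fin W.card → Adm.U 𝒪 G := fun i => (W.equivFin.symm i : Adm.U 𝒪 G)
  have hrange : Set.range u = (W : Set (Adm.U 𝒪 G)) := by
    ext x
    constructor
    · rintro ⟨i, rfl⟩
      exact (W.equivFin.symm i).2
    · intro hx
      exact ⟨W.equivFin ⟨x, hx⟩, by simp [u]⟩
  have hW : ∀ x ∈ W, x ∈ Adm.mU rbar := by
    intro x hx
    rcases Finset.mem_insert.mp hx with rfl | hx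
    · rw [Adm.C_mem_mU_iff, hmax]
      exact Ideal.mem_span_singleton_self ϖ
    · obtain ⟨p, -, rfl⟩ := Finset.mem_image.mp hx
      rw [Adm.mU, RingHom.mem_ker]
      show Adm.ev rbar (MvPolynomial.X p - MvPolynomial.C (cp p) : Adm.U 𝒪 G) = 0
      obtain ⟨g, i, k⟩ := p
      rw [map_sub, Adm.ev_X, Adm.ev_C, hcp, sub_self]
  refine ⟨W.card, u, fun i => hW _ (W.equivFin.symm i).2, ?_⟩
  intro I hI hgen x hx
  rw [hrange]
  set J : Ideal (Adm.U 𝒪 G) := Ideal.span (W : Set (Adm.U 𝒪 G)) with hJ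
  have hJle : J ≤ Adm.mU rbar := Ideal.span_le.mpr fun y hy => hW y hy
  have key : ∀ z : Adm.U 𝒪 G ⧸ I, ∃ a : 𝒪,
      z - algebraMap 𝒪 _ a ∈ J.map (Ideal.Quotient.mk I) := by
    intro z
    have hz : z ∈ Algebra.adjoin 𝒪
        ((fun p => Ideal.Quotient.mk I (MvPolynomial.X p)) '' (T : Set _)) := by
      rw [hgen]; exact Algebra.mem_top
    induction hz using Algebra.adjoin_induction with
    | mem z hz =>
      obtain ⟨p, hp, rfl⟩ := hz
      refine ⟨cp p, ?_⟩
      have : Ideal.Quotient.mk I (MvPolynomial.X p) - algebraMap 𝒪 (Adm.U 𝒪 G ⧸ I) (cp p) =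
          Ideal.Quotient.mk I (MvPolynomial.X p - MvPolynomial.C (cp p)) := by
        rw [map_sub]; rfl
      simp only [this]
      apply Ideal.mem_map_of_mem
      apply Ideal.subset_span
      exact Finset.mem_coe.mpr (Finset.mem_insert_of_mem (Finset.mem_image_of_mem _ hp))
    | algebraMap r => exact ⟨r, by simp⟩
    | add z z' _ _ h h' =>
      obtain ⟨a, ha⟩ := h
      obtain ⟨a', ha'⟩ := h'
      refine ⟨a + a', ?_⟩
      have : z + z' - algebraMap 𝒪 (Adm.U 𝒪 G ⧸ I) (a + a') =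
          (z - algebraMap 𝒪 _ a) + (z' - algebraMap 𝒪 _ a') := by
        rw [map_add]; ring
      rw [this]
      exact Ideal.add_mem _ ha ha'
    | mul z z' _ _ h h' =>
      obtain ⟨a, ha⟩ := h
      obtain ⟨a', ha'⟩ := h'
      refine ⟨a * a', ?_⟩
      have : z * z' - algebraMap 𝒪 (Adm.U 𝒪 G ⧸ I) (a * a') =
          (z - algebraMap 𝒪 _ a) * z' + algebraMap 𝒪 _ a * (z' - algebraMap 𝒪 _ a') := by
        rw [map_mul]; ring
      rw [this]
      exact Ideal.add_mem _ (Ideal.mul_mem_right _ _ ha) (Ideal.mul_mem_left _ _ ha')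
  obtain ⟨a, ha⟩ := key (Ideal.Quotient.mk I x)
  have h1 : Ideal.Quotient.mk I x - algebraMap 𝒪 (Adm.U 𝒪 G ⧸ I) a =
      Ideal.Quotient.mk I (x - MvPolynomial.C a) := by
    rw [map_sub]; rfl
  rw [h1, Ideal.mem_quotient_iff_mem_sup] at ha
  have h2 : (MvPolynomial.C a : Adm.U 𝒪 G) ∈ Adm.mU rbar := by
    have h3 : x - MvPolynomial.C a ∈ Adm.mU rbar := (sup_le hJle hI) ha
    have := Ideal.sub_mem _ hx h3
    simpa using this
  rw [Adm.C_mem_mU_iff, hmax, Ideal.mem_span_singleton] at h2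
  obtain ⟨b, rfl⟩ := h2
  have h4 : (MvPolynomial.C (ϖ * b) : Adm.U 𝒪 G) ∈ J := by
    rw [map_mul]
    apply Ideal.mul_mem_right
    apply Ideal.subset_span
    exact Finset.mem_coe.mpr (Finset.mem_insert_self _ _)
  have h5 : x = (x - MvPolynomial.C (ϖ * b)) + MvPolynomial.C (ϖ * b) := by ring
  rw [h5, sup_comm]
  exact Ideal.add_mem _ ha (Ideal.mem_sup_left h4)

end Fermat.Agent.S53
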