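import Mathlib
import Fermat.Prelude.Thm_IsAdicComplete_of_module_finite

set_option autoImplicit false
set_option linter.unusedSectionVars false
set_option linter.style.haveILetI false

open IsLocalRing

namespace Fermat.Agent.S53

/-- Hypotheses for the construction of the limit ring. -/
structure LimData (𝒪 : Type) [CommRing 𝒪] (U : Type) [CommRing U] [Algebra 𝒪 U] (σ : Type) where
  𝔪 : Ideal U
  I : ℕ → Ideal U
  v : σ → U
  I_le : ∀ n, I n ≤ 𝔪
  pow_le : ∀ n, 𝔪 ^ (n + 1) ≤ I n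
  I_succ : ∀ n, I n = I (n + 1) ⊔ 𝔪 ^ (n + 1)
  v_mem : ∀ i, v i ∈ 𝔪
  le_span : ∀ n, 𝔪 ≤ I n ⊔ Ideal.span (Set.range v)
  surj : ∀ u : U, ∃ c : 𝒪, u - algebraMap 𝒪 U c ∈ 𝔪

namespace LimData

variable {𝒪 : Type} [CommRing 𝒪] {U : Type} [CommRing U] [Algebra 𝒪 U] {σ : Type} [Finite σ]
  (D : LimData 𝒪 U σ)

/-- evaluation of polynomials -/
noncomputable def polyEval (n : ℕ) : MvPolynomial σ 𝒪 →ₐ[𝒪] U ⧸ D.I n :=
  (Ideal.Quotient.mkₐ 𝒪 (D.I n)).comp (MvPolynomial.aeval D.v)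

lemma aeval_mem_pow {m : ℕ} {p : MvPolynomial σ 𝒪} (hp : p ∈ MvPolynomial.idealOfVars σ 𝒪 ^ m) :
    MvPolynomial.aeval D.v p ∈ D.𝔪 ^ m := by
  have h1 : Ideal.map (MvPolynomial.aeval D.v : MvPolynomial σ 𝒪 →ₐ[𝒪] U)
      (MvPolynomial.idealOfVars σ 𝒪) ≤ D.𝔪 := by
    rw [Ideal.map_span, Ideal.span_le]
    rintro _ ⟨_, ⟨i, rfl⟩, rfl⟩
    simpa using D.v_mem i
  have h2 := Ideal.mem_map_of_mem (MvPolynomial.aeval D.v : MvPolynomial σ 𝒪 →ₐ[𝒪] U) hp
  rw [Ideal.map_pow] at h2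
  exact Ideal.pow_right_mono h1 m h2

lemma polyEval_eq_zero {n : ℕ} {p : MvPolynomial σ 𝒪}
    (hp : p ∈ MvPolynomial.idealOfVars σ 𝒪 ^ (n + 1)) : D.polyEval n p = 0 := by
  simp only [polyEval, AlgHom.comp_apply, Ideal.Quotient.mkₐ_eq_mk]
  exact Ideal.Quotient.eq_zero_iff_mem.mpr (D.pow_le n (D.aeval_mem_pow hp))

/-- evaluation of power series -/
noncomputable def psi (n : ℕ) : MvPowerSeries σ 𝒪 →ₐ[𝒪] U ⧸ D.I n :=
  (Ideal.Quotient.liftₐ (MvPolynomial.idealOfVars σ 𝒪 ^ (n + 1)) (D.polyEval n)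
    (fun _ hp => D.polyEval_eq_zero hp)).comp
    ((MvPowerSeries.truncTotalAlgHom σ 𝒪 (n + 1)).restrictScalars 𝒪)

lemma psi_apply (n : ℕ) (p : MvPowerSeries σ 𝒪) :
    D.psi n p = Ideal.Quotient.mk (D.I n)
      (MvPolynomial.aeval D.v (MvPowerSeries.truncTotal (n + 1) p)) := rfl

lemma psi_coe (n : ℕ) (p : MvPolynomial σ 𝒪) :
    D.psi n (p : MvPowerSeries σ 𝒪) = Ideal.Quotient.mk (D.I n) (MvPolynomial.aeval D.v p) := by
  have h := (MvPowerSeries.truncTotalAlgHom σ 𝒪 (n + 1)).commutes p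
  simp only [psi, AlgHom.comp_apply, AlgHom.restrictScalars_apply]
  rw [show ((p : MvPolynomial σ 𝒪) : MvPowerSeries σ 𝒪) =
    algebraMap (MvPolynomial σ 𝒪) (MvPowerSeries σ 𝒪) p from rfl, h]
  rfl

lemma psi_X (n : ℕ) (i : σ) :
    D.psi n (MvPowerSeries.X i) = Ideal.Quotient.mk (D.I n) (D.v i) := by
  rw [← MvPolynomial.coe_X, psi_coe]; simp

lemma I_anti {m n : ℕ} (h : m ≤ n) : D.I n ≤ D.I m := by
  induction h with
  | refl => exact le_rfl
  | @step k _ ih =>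
    have h1 : D.I (k + 1) ≤ D.I k := by
      conv_rhs => rw [D.I_succ k]
      exact le_sup_left
    exact le_trans h1 ih

lemma psi_compat {m n : ℕ} (h : m ≤ n) (p : MvPowerSeries σ 𝒪) :
    Ideal.Quotient.factor (D.I_anti h) (D.psi n p) = D.psi m p := by
  rw [psi_apply, psi_apply, Ideal.Quotient.factor_mk, Ideal.Quotient.eq, ← map_sub]
  exact D.pow_le m (D.aeval_mem_pow
    (MvPowerSeries.truncTotal_sub_truncTotal_mem_pow_idealOfVars (by omega) le_rfl p))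

/-- the ideal generated by the variables -/
noncomputable abbrev varIdeal (σ 𝒪 : Type) [CommRing 𝒪] : Ideal (MvPowerSeries σ 𝒪) :=
  Ideal.span (Set.range MvPowerSeries.X)

lemma map_psi_varIdeal (n : ℕ) :
    Ideal.map (D.psi n) (varIdeal σ 𝒪) = Ideal.map (Ideal.Quotient.mk (D.I n)) D.𝔪 := by
  have h1 : Ideal.map (D.psi n) (varIdeal σ 𝒪) =
      Ideal.map (Ideal.Quotient.mk (D.I n)) (Ideal.span (Set.range D.v)) := by
    rw [Ideal.map_span, Ideal.map_span, ← Set.range_comp, ← Set.range_comp]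
    congr 2
    ext i
    exact D.psi_X n i
  rw [h1]
  apply le_antisymm
  · apply Ideal.map_mono
    rw [Ideal.span_le]
    rintro _ ⟨i, rfl⟩
    exact D.v_mem i
  · refine le_trans (Ideal.map_mono (D.le_span n)) ?_
    rw [Ideal.map_sup, Ideal.map_quotient_self, bot_sup_eq]

lemma varIdeal_pow_le_ker (n : ℕ) :
    varIdeal σ 𝒪 ^ (n + 1) ≤ RingHom.ker (D.psi n : MvPowerSeries σ 𝒪 →+* U ⧸ D.I n) := by
  rw [← Ideal.map_eq_bot_iff_le_ker]
  have : Ideal.map (D.psi n : MvPowerSeries σ 𝒪 →+* U ⧸ D.I n) (varIdeal σ 𝒪 ^ (n + 1)) =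
      Ideal.map (Ideal.Quotient.mk (D.I n)) (D.𝔪 ^ (n + 1)) := by
    rw [Ideal.map_pow, Ideal.map_pow]
    congr 1
    exact D.map_psi_varIdeal n
  rw [this, Ideal.map_eq_bot_iff_le_ker, Ideal.mk_ker]
  exact D.pow_le n

lemma psi_surjective (n : ℕ) : Function.Surjective (D.psi n) := by
  letI : Algebra (MvPowerSeries σ 𝒪) (U ⧸ D.I n) := (D.psi n).toRingHom.toAlgebra
  have halg : ∀ p, algebraMap (MvPowerSeries σ 𝒪) (U ⧸ D.I n) p = D.psi n p := fun _ => rfl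
  have hmap : ∀ K : Ideal (MvPowerSeries σ 𝒪),
      Ideal.map (algebraMap (MvPowerSeries σ 𝒪) (U ⧸ D.I n)) K = Ideal.map (D.psi n) K :=
    fun _ => rfl
  haveI : IsHausdorff (varIdeal σ 𝒪) (U ⧸ D.I n) := by
    constructor
    intro x hx
    have h1 := hx (n + 1)
    rw [SModEq.zero, Ideal.smul_top_eq_map, Submodule.restrictScalars_mem, hmap] at h1
    have h2 : Ideal.map (D.psi n) (varIdeal σ 𝒪 ^ (n + 1)) = ⊥ :=
      (Ideal.map_eq_bot_iff_le_ker _).mpr (D.varIdeal_pow_le_ker n)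
    rw [h2] at h1
    exact h1
  have key : Function.Surjective (Algebra.linearMap (MvPowerSeries σ 𝒪) (U ⧸ D.I n)) := by
    apply surjective_of_mkQ_comp_surjective (I := varIdeal σ 𝒪)
    intro y
    obtain ⟨a, rfl⟩ := Submodule.mkQ_surjective _ y
    obtain ⟨x, rfl⟩ := Ideal.Quotient.mk_surjective a
    obtain ⟨c, hc⟩ := D.surj x
    refine ⟨algebraMap 𝒪 _ c, ?_⟩
    simp only [LinearMap.coe_comp, Function.comp_apply, Algebra.linearMap_apply,
      Submodule.mkQ_apply]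
    rw [Submodule.Quotient.eq, Ideal.smul_top_eq_map, Submodule.restrictScalars_mem, hmap,
      D.map_psi_varIdeal n, halg, AlgHom.commutes]
    have h3 : algebraMap 𝒪 (U ⧸ D.I n) c - Ideal.Quotient.mk (D.I n) x =
        Ideal.Quotient.mk (D.I n) (-(x - algebraMap 𝒪 U c)) := by
      rw [map_neg, map_sub]
      simp [← Ideal.Quotient.algebraMap_eq, ← IsScalarTower.algebraMap_apply]
    rw [h3]
    exact Ideal.mem_map_of_mem _ (neg_mem hc)
  exact key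

lemma exists_mem_pow_psi_eq (n : ℕ) (p : MvPowerSeries σ 𝒪) (hp : D.psi n p = 0) :
    ∃ t ∈ varIdeal σ 𝒪 ^ (n + 1), D.psi (n + 1) t = D.psi (n + 1) p := by
  obtain ⟨x, hx⟩ := Ideal.Quotient.mk_surjective (D.psi (n + 1) p)
  have h1 : x ∈ D.I n := by
    rw [← Ideal.Quotient.eq_zero_iff_mem, ← hp, ← D.psi_compat (Nat.le_succ n) p, ← hx,
      Ideal.Quotient.factor_mk]
  rw [D.I_succ n] at h1
  obtain ⟨y, hy, z, hz, rfl⟩ := Submodule.mem_sup.mp h1
  have h2 : Ideal.Quotient.mk (D.I (n + 1)) z ∈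
      Ideal.map (D.psi (n + 1)) (varIdeal σ 𝒪 ^ (n + 1)) := by
    rw [Ideal.map_pow, D.map_psi_varIdeal (n + 1), ← Ideal.map_pow]
    exact Ideal.mem_map_of_mem _ hz
  obtain ⟨t, ht, ht'⟩ := (Ideal.mem_map_iff_of_surjective _ (D.psi_surjective (n + 1))).mp h2
  refine ⟨t, ht, ?_⟩
  rw [ht', ← hx, map_add, Ideal.Quotient.eq_zero_iff_mem.mpr hy, zero_add]

lemma exists_lim (a : ∀ n, U ⧸ D.I n)
    (ha : ∀ (m n : ℕ) (h : m ≤ n), Ideal.Quotient.factor (D.I_anti h) (a n) = a m)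
    (N : ℕ) (p₀ : MvPowerSeries σ 𝒪) (hp₀ : D.psi N p₀ = a N) :
    ∃ p, (∀ n, D.psi n p = a n) ∧ p - p₀ ∈ varIdeal σ 𝒪 ^ (N + 1) := by
  have step : ∀ (i : ℕ) (p : MvPowerSeries σ 𝒪), D.psi (N + i) p = a (N + i) →
      ∃ p', D.psi (N + (i + 1)) p' = a (N + (i + 1)) ∧ p' - p ∈ varIdeal σ 𝒪 ^ (N + i + 1) := by
    intro i p hp
    obtain ⟨q, hq⟩ := D.psi_surjective (N + (i + 1)) (a (N + (i + 1)))
    have h0 : D.psi (N + i) (q - p) = 0 := by
      rw [map_sub, hp, ← D.psi_compat (Nat.le_succ (N + i)) q]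
      have : D.psi (N + i).succ q = a (N + (i + 1)) := hq
      rw [this]
      exact sub_eq_zero.mpr (ha _ _ (Nat.le_succ (N + i)))
    obtain ⟨t, ht, ht'⟩ := D.exists_mem_pow_psi_eq (N + i) (q - p) h0
    refine ⟨p + t, ?_, by simpa using ht⟩
    have ht'' : D.psi (N + (i + 1)) t = D.psi (N + (i + 1)) (q - p) := ht'
    rw [map_add, ht'', map_sub, hq]
    ring
  let f : (i : ℕ) → {p : MvPowerSeries σ 𝒪 // D.psi (N + i) p = a (N + i)} := fun i =>
    Nat.rec ⟨p₀, hp₀⟩ (fun i q => ⟨(step i q.1 q.2).choose, (step i q.1 q.2).choose_spec.1⟩) i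
  have hf0 : (f 0).1 = p₀ := rfl
  have hfs : ∀ i, (f (i + 1)).1 - (f i).1 ∈ varIdeal σ 𝒪 ^ (N + i + 1) := fun i =>
    (step i (f i).1 (f i).2).choose_spec.2
  have hfm : ∀ m n, m ≤ n → (f n).1 - (f m).1 ∈ varIdeal σ 𝒪 ^ (N + m + 1) := by
    intro m n h
    induction h with
    | refl => simp
    | @step k hk ih =>
      have hk' : m ≤ k := hk
      have h1 : (f (k + 1)).1 - (f k).1 ∈ varIdeal σ 𝒪 ^ (N + m + 1) :=
        Ideal.pow_le_pow_right (by omega) (hfs k)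
      have := add_mem h1 ih
      simpa using this
  obtain ⟨L, hL⟩ := IsPrecomplete.prec (I := varIdeal σ 𝒪) (M := MvPowerSeries σ 𝒪) inferInstance
    (f := fun i => (f i).1) (by
      intro m n h
      rw [SModEq.sub_mem, smul_eq_mul, Ideal.mul_top]
      have := hfm m n h
      rw [← neg_sub]
      exact neg_mem (Ideal.pow_le_pow_right (by omega) this))
  have hL' : ∀ n, L - (f n).1 ∈ varIdeal σ 𝒪 ^ n := by
    intro n
    have := hL n
    rw [SModEq.sub_mem, smul_eq_mul, Ideal.mul_top] at this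
    rw [← neg_sub]
    exact neg_mem this
  refine ⟨L, fun n => ?_, ?_⟩
  · have h1 : D.psi n (L - (f (n + 1)).1) = 0 := D.varIdeal_pow_le_ker n (hL' (n + 1))
    rw [map_sub, sub_eq_zero] at h1
    rw [h1, ← D.psi_compat (show n ≤ N + (n + 1) by omega), (f (n + 1)).2]
    exact ha _ _ (show n ≤ N + (n + 1) by omega)
  · have h1 := hL' (N + 1)
    have h2 := hfm 0 (N + 1) (Nat.zero_le _)
    rw [hf0] at h2
    have := add_mem h1 h2
    simpa using this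

/-- the kernel ideal -/
noncomputable def K : Ideal (MvPowerSeries σ 𝒪) :=
  ⨅ n, RingHom.ker (D.psi n : MvPowerSeries σ 𝒪 →+* U ⧸ D.I n)

lemma mem_K {p : MvPowerSeries σ 𝒪} : p ∈ D.K ↔ ∀ n, D.psi n p = 0 := by
  simp [K, RingHom.mem_ker]

lemma ker_psi_eq (n : ℕ) :
    RingHom.ker (D.psi n : MvPowerSeries σ 𝒪 →+* U ⧸ D.I n) = D.K ⊔ varIdeal σ 𝒪 ^ (n + 1) := by
  apply le_antisymm
  · intro p hp
    have hp' : D.psi n p = 0 := hp
    obtain ⟨t, ht, ht'⟩ := D.exists_lim (fun m => D.psi m p) (fun m k h => D.psi_compat h p) n 0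
      (by rw [map_zero, hp'])
    rw [sub_zero] at ht'
    have h1 : p - t ∈ D.K := D.mem_K.mpr fun m => by rw [map_sub, ht m, sub_self]
    have := Ideal.add_mem _ (Ideal.mem_sup_left h1) (Ideal.mem_sup_right ht' :
      t ∈ D.K ⊔ varIdeal σ 𝒪 ^ (n + 1))
    simpa using this
  · exact sup_le (iInf_le _ n) (D.varIdeal_pow_le_ker n)

/-- the limit ring -/
abbrev R : Type := MvPowerSeries σ 𝒪 ⧸ D.K

/-- the projections -/
noncomputable def pi (n : ℕ) : D.R →ₐ[𝒪] U ⧸ D.I n :=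
  Ideal.Quotient.liftₐ D.K (D.psi n) (fun _ hp => D.mem_K.mp hp n)

lemma pi_mk (n : ℕ) (p : MvPowerSeries σ 𝒪) : D.pi n (Ideal.Quotient.mk D.K p) = D.psi n p := rfl

lemma pi_surjective (n : ℕ) : Function.Surjective (D.pi n) := fun y => by
  obtain ⟨p, rfl⟩ := D.psi_surjective n y
  exact ⟨Ideal.Quotient.mk D.K p, rfl⟩

lemma ker_pi (n : ℕ) : RingHom.ker (D.pi n : D.R →+* U ⧸ D.I n) =
    Ideal.map (Ideal.Quotient.mk D.K) (varIdeal σ 𝒪) ^ (n + 1) := by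
  have h1 : RingHom.ker (D.pi n : D.R →+* U ⧸ D.I n) =
      Ideal.map (Ideal.Quotient.mk D.K)
        (RingHom.ker (D.psi n : MvPowerSeries σ 𝒪 →+* U ⧸ D.I n)) := by
    ext x
    obtain ⟨p, rfl⟩ := Ideal.Quotient.mk_surjective x
    constructor
    · intro h
      exact Ideal.mem_map_of_mem _ (show p ∈ RingHom.ker _ from h)
    · intro h
      obtain ⟨q, hq, hq'⟩ := (Ideal.mem_map_iff_of_surjective _ Ideal.Quotient.mk_surjective).mp h
      rw [← hq']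
      exact hq
  rw [h1, D.ker_psi_eq n, Ideal.map_sup, Ideal.map_quotient_self, bot_sup_eq, Ideal.map_pow]

lemma pi_injective {x y : D.R} (h : ∀ n, D.pi n x = D.pi n y) : x = y := by
  obtain ⟨p, rfl⟩ := Ideal.Quotient.mk_surjective x
  obtain ⟨q, rfl⟩ := Ideal.Quotient.mk_surjective y
  rw [Ideal.Quotient.eq, D.mem_K]
  intro n
  rw [map_sub, sub_eq_zero]
  exact h n

/-- all projections together -/
noncomputable def iota : D.R →ₐ[𝒪] (∀ n, U ⧸ D.I n) := AlgHom.pi D.pi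

lemma iota_injective : Function.Injective D.iota := fun _ _ h =>
  D.pi_injective fun n => congrFun h n

/-- the diagonal -/
noncomputable def diag : U →ₐ[𝒪] (∀ n, U ⧸ D.I n) :=
  AlgHom.pi fun n => Ideal.Quotient.mkₐ 𝒪 (D.I n)

lemma diag_mem_range (x : U) : D.diag x ∈ D.iota.range := by
  obtain ⟨p₀, hp₀⟩ := D.psi_surjective 0 (Ideal.Quotient.mk (D.I 0) x)
  obtain ⟨p, hp, -⟩ := D.exists_lim (fun n => Ideal.Quotient.mk (D.I n) x)
    (fun m n h => Ideal.Quotient.factor_mk _ _) 0 p₀ hp₀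
  refine ⟨Ideal.Quotient.mk D.K p, ?_⟩
  ext n
  exact hp n

/-- the canonical map to the limit ring -/
noncomputable def j : U →ₐ[𝒪] D.R :=
  (AlgEquiv.ofInjective D.iota D.iota_injective).symm.toAlgHom.comp
    (D.diag.codRestrict D.iota.range D.diag_mem_range)

lemma pi_j (n : ℕ) (x : U) : D.pi n (D.j x) = Ideal.Quotient.mk (D.I n) x := by
  have h1 : D.iota (D.j x) = D.diag x := by
    have := (AlgEquiv.ofInjective D.iota D.iota_injective).apply_symm_apply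
      (D.diag.codRestrict D.iota.range D.diag_mem_range x)
    exact congrArg Subtype.val this
  exact congrFun h1 n

end LimData

theorem exists_limitRing
    (𝒪 : Type) [CommRing 𝒪] [IsDomain 𝒪] [IsDiscreteValuationRing 𝒪]
    (U : Type) [CommRing U] [Algebra 𝒪 U]
    (𝔪 : Ideal U)
    (h𝔪 : ∀ u : U, ∃ c : 𝒪, u - algebraMap 𝒪 U c ∈ 𝔪)
    (h𝔪' : ∀ c : 𝒪, algebraMap 𝒪 U c ∈ 𝔪 ↔ c ∈ maximalIdeal 𝒪)
    (I : ℕ → Ideal U)
    (hI_le : ∀ n, I n ≤ 𝔪) (hI_pow : ∀ n, 𝔪 ^ (n + 1) ≤ I n)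
    (hI_succ : ∀ n, I n = I (n + 1) ⊔ 𝔪 ^ (n + 1))
    (s : ℕ) (u : Fin s → U) (hu' : ∀ i, u i ∈ 𝔪)
    (hu : ∀ n, 𝔪 ≤ I n ⊔ Ideal.span (Set.range u)) :
    ∃ (R : Type) (_ : CommRing R) (_ : IsLocalRing R) (_ : IsNoetherianRing R)
      (_ : IsAdicComplete (maximalIdeal R) R) (_ : Algebra 𝒪 R)
      (_ : IsLocalHom (algebraMap 𝒪 R)),
      Function.Surjective (IsLocalRing.residue R ∘ algebraMap 𝒪 R) ∧
      ∃ (j : U →ₐ[𝒪] R) (π : ∀ n, R →ₐ[𝒪] U ⧸ I n),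
        (∀ n x, π n (j x) = Ideal.Quotient.mk (I n) x) ∧
        (∀ n, RingHom.ker (π n : R →+* U ⧸ I n) = maximalIdeal R ^ (n + 1)) := by
  let D : LimData 𝒪 U (Fin s) :=
    { 𝔪 := 𝔪, I := I, v := u, I_le := hI_le, pow_le := hI_pow, I_succ := hI_succ, v_mem := hu'
      le_span := hu, surj := h𝔪 }
  -- `𝔪` is maximal
  have h1 : (1 : U) ∉ 𝔪 := by
    intro h
    have := (h𝔪' 1).mp (by simpa using h)
    exact (Ideal.ne_top_iff_one _).mp (IsLocalRing.maximalIdeal.isMaximal 𝒪).ne_top this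
  have hmax : 𝔪.IsMaximal := by
    rw [Ideal.isMaximal_iff]
    refine ⟨h1, fun J x hJ hx hxJ => ?_⟩
    obtain ⟨c, hc⟩ := h𝔪 x
    have hc' : c ∉ maximalIdeal 𝒪 := fun h => hx (by
      have := add_mem hc ((h𝔪' c).mpr h)
      simpa using this)
    have hcu : IsUnit c := by
      by_contra h
      exact hc' ((IsLocalRing.mem_maximalIdeal c).mpr h)
    obtain ⟨c', hcc'⟩ := hcu.exists_right_inv
    have h2 : algebraMap 𝒪 U c ∈ J := by
      have := sub_mem hxJ (hJ hc)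
      simpa using this
    have h3 := J.mul_mem_right (algebraMap 𝒪 U c') h2
    rwa [← map_mul, hcc', map_one] at h3
  have hI0 : I 0 = 𝔪 := le_antisymm (hI_le 0) (by simpa using hI_pow 0)
  haveI : (I 0).IsMaximal := hI0 ▸ hmax
  haveI : Nontrivial D.R := by
    apply Ideal.Quotient.nontrivial_iff.mpr
    intro h
    have h2 : (1 : MvPowerSeries (Fin s) 𝒪) ∈ D.K := h ▸ Submodule.mem_top
    have h3 := D.mem_K.mp h2 0
    rw [map_one] at h3
    exact one_ne_zero h3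
  haveI : IsLocalRing D.R :=
    IsLocalRing.of_surjective' (Ideal.Quotient.mk D.K) Ideal.Quotient.mk_surjective
  haveI hbot : (⊥ : Ideal (U ⧸ I 0)).IsMaximal :=
    (Ideal.bot_quotient_isMaximal_iff (I 0)).mpr inferInstance
  have hker0 : (RingHom.ker (D.pi 0 : D.R →+* U ⧸ I 0)).IsMaximal := by
    rw [RingHom.ker_eq_comap_bot]
    exact Ideal.comap_isMaximal_of_surjective _ (D.pi_surjective 0)
  have hmR : maximalIdeal D.R =
      Ideal.map (Ideal.Quotient.mk D.K) (LimData.varIdeal (Fin s) 𝒪) := by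
    have h2 := IsLocalRing.eq_maximalIdeal hker0
    have h3 := D.ker_pi 0
    rw [← h2]
    exact h3.trans (Submodule.pow_one _)
  haveI hcomp : IsAdicComplete (maximalIdeal D.R) D.R := by
    rw [hmR]
    haveI : IsAdicComplete (LimData.varIdeal (Fin s) 𝒪) D.R :=
      IsAdicComplete.of_module_finite (LimData.varIdeal (Fin s) 𝒪) D.R
    exact (IsAdicComplete.map_algebraMap_iff (LimData.varIdeal (Fin s) 𝒪) D.R
      (S := D.R)).mpr inferInstance
  have hmem : ∀ x : D.R, x ∈ maximalIdeal D.R ↔ D.pi 0 x = 0 := by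
    intro x
    rw [← IsLocalRing.eq_maximalIdeal hker0]
    exact Iff.rfl
  have hpialg : ∀ c : 𝒪, D.pi 0 (algebraMap 𝒪 D.R c) = Ideal.Quotient.mk (I 0) (algebraMap 𝒪 U c) :=
    fun c => (D.pi 0).commutes c
  haveI hloc : IsLocalHom (algebraMap 𝒪 D.R) := by
    constructor
    intro c hc
    by_contra hcu
    have h2 : c ∈ maximalIdeal 𝒪 := (IsLocalRing.mem_maximalIdeal c).mpr hcu
    have h3 : algebraMap 𝒪 D.R c ∈ maximalIdeal D.R := by
      rw [hmem, hpialg, Ideal.Quotient.eq_zero_iff_mem, hI0]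
      exact (h𝔪' c).mpr h2
    exact (IsLocalRing.mem_maximalIdeal _).mp h3 hc
  refine ⟨D.R, inferInstance, inferInstance, inferInstance, hcomp, inferInstance, hloc, ?_,
    D.j, D.pi, D.pi_j, fun n => ?_⟩
  · intro y
    obtain ⟨x, rfl⟩ := IsLocalRing.residue_surjective y
    obtain ⟨x₀, hx₀⟩ := Ideal.Quotient.mk_surjective (D.pi 0 x)
    obtain ⟨c, hc⟩ := h𝔪 x₀
    refine ⟨c, ?_⟩
    simp only [Function.comp_apply]
    rw [← sub_eq_zero, ← map_sub, IsLocalRing.residue_eq_zero_iff, hmem, map_sub, hpialg, ← hx₀,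
      ← map_sub, Ideal.Quotient.eq_zero_iff_mem, hI0, ← neg_sub]
    exact neg_mem hc
  · rw [hmR]
    exact D.ker_pi n

end Fermat.Agent.S53
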