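import Mathlib

/-!
# S53: maps out of the limit ring

Pure algebra, to be used with the output `(R, j, π)` of `exists_limitRing`.
-/

set_option autoImplicit false
set_option linter.unusedSectionVars false

namespace Fermat.Agent.S53

open IsLocalRing

section LimitMap

variable {𝒪 U R A : Type} [CommRing 𝒪] [CommRing U] [Algebra 𝒪 U] [CommRing R] [IsLocalRing R]
  [Algebra 𝒪 R] [CommRing A] [IsLocalRing A] [Algebra 𝒪 A]

/-- a local homomorphism maps powers of the maximal ideal into powers of the maximal ideal. -/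
lemma limitMap_mem_pow (φ : R →+* A) (hφ : IsLocalHom φ) (n : ℕ) {x : R}
    (hx : x ∈ maximalIdeal R ^ n) : φ x ∈ maximalIdeal A ^ n := by
  have h : (maximalIdeal R ^ n).map φ ≤ maximalIdeal A ^ n := by
    rw [Ideal.map_pow]
    exact Ideal.pow_right_mono (Ideal.map_le_iff_le_comap.mpr fun a ha =>
      Ideal.mem_comap.mpr (haveI := hφ; map_nonunit φ a ha)) n
  exact h (Ideal.mem_map_of_mem φ hx)

/-- an element lying in all powers of the maximal ideal is zero. -/
lemma limitMap_eq_zero_of_forall_mem [IsHausdorff (maximalIdeal A) A] {x : A}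
    (h : ∀ n, x ∈ maximalIdeal A ^ (n + 1)) : x = 0 := by
  refine IsHausdorff.haus ‹_› x fun n => ?_
  rw [SModEq.zero, smul_eq_mul, Ideal.mul_top]
  exact Ideal.pow_le_pow_right (Nat.le_succ n) (h n)

variable (I : ℕ → Ideal U) (j : U →ₐ[𝒪] R) (π : ∀ n, R →ₐ[𝒪] U ⧸ I n)
  (hπj : ∀ n x, π n (j x) = Ideal.Quotient.mk (I n) x)
  (hker : ∀ n, RingHom.ker (π n : R →+* U ⧸ I n) = maximalIdeal R ^ (n + 1))

include hπj hker

/-- the image of `j` is dense. -/
lemma limitMap_exists_sub_mem (n : ℕ) (x : R) : ∃ u : U, x - j u ∈ maximalIdeal R ^ (n + 1) := by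
  obtain ⟨u, hu⟩ := Ideal.Quotient.mk_surjective (π n x)
  refine ⟨u, ?_⟩
  rw [← hker n, RingHom.mem_ker]
  show π n (x - j u) = 0
  rw [map_sub, hπj, hu, sub_self]

lemma limitMap_π_eq_of_sub_mem {m n : ℕ} (hmn : m ≤ n) {x : R} {u : U}
    (h : x - j u ∈ maximalIdeal R ^ (n + 1)) : π m x = Ideal.Quotient.mk (I m) u := by
  have h1 : x - j u ∈ maximalIdeal R ^ (m + 1) :=
    Ideal.pow_le_pow_right (Nat.succ_le_succ hmn) h
  rw [← hker m, RingHom.mem_ker] at h1
  have h2 : π m (x - j u) = 0 := h1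
  rw [map_sub, hπj, sub_eq_zero] at h2
  exact h2

/-- elements of `R` are determined by their images under the `π n`. -/
theorem eq_of_forall_π [IsHausdorff (maximalIdeal R) R] {x y : R} (h : ∀ n, π n x = π n y) :
    x = y := by
  rw [← sub_eq_zero]
  refine limitMap_eq_zero_of_forall_mem fun n => ?_
  rw [← hker n, RingHom.mem_ker]
  show π n (x - y) = 0
  rw [map_sub, h n, sub_self]

/-- `j u` lies in `𝔪_R ^ (n+1)` iff `u ∈ I n`. -/
lemma limitMap_j_mem_iff (n : ℕ) (u : U) : j u ∈ maximalIdeal R ^ (n + 1) ↔ u ∈ I n := by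
  rw [← hker n, RingHom.mem_ker]
  show π n (j u) = 0 ↔ _
  rw [hπj, Ideal.Quotient.eq_zero_iff_mem]

/-- two local algebra homomorphisms out of `R` which agree on the image of `j` are equal. -/
theorem algHom_ext_of_limit [IsHausdorff (maximalIdeal A) A] (φ ψ : R →ₐ[𝒪] A)
    (hφ : IsLocalHom (φ : R →+* A)) (hψ : IsLocalHom (ψ : R →+* A))
    (h : φ.comp j = ψ.comp j) : φ = ψ := by
  ext x
  rw [← sub_eq_zero]
  refine limitMap_eq_zero_of_forall_mem fun n => ?_
  obtain ⟨u, hu⟩ := limitMap_exists_sub_mem I j π hπj hker n x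
  have h1 : φ (j u) = ψ (j u) := congrArg (fun f => f u) h
  have h2 : φ x - ψ x = φ (x - j u) - ψ (x - j u) := by
    rw [map_sub, map_sub, h1]; ring
  rw [h2]
  exact Ideal.sub_mem _ (limitMap_mem_pow (φ : R →+* A) hφ _ hu)
    (limitMap_mem_pow (ψ : R →+* A) hψ _ hu)

/-- existence of a local algebra homomorphism out of `R` extending `f`. -/
theorem exists_algHom_of_limit [IsAdicComplete (maximalIdeal A) A] (f : U →ₐ[𝒪] A)
    (hf : ∀ n, ∀ x ∈ I n, f x ∈ maximalIdeal A ^ (n + 1)) :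
    ∃ φ : R →ₐ[𝒪] A, IsLocalHom (φ : R →+* A) ∧ φ.comp j = f := by
  -- the level maps
  let g : ∀ n : ℕ, (U ⧸ I n) →ₐ[𝒪] A ⧸ maximalIdeal A ^ n := fun n =>
    Ideal.Quotient.liftₐ (I n) ((Ideal.Quotient.mkₐ 𝒪 (maximalIdeal A ^ n)).comp f) (by
      intro x hx
      show Ideal.Quotient.mk (maximalIdeal A ^ n) (f x) = 0
      rw [Ideal.Quotient.eq_zero_iff_mem]
      exact Ideal.pow_le_pow_right (Nat.le_succ n) (hf n x hx))
  have hg : ∀ n u, g n (Ideal.Quotient.mk (I n) u) = Ideal.Quotient.mk (maximalIdeal A ^ n) (f u) :=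
    fun n u => rfl
  let F : ∀ n : ℕ, R →ₐ[𝒪] A ⧸ maximalIdeal A ^ n := fun n => (g n).comp (π n)
  have hF : ∀ {m n : ℕ} (hle : m ≤ n),
      (Ideal.Quotient.factorₐ 𝒪 (Ideal.pow_le_pow_right hle)).comp (F n) = F m := by
    intro m n hle
    ext x
    obtain ⟨u, hu⟩ := limitMap_exists_sub_mem I j π hπj hker n x
    show Ideal.Quotient.factorₐ 𝒪 (Ideal.pow_le_pow_right hle) (g n (π n x)) = g m (π m x)
    rw [limitMap_π_eq_of_sub_mem I j π hπj hker le_rfl hu,
      limitMap_π_eq_of_sub_mem I j π hπj hker hle hu, hg, hg]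
    rfl
  let φ : R →ₐ[𝒪] A := IsAdicComplete.liftAlgHom (maximalIdeal A) F hF
  have hφ : ∀ n x, Ideal.Quotient.mk (maximalIdeal A ^ n) (φ x) = F n x := fun n x =>
    IsAdicComplete.mk_liftAlgHom (maximalIdeal A) F hF n x
  have hφj : φ.comp j = f := by
    refine IsAdicComplete.algHom_ext (maximalIdeal A) fun n => ?_
    ext u
    show Ideal.Quotient.mk (maximalIdeal A ^ n) (φ (j u)) = Ideal.Quotient.mk _ (f u)
    rw [hφ]
    show g n (π n (j u)) = _
    rw [hπj, hg]
  refine ⟨φ, ?_, hφj⟩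
  refine ((IsLocalRing.local_hom_TFAE (φ : R →+* A)).out 0 3).2 ?_
  intro x hx
  rw [Ideal.mem_comap]
  show φ x ∈ maximalIdeal A
  obtain ⟨u, hu⟩ := limitMap_exists_sub_mem I j π hπj hker 1 x
  have hju : j u ∈ maximalIdeal R ^ (0 + 1) := by
    rw [zero_add, pow_one]
    have h1 : x - j u ∈ maximalIdeal R := Ideal.pow_le_self (by norm_num) hu
    have := Ideal.sub_mem _ hx h1
    simpa using this
  have hu0 : u ∈ I 0 := (limitMap_j_mem_iff I j π hπj hker 0 u).1 hju
  have hfu : f u ∈ maximalIdeal A := by simpa using hf 0 u hu0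
  have h1 : Ideal.Quotient.mk (maximalIdeal A ^ 1) (φ x) = Ideal.Quotient.mk _ (f u) := by
    rw [hφ]
    show g 1 (π 1 x) = _
    rw [limitMap_π_eq_of_sub_mem I j π hπj hker le_rfl hu, hg]
  rw [Ideal.Quotient.eq, pow_one] at h1
  have := Ideal.add_mem _ h1 hfu
  simpa using this

end LimitMap

end Fermat.Agent.S53
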