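import Fermat.Agent.S53.GoodAx
import Fermat.Agent.S53.LimitMap

/-!
# S53, piece R4: the universal matrix representation
-/

set_option autoImplicit false
set_option linter.unusedSectionVars false

namespace Fermat.Agent.S53

open IsLocalRing GaloisRep

variable {𝒪 : Type} [CommRing 𝒪] [IsLocalRing 𝒪]
variable {𝒟 : ∀ ⦃A : Type⦄ [CommRing A] [IsLocalRing A] [Algebra 𝒪 A], GaloisRepAdic A → Prop}
variable {rbar : GQ →* M2 (ResidueField 𝒪)} {S : SliceIdx GQ} {c : Fin 3 → 𝒪}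
variable {I : ℕ → Ideal (Adm.U 𝒪 GQ)}
variable {R : Type} [CommRing R] [IsLocalRing R] [IsNoetherianRing R]
  [IsAdicComplete (maximalIdeal R) R] [Algebra 𝒪 R] [IsLocalHom (algebraMap 𝒪 R)]
variable {j : Adm.U 𝒪 GQ →ₐ[𝒪] R} {π : ∀ n, R →ₐ[𝒪] Adm.U 𝒪 GQ ⧸ I n}

/-- R4: the universal matrix representation is a normalised continuous lift of type `𝒟`. -/
theorem exists_runiv (h𝒟 : IsDeformationCondition 𝒪 𝒟)
    (hadm : ∀ n, Adm.IsAdm (Good 𝒟 rbar S c) (I n))
    (hres : Function.Surjective (residue R ∘ algebraMap 𝒪 R))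
    (hπj : ∀ n x, π n (j x) = Ideal.Quotient.mk (I n) x)
    (hker : ∀ n, RingHom.ker (π n : R →+* Adm.U 𝒪 GQ ⧸ I n) = maximalIdeal R ^ (n + 1)) :
    ∃ runiv : GQ →* M2 R, (∀ σ i k, runiv σ i k = j (MvPolynomial.X (σ, i, k))) ∧
      IsDefo 𝒟 rbar S c runiv := by
  classical
  let f : GQ → M2 R := fun σ => Matrix.of fun i k => j (MvPolynomial.X (σ, i, k))
  have hf : ∀ σ i k, f σ i k = j (MvPolynomial.X (σ, i, k)) := fun _ _ _ => rfl
  -- compatibility with the levels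
  have hπf : ∀ (n : ℕ) (rn : GQ →* M2 (Adm.U 𝒪 GQ ⧸ I n)),
      (rn : GQ → M2 (Adm.U 𝒪 GQ ⧸ I n)) = Adm.taut (I n) → ∀ σ i k, π n (f σ i k) = rn σ i k := by
    intro n rn hrn σ i k
    rw [hf, hπj, hrn]
    rfl
  have hone : f 1 = 1 := by
    ext i k
    refine eq_of_forall_π I j π hπj hker fun n => ?_
    obtain ⟨hloc, htest, rn, hrn, hdef⟩ := hadm n
    rw [hπf n rn hrn, map_one]
    by_cases hik : i = k
    · subst hik; simp
    · simp [hik]
  have hmul : ∀ σ τ, f (σ * τ) = f σ * f τ := by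
    intro σ τ
    ext i k
    refine eq_of_forall_π I j π hπj hker fun n => ?_
    obtain ⟨hloc, htest, rn, hrn, hdef⟩ := hadm n
    rw [hπf n rn hrn, map_mul, Matrix.mul_apply, Matrix.mul_apply, map_sum]
    refine Finset.sum_congr rfl fun l _ => ?_
    rw [map_mul, hπf n rn hrn, hπf n rn hrn]
  let runiv : GQ →* M2 R := { toFun := f, map_one' := hone, map_mul' := hmul }
  have hrun : ∀ σ i k, runiv σ i k = j (MvPolynomial.X (σ, i, k)) := fun _ _ _ => rfl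
  have hπr : ∀ (n : ℕ) (rn : GQ →* M2 (Adm.U 𝒪 GQ ⧸ I n)),
      (rn : GQ → M2 (Adm.U 𝒪 GQ ⧸ I n)) = Adm.taut (I n) →
      ∀ σ i k, π n (runiv σ i k) = rn σ i k := hπf
  have hcont : MatCont runiv := by
    intro m
    obtain ⟨hloc, htest, rn, hrn, hdef⟩ := hadm m
    obtain ⟨N, hN⟩ := Adm.exists_pow_max_eq_bot htest
    obtain ⟨L, hL, h⟩ := hdef.cont N
    refine ⟨L, hL, fun σ hσ i k => ?_⟩
    have h1 := h σ hσ i k
    rw [hN, Ideal.mem_bot] at h1
    have h2 : (runiv σ - 1) i k ∈ maximalIdeal R ^ (m + 1) := by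
      rw [← hker m, RingHom.mem_ker]
      show π m ((runiv σ - 1) i k) = 0
      rw [Matrix.sub_apply, map_sub, hπr m rn hrn, ← h1, Matrix.sub_apply]
      congr 1
      by_cases hik : i = k
      · subst hik; simp
      · simp [hik]
    exact Ideal.pow_le_pow_right (Nat.le_succ m) h2
  have hlift : IsLift rbar runiv := by
    intro σ i k x hx
    obtain ⟨hloc, htest, rn, hrn, hdef⟩ := hadm 0
    have h1 := hdef.lift σ i k x hx
    rw [← hπr 0 rn hrn, ← AlgHom.commutes (π 0), ← map_sub] at h1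
    exact (mem_maximalIdeal _).mpr fun hu => (mem_maximalIdeal _).mp h1 (hu.map (π 0))
  have hnorm : IsNormalized S c runiv := by
    intro s
    refine eq_of_forall_π I j π hπj hker fun n => ?_
    obtain ⟨hloc, htest, rn, hrn, hdef⟩ := hadm n
    rw [hπr n rn hrn, hdef.norm s, AlgHom.commutes]
  refine ⟨runiv, hrun, hcont, hlift, hnorm, ?_⟩
  rw [h𝒟.iff_forall_surjective inferInstance hres]
  intro B _ _ _ hB q hq hqs
  obtain ⟨N, hN⟩ := Adm.exists_pow_max_eq_bot hB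
  obtain ⟨hloc, htest, rn, hrn, hdef⟩ := hadm N
  let q' : (Adm.U 𝒪 GQ ⧸ I N) →ₐ[𝒪] B := Ideal.Quotient.liftₐ (I N) (q.comp j) (by
    intro x hx
    have h1 : j x ∈ maximalIdeal R ^ (N + 1) := (limitMap_j_mem_iff I j π hπj hker N x).mpr hx
    have h2 := limitMap_mem_pow (q : R →+* B) hq (N + 1) h1
    rw [pow_succ, hN, Ideal.bot_mul, Ideal.mem_bot] at h2
    exact h2)
  have hq' : IsLocalHom (q' : (Adm.U 𝒪 GQ ⧸ I N) →+* B) := isLocalHom_of_test htest q'
  have hmap : mapMat (q' : (Adm.U 𝒪 GQ ⧸ I N) →+* B) rn = mapMat (q : R →+* B) runiv := by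
    ext σ i k
    rw [mapMat_apply, mapMat_apply, hrun, hrn]
    rfl
  have h1 : 𝒟 ((ofMat rn hdef.cont).baseChangeAlong (q' : (Adm.U 𝒪 GQ ⧸ I N) →+* B) hq') :=
    h𝒟.baseChangeAlong htest hB q' hq' hdef.type
  have e1 := baseChangeAlong_ofMat (q' : (Adm.U 𝒪 GQ ⧸ I N) →+* B) hq' rn hdef.cont
    (hdef.cont.mapMat _ hq')
  have e2 := baseChangeAlong_ofMat (q : R →+* B) hq runiv hcont (hcont.mapMat _ hq)
  have e3 : (ofMat (mapMat (q' : (Adm.U 𝒪 GQ ⧸ I N) →+* B) rn) (hdef.cont.mapMat _ hq')).IsEquiv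
      (ofMat (mapMat (q : R →+* B) runiv) (hcont.mapMat _ hq)) := by
    rw [ofMat_isEquiv_iff]
    exact ⟨1, fun σ => by rw [hmap]; simp⟩
  exact h𝒟.of_isEquiv hB (isEquiv_trans e1 (isEquiv_trans e3 (isEquiv_symm e2))) h1

end Fermat.Agent.S53
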