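import Fermat.Agent.S53.GoodAx

/-!
# S53: a locality lemma
-/

set_option autoImplicit false

namespace Fermat.Agent.S53

open IsLocalRing GaloisRep

variable {𝒪 : Type} [CommRing 𝒪] [IsLocalRing 𝒪]
variable {𝒟 : ∀ ⦃A : Type⦄ [CommRing A] [IsLocalRing A] [Algebra 𝒪 A], GaloisRepAdic A → Prop}
variable {rbar : GQ →* M2 (ResidueField 𝒪)} {S : SliceIdx GQ} {c : Fin 3 → 𝒪}
variable {I : ℕ → Ideal (Adm.U 𝒪 GQ)}
variable {R : Type} [CommRing R] [IsLocalRing R] [IsNoetherianRing R]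
  [IsAdicComplete (maximalIdeal R) R] [Algebra 𝒪 R] [IsLocalHom (algebraMap 𝒪 R)]
variable {j : Adm.U 𝒪 GQ →ₐ[𝒪] R} {π : ∀ n, R →ₐ[𝒪] Adm.U 𝒪 GQ ⧸ I n}

omit [IsNoetherianRing R] [IsAdicComplete (maximalIdeal R) R] [IsLocalHom (algebraMap 𝒪 R)] in
/-- any `𝒪`-algebra map from a local `𝒪`-algebra to a local `𝒪`-algebra with residue field `k`
is local. -/
theorem isLocalHom_of_residue_surjective
    (A : Type) [CommRing A] [IsLocalRing A] [Algebra 𝒪 A] [IsLocalHom (algebraMap 𝒪 A)]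
    (hA : Function.Surjective (residue A ∘ algebraMap 𝒪 A)) (φ : R →ₐ[𝒪] A) :
    IsLocalHom (φ : R →+* A) := by
  constructor
  intro x hx
  by_contra hnu
  obtain ⟨a, ha⟩ := hA (residue A (φ x))
  have ha' : residue A (algebraMap 𝒪 A a) = residue A (φ x) := ha
  have h1 : IsUnit (algebraMap 𝒪 A a) := by
    rw [← residue_ne_zero_iff_isUnit, ha', residue_ne_zero_iff_isUnit]
    exact hx
  have h2 : IsUnit a := isUnit_of_map_unit (algebraMap 𝒪 A) a h1
  have h3 : IsUnit (algebraMap 𝒪 R a) := h2.map _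
  have h4 : IsUnit (algebraMap 𝒪 R a - x) := by
    by_contra h
    have h5 : algebraMap 𝒪 R a - x ∈ maximalIdeal R := (mem_maximalIdeal _).mpr h
    have h6 : x ∈ maximalIdeal R := (mem_maximalIdeal _).mpr hnu
    have h7 := Ideal.add_mem _ h5 h6
    rw [sub_add_cancel] at h7
    exact (mem_maximalIdeal _).mp h7 h3
  have h5 : IsUnit (φ (algebraMap 𝒪 R a - x)) := h4.map φ
  rw [map_sub, AlgHom.commutes, ← residue_ne_zero_iff_isUnit, map_sub, ha', sub_self] at h5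
  exact h5 rfl

end Fermat.Agent.S53
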