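import Fermat.Agent.S53.Complete

/-!
# S53, piece R5: the universal property of the universal matrix representation
owner: helper21
-/

set_option autoImplicit false

namespace Fermat.Agent.S53

open IsLocalRing GaloisRep

variable {𝒪 : Type} [CommRing 𝒪] [IsLocalRing 𝒪]
variable {𝒟 : ∀ ⦃A : Type⦄ [CommRing A] [IsLocalRing A] [Algebra 𝒪 A], GaloisRepAdic A → Prop}
variable {rbar : GQ →* M2 (ResidueField 𝒪)} {S : SliceIdx GQ} {c : Fin 3 → 𝒪}
variable {I : ℕ → Ideal (Adm.U 𝒪 GQ)}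
variable {R : Type} [CommRing R] [IsLocalRing R] [IsNoetherianRing R]
  [IsAdicComplete (maximalIdeal R) R] [Algebra 𝒪 R] [IsLocalHom (algebraMap 𝒪 R)]
variable {j : Adm.U 𝒪 GQ →ₐ[𝒪] R} {π : ∀ n, R →ₐ[𝒪] Adm.U 𝒪 GQ ⧸ I n}

omit [IsNoetherianRing R] [IsAdicComplete (maximalIdeal R) R] [IsLocalHom (algebraMap 𝒪 R)] in
/-- any `𝒪`-algebra map from a local `𝒪`-algebra to a local `𝒪`-algebra with residue field `k`
is local. -/
theorem univProp_isLocalHom
    (A : Type) [CommRing A] [IsLocalRing A] [Algebra 𝒪 A] [IsLocalHom (algebraMap 𝒪 A)]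
    (hA : Function.Surjective (residue A ∘ algebraMap 𝒪 A)) (φ : R →ₐ[𝒪] A) :
    IsLocalHom (φ : R →+* A) := by
  constructor
  intro x hx
  by_contra hnu
  obtain ⟨a, ha⟩ := hA (residue A (φ x))
  have ha' : residue A (algebraMap 𝒪 A a) = residue A (φ x) := ha
  have h1 : IsUnit (algebraMap 𝒪 A a) := by
    rw [← residue_ne_zero_iff_isUnit, ha', residue_ne_zero_iff_isUnit]
    exact hx
  have h2 : IsUnit a := isUnit_of_map_unit (algebraMap 𝒪 A) a h1
  have h3 : IsUnit (algebraMap 𝒪 R a) := h2.map _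
  have h4 : IsUnit (algebraMap 𝒪 R a - x) := by
    by_contra h
    have h5 : algebraMap 𝒪 R a - x ∈ maximalIdeal R := (mem_maximalIdeal _).mpr h
    have h6 : x ∈ maximalIdeal R := (mem_maximalIdeal _).mpr hnu
    have h7 := Ideal.add_mem _ h5 h6
    rw [sub_add_cancel] at h7
    exact (mem_maximalIdeal _).mp h7 h3
  have h5 : IsUnit (φ (algebraMap 𝒪 R a - x)) := h4.map φ
  rw [map_sub, AlgHom.commutes, ← residue_ne_zero_iff_isUnit, map_sub, ha', sub_self] at h5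
  exact h5 rfl

/-- R5: the universal property, in matrix form. -/
theorem runiv_universal (h𝒟 : IsDeformationCondition 𝒪 𝒟)
    (hmin : ∀ (n : ℕ) (A : Type) [CommRing A] [IsLocalRing A] [Algebra 𝒪 A]
      (r : GQ → Matrix (Fin 2) (Fin 2) A), Good 𝒟 rbar S c A r → maximalIdeal A ^ (n + 1) = ⊥ →
        I n ≤ RingHom.ker (Adm.ev r : Adm.U 𝒪 GQ →ₐ[𝒪] A))
    (hπj : ∀ n x, π n (j x) = Ideal.Quotient.mk (I n) x)
    (hker : ∀ n, RingHom.ker (π n : R →+* Adm.U 𝒪 GQ ⧸ I n) = maximalIdeal R ^ (n + 1))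
    (runiv : GQ →* M2 R) (hruniv : ∀ σ i k, runiv σ i k = j (MvPolynomial.X (σ, i, k)))
    (A : Type) [CommRing A] [IsLocalRing A] [IsNoetherianRing A]
    [IsAdicComplete (maximalIdeal A) A] [Algebra 𝒪 A] [IsLocalHom (algebraMap 𝒪 A)]
    (hA : Function.Surjective (residue A ∘ algebraMap 𝒪 A))
    (r : GQ →* M2 A) (hr : IsDefo 𝒟 rbar S c r) :
    ∃! φ : R →ₐ[𝒪] A, mapMat (φ : R →+* A) runiv = r := by
  obtain ⟨φ, hφ, hφj⟩ := exists_algHom_of_limit I j π hπj hker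
    (Adm.ev (r : GQ → Matrix (Fin 2) (Fin 2) A) : Adm.U 𝒪 GQ →ₐ[𝒪] A)
    (fun n => ev_mem_pow_of_least h𝒟 inferInstance hA hr n (I n) (hmin n))
  have key : ∀ ψ : R →ₐ[𝒪] A, mapMat (ψ : R →+* A) runiv = r ↔
      ψ.comp j = (Adm.ev (r : GQ → Matrix (Fin 2) (Fin 2) A) : Adm.U 𝒪 GQ →ₐ[𝒪] A) := by
    intro ψ
    constructor
    · intro h
      apply MvPolynomial.algHom_ext
      rintro ⟨σ, i, k⟩
      rw [AlgHom.comp_apply, Adm.ev_X, ← hruniv, ← h]
      rfl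
    · intro h
      ext σ i k
      rw [mapMat_apply, hruniv]
      have := congrArg (fun f => f (MvPolynomial.X (σ, i, k))) h
      simpa using this
  refine ⟨φ, (key φ).2 hφj, fun ψ hψ => ?_⟩
  exact algHom_ext_of_limit I j π hπj hker ψ φ (univProp_isLocalHom A hA ψ) hφ
    (((key ψ).1 hψ).trans hφj.symm)

end Fermat.Agent.S53
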