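import Mathlib
import Fermat.Prelude.Def_GaloisRep_DeformationCondition

/-!
# S53, piece E1/E2: admissible ideals of the free algebra on matrix entries (abstract version)
-/

set_option autoImplicit false
set_option linter.style.haveILetI false
set_option linter.unusedSectionVars false

namespace Fermat.Agent.S53.Adm

open IsLocalRing GaloisRep

/-- the free `𝒪`-algebra on the matrix entries. -/
abbrev U (𝒪 : Type) [CommRing 𝒪] (G : Type) : Type := MvPolynomial (G × Fin 2 × Fin 2) 𝒪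

variable {𝒪 : Type} [CommRing 𝒪] {G : Type}

/-- evaluation of the free algebra at a matrix valued function. -/
noncomputable def ev {A : Type} [CommRing A] [Algebra 𝒪 A] (r : G → Matrix (Fin 2) (Fin 2) A) :
    U 𝒪 G →ₐ[𝒪] A :=
  MvPolynomial.aeval fun p => r p.1 p.2.1 p.2.2

/-- the tautological matrix valued function on a quotient of the free algebra. -/
noncomputable def taut (I : Ideal (U 𝒪 G)) : G → Matrix (Fin 2) (Fin 2) (U 𝒪 G ⧸ I) :=
  fun g => Matrix.of fun i j => Ideal.Quotient.mk I (MvPolynomial.X (g, i, j))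

variable [IsLocalRing 𝒪]

/-- The closure properties of the class of "good" pairs `(A, r)`. -/
structure GoodAxioms (rbar : G → Matrix (Fin 2) (Fin 2) (ResidueField 𝒪))
    (Good : ∀ (A : Type) [CommRing A] [IsLocalRing A] [Algebra 𝒪 A],
      (G → Matrix (Fin 2) (Fin 2) A) → Prop) : Prop where
  test : ∀ {A : Type} [CommRing A] [IsLocalRing A] [Algebra 𝒪 A]
    {r : G → Matrix (Fin 2) (Fin 2) A}, Good A r → IsArtinianTestAlgebra 𝒪 A
  lifts : ∀ {A : Type} [CommRing A] [IsLocalRing A] [Algebra 𝒪 A]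
    {r : G → Matrix (Fin 2) (Fin 2) A}, Good A r → ∀ (g : G) (i j : Fin 2) (c : 𝒪),
      residue 𝒪 c = rbar g i j → r g i j - algebraMap 𝒪 A c ∈ maximalIdeal A
  bar : Good (ResidueField 𝒪) rbar
  map : ∀ {A B : Type} [CommRing A] [IsLocalRing A] [Algebra 𝒪 A]
    [CommRing B] [IsLocalRing B] [Algebra 𝒪 B] {r : G → Matrix (Fin 2) (Fin 2) A},
    Good A r → IsArtinianTestAlgebra 𝒪 B → ∀ φ : A →ₐ[𝒪] B, Good B (fun g => (r g).map φ)
  of_injective : ∀ {A B : Type} [CommRing A] [IsLocalRing A] [Algebra 𝒪 A]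
    [CommRing B] [IsLocalRing B] [Algebra 𝒪 B] {r : G → Matrix (Fin 2) (Fin 2) A},
    IsArtinianTestAlgebra 𝒪 A → ∀ φ : A →ₐ[𝒪] B, Function.Injective φ →
      Good B (fun g => (r g).map φ) → Good A r
  of_fibreProduct : ∀ {A B C P : Type} [CommRing A] [IsLocalRing A] [Algebra 𝒪 A]
    [CommRing B] [IsLocalRing B] [Algebra 𝒪 B] [CommRing C] [IsLocalRing C] [Algebra 𝒪 C]
    [CommRing P] [IsLocalRing P] [Algebra 𝒪 P],
    IsArtinianTestAlgebra 𝒪 C → IsArtinianTestAlgebra 𝒪 P →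
    ∀ (f : A →ₐ[𝒪] C) (g : B →ₐ[𝒪] C) (pA : P →ₐ[𝒪] A) (pB : P →ₐ[𝒪] B),
      f.comp pA = g.comp pB →
      Function.Injective (fun x => (pA x, pB x)) →
      (∀ a b, f a = g b → ∃ x, pA x = a ∧ pB x = b) →
      ∀ {r : G → Matrix (Fin 2) (Fin 2) P},
        Good A (fun s => (r s).map pA) → Good B (fun s => (r s).map pB) → Good P r

/-- admissible ideals. -/
def IsAdm (Good : ∀ (A : Type) [CommRing A] [IsLocalRing A] [Algebra 𝒪 A],
      (G → Matrix (Fin 2) (Fin 2) A) → Prop) (I : Ideal (U 𝒪 G)) : Prop :=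
  ∃ _ : IsLocalRing (U 𝒪 G ⧸ I), Good (U 𝒪 G ⧸ I) (taut I)


section basic

variable {A B : Type} [CommRing A] [Algebra 𝒪 A] [CommRing B] [Algebra 𝒪 B]

omit [IsLocalRing 𝒪] in
@[simp] lemma ev_X (r : G → Matrix (Fin 2) (Fin 2) A) (g : G) (i j : Fin 2) :
    ev (𝒪 := 𝒪) r (MvPolynomial.X (g, i, j)) = r g i j := by
  simp [ev]

omit [IsLocalRing 𝒪] in
lemma ev_map (φ : A →ₐ[𝒪] B) (r : G → Matrix (Fin 2) (Fin 2) A) :
    ev (𝒪 := 𝒪) (fun g => (r g).map φ) = φ.comp (ev r) := by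
  apply MvPolynomial.algHom_ext
  rintro ⟨g, i, j⟩
  simp

omit [IsLocalRing 𝒪] in
lemma ev_taut (I : Ideal (U 𝒪 G)) : ev (𝒪 := 𝒪) (taut I) = Ideal.Quotient.mkₐ 𝒪 I := by
  apply MvPolynomial.algHom_ext
  rintro ⟨g, i, j⟩
  simp [taut]

omit [IsLocalRing 𝒪] in
lemma taut_map_factor {I J : Ideal (U 𝒪 G)} (h : I ≤ J) :
    (fun g => (taut I g).map (Ideal.Quotient.factorₐ 𝒪 h)) = taut J := by
  funext g
  ext i j
  simp [taut]

omit [IsLocalRing 𝒪] in
lemma taut_map_kerLift (r : G → Matrix (Fin 2) (Fin 2) A) :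
    (fun g => (taut (RingHom.ker (ev (𝒪 := 𝒪) r)) g).map (Ideal.kerLiftAlg (ev (𝒪 := 𝒪) r))) = r := by
  funext g
  ext i j
  simp [taut]

end basic

section testalg

variable {A : Type} [CommRing A] [IsLocalRing A] [Algebra 𝒪 A]

/-- an Artinian test algebra over a ring with finite residue field is finite. -/
lemma finite_of_test [Finite (ResidueField 𝒪)] (hA : IsArtinianTestAlgebra 𝒪 A) : Finite A := by
  haveI := hA.isArtinian
  haveI := hA.isLocalHom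
  have hfin : Finite (A ⧸ maximalIdeal A) := by
    have hs : Function.Surjective (ResidueField.map (algebraMap 𝒪 A)) := by
      intro x
      obtain ⟨c, hc⟩ := hA.residue_surjective x
      exact ⟨residue 𝒪 c, by rw [ResidueField.map_residue]; exact hc⟩
    exact Finite.of_surjective _ hs
  obtain ⟨n, hn⟩ : ∃ n, maximalIdeal A ^ n = ⊥ := by
    have := IsArtinianRing.isNilpotent_jacobson_bot (R := A)
    rw [IsLocalRing.jacobson_eq_maximalIdeal ⊥ bot_ne_top] at this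
    exact this
  have h2 : Finite (A ⧸ maximalIdeal A ^ n) :=
    Ideal.finite_quotient_pow (IsNoetherian.noetherian _) n
  rw [hn] at h2
  exact Finite.of_equiv _ (RingEquiv.quotientBot A).toEquiv

lemma exists_pow_max_eq_bot (hA : IsArtinianTestAlgebra 𝒪 A) : ∃ n, maximalIdeal A ^ n = ⊥ := by
  haveI := hA.isArtinian
  have := IsArtinianRing.isNilpotent_jacobson_bot (R := A)
  rw [IsLocalRing.jacobson_eq_maximalIdeal ⊥ bot_ne_top] at this
  exact this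

end testalg


section mU

variable (rbar : G → Matrix (Fin 2) (Fin 2) (ResidueField 𝒪))

/-- the maximal ideal of `U` cut out by `rbar`. -/
noncomputable def mU : Ideal (U 𝒪 G) := RingHom.ker (ev rbar : U 𝒪 G →ₐ[𝒪] ResidueField 𝒪)

lemma ev_C (c : 𝒪) : ev rbar (MvPolynomial.C c : U 𝒪 G) = residue 𝒪 c := by
  simp [ev]

lemma ev_rbar_surjective : Function.Surjective (ev rbar : U 𝒪 G →ₐ[𝒪] ResidueField 𝒪) := by
  intro x
  obtain ⟨c, rfl⟩ := residue_surjective x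
  exact ⟨MvPolynomial.C c, ev_C rbar c⟩

instance mU_isMaximal : (mU rbar).IsMaximal :=
  RingHom.ker_isMaximal_of_surjective _ (ev_rbar_surjective rbar)

lemma exists_sub_C_mem (f : U 𝒪 G) : ∃ c : 𝒪, f - MvPolynomial.C c ∈ mU rbar := by
  obtain ⟨c, hc⟩ := residue_surjective (ev rbar f)
  refine ⟨c, ?_⟩
  rw [mU, RingHom.mem_ker]
  simp [hc]

lemma C_mem_mU_iff (c : 𝒪) : (MvPolynomial.C c : U 𝒪 G) ∈ mU rbar ↔ c ∈ maximalIdeal 𝒪 := by
  rw [mU, RingHom.mem_ker]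
  change ev rbar (MvPolynomial.C c : U 𝒪 G) = 0 ↔ _
  rw [ev_C, residue_eq_zero_iff]

variable {rbar}

lemma comap_ev_max {A : Type} [CommRing A] [IsLocalRing A] [Algebra 𝒪 A]
    (hloc : IsLocalHom (algebraMap 𝒪 A)) (r : G → Matrix (Fin 2) (Fin 2) A)
    (hl : ∀ (g : G) (i j : Fin 2) (c : 𝒪), residue 𝒪 c = rbar g i j →
      r g i j - algebraMap 𝒪 A c ∈ maximalIdeal A) :
    (maximalIdeal A).comap (ev r : U 𝒪 G →ₐ[𝒪] A) = mU rbar := by
  have key : (residue A).comp (ev r : U 𝒪 G →ₐ[𝒪] A).toRingHom =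
      (ResidueField.map (algebraMap 𝒪 A)).comp (ev rbar : U 𝒪 G →ₐ[𝒪] ResidueField 𝒪).toRingHom := by
    apply MvPolynomial.ringHom_ext
    · intro c
      simp only [RingHom.comp_apply, AlgHom.toRingHom_eq_coe, RingHom.coe_coe]
      rw [ev_C, ResidueField.map_residue]
      simp [ev]
    · rintro ⟨g, i, j⟩
      simp only [RingHom.comp_apply, AlgHom.toRingHom_eq_coe, RingHom.coe_coe, ev_X]
      obtain ⟨c, hc⟩ := residue_surjective (rbar g i j)
      rw [← hc, ResidueField.map_residue]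
      have := hl g i j c hc
      rw [← residue_eq_zero_iff, map_sub, sub_eq_zero] at this
      exact this
  ext f
  rw [Ideal.mem_comap, ← residue_eq_zero_iff, mU, RingHom.mem_ker]
  have h1 := congrArg (fun ψ => ψ f) key
  simp only [RingHom.comp_apply, AlgHom.toRingHom_eq_coe, RingHom.coe_coe] at h1
  rw [h1]
  exact map_eq_zero_iff _ (RingHom.injective _)

lemma isNilpotent_mk_of_mem {I : Ideal (U 𝒪 G)} {n : ℕ} (h2 : mU rbar ^ n ≤ I) {f : U 𝒪 G}
    (hf : f ∈ mU rbar) : IsNilpotent (Ideal.Quotient.mk I f) :=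
  ⟨n, by rw [← map_pow]; exact Ideal.Quotient.eq_zero_iff_mem.mpr (h2 (Ideal.pow_mem_pow hf n))⟩

lemma isUnit_mk_of_not_mem {I : Ideal (U 𝒪 G)} {n : ℕ} (h2 : mU rbar ^ n ≤ I) {f : U 𝒪 G}
    (hf : f ∉ mU rbar) : IsUnit (Ideal.Quotient.mk I f) := by
  obtain ⟨y, i, hi, hyi⟩ := (mU_isMaximal rbar).exists_inv hf
  have h3 : Ideal.Quotient.mk I y * Ideal.Quotient.mk I f = 1 - Ideal.Quotient.mk I i := by
    rw [← map_mul, ← map_one (Ideal.Quotient.mk I), ← map_sub, ← hyi]; congr 1; ring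
  have h4 : IsUnit (1 - Ideal.Quotient.mk I i) := (isNilpotent_mk_of_mem h2 hi).isUnit_one_sub
  rw [← h3] at h4
  exact isUnit_of_mul_isUnit_right h4

/-- criterion for a quotient of `U` to be an Artinian test algebra. -/
lemma test_quotient (I : Ideal (U 𝒪 G)) (h1 : I ≤ mU rbar) (n : ℕ) (h2 : mU rbar ^ n ≤ I)
    [Finite (U 𝒪 G ⧸ I)] :
    ∃ _ : IsLocalRing (U 𝒪 G ⧸ I), IsArtinianTestAlgebra 𝒪 (U 𝒪 G ⧸ I) := by
  have hne : I ≠ ⊤ := fun h => (mU_isMaximal rbar).ne_top (top_le_iff.mp (h ▸ h1))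
  have : Nontrivial (U 𝒪 G ⧸ I) := Ideal.Quotient.nontrivial_iff.mpr hne
  have hloc : IsLocalRing (U 𝒪 G ⧸ I) := by
    apply IsLocalRing.of_isUnit_or_isUnit_one_sub_self
    intro a
    obtain ⟨f, rfl⟩ := Ideal.Quotient.mk_surjective a
    by_cases hf : f ∈ mU rbar
    · right
      exact (isNilpotent_mk_of_mem h2 hf).isUnit_one_sub
    · left
      exact isUnit_mk_of_not_mem h2 hf
  refine ⟨hloc, ?_, ?_, inferInstance⟩
  · refine ⟨fun c hc => ?_⟩
    by_contra hcu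
    have h3 : (MvPolynomial.C c : U 𝒪 G) ∈ mU rbar := (C_mem_mU_iff rbar c).mpr hcu
    have h4 : IsNilpotent (Ideal.Quotient.mk I (MvPolynomial.C c : U 𝒪 G)) :=
      isNilpotent_mk_of_mem h2 h3
    exact h4.not_isUnit hc
  · intro x
    obtain ⟨a, rfl⟩ := residue_surjective x
    obtain ⟨f, rfl⟩ := Ideal.Quotient.mk_surjective a
    obtain ⟨c, hc⟩ := exists_sub_C_mem rbar f
    refine ⟨c, ?_⟩
    have h4 : IsNilpotent (Ideal.Quotient.mk I (f - MvPolynomial.C c)) :=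
      isNilpotent_mk_of_mem h2 hc
    have h5 : Ideal.Quotient.mk I (f - MvPolynomial.C c) ∈ maximalIdeal (U 𝒪 G ⧸ I) :=
      h4.not_isUnit
    rw [← residue_eq_zero_iff, map_sub, map_sub, sub_eq_zero] at h5
    exact h5.symm

end mU


section adm

variable [Finite (ResidueField 𝒪)]
  {rbar : G → Matrix (Fin 2) (Fin 2) (ResidueField 𝒪)}
  {Good : ∀ (A : Type) [CommRing A] [IsLocalRing A] [Algebra 𝒪 A],
      (G → Matrix (Fin 2) (Fin 2) A) → Prop}

lemma GoodAxioms.comap_ev (hG : GoodAxioms rbar Good) {A : Type} [CommRing A] [IsLocalRing A]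
    [Algebra 𝒪 A] {r : G → Matrix (Fin 2) (Fin 2) A} (h : Good A r) :
    (maximalIdeal A).comap (ev r : U 𝒪 G →ₐ[𝒪] A) = mU rbar :=
  comap_ev_max (hG.test h).isLocalHom r (hG.lifts h)

lemma GoodAxioms.ker_le (hG : GoodAxioms rbar Good) {A : Type} [CommRing A] [IsLocalRing A]
    [Algebra 𝒪 A] {r : G → Matrix (Fin 2) (Fin 2) A} (h : Good A r) :
    RingHom.ker (ev r : U 𝒪 G →ₐ[𝒪] A) ≤ mU rbar := by
  rw [← hG.comap_ev h]
  intro f hf
  rw [Ideal.mem_comap, RingHom.mem_ker.mp hf]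
  exact Ideal.zero_mem _

lemma GoodAxioms.pow_le_ker (hG : GoodAxioms rbar Good) {A : Type} [CommRing A] [IsLocalRing A]
    [Algebra 𝒪 A] {r : G → Matrix (Fin 2) (Fin 2) A} (h : Good A r) {n : ℕ}
    (hn : maximalIdeal A ^ n = ⊥) :
    mU rbar ^ n ≤ RingHom.ker (ev r : U 𝒪 G →ₐ[𝒪] A) := by
  rw [← hG.comap_ev h]
  refine (Ideal.le_comap_pow _ n).trans ?_
  rw [hn]
  exact le_of_eq rfl

/-- (A1) the kernel of the classifying map of a good pair is admissible. -/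
theorem GoodAxioms.isAdm_ker (hG : GoodAxioms rbar Good) {A : Type} [CommRing A] [IsLocalRing A]
    [Algebra 𝒪 A] {r : G → Matrix (Fin 2) (Fin 2) A} (h : Good A r) :
    IsAdm Good (RingHom.ker (ev r : U 𝒪 G →ₐ[𝒪] A)) := by
  have hA := hG.test h
  have hfinA : Finite A := finite_of_test hA
  obtain ⟨n, hn⟩ := exists_pow_max_eq_bot hA
  have hinj : Function.Injective (Ideal.kerLiftAlg (ev r : U 𝒪 G →ₐ[𝒪] A)) :=
    RingHom.kerLift_injective _
  have : Finite (U 𝒪 G ⧸ RingHom.ker (ev r : U 𝒪 G →ₐ[𝒪] A)) := Finite.of_injective _ hinj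
  obtain ⟨hloc, htest⟩ := test_quotient (rbar := rbar) _ (hG.ker_le h) n (hG.pow_le_ker h hn)
  refine ⟨hloc, hG.of_injective htest (Ideal.kerLiftAlg (ev r : U 𝒪 G →ₐ[𝒪] A)) hinj ?_⟩
  rw [taut_map_kerLift]
  exact h

lemma IsAdm.le_mU (hG : GoodAxioms rbar Good) {I : Ideal (U 𝒪 G)} (hI : IsAdm Good I) :
    I ≤ mU rbar := by
  obtain ⟨hloc, h⟩ := hI
  have := hG.ker_le h
  rw [ev_taut] at this
  intro f hf
  exact this (RingHom.mem_ker.mpr (Ideal.Quotient.eq_zero_iff_mem.mpr hf))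

lemma IsAdm.exists_pow_le (hG : GoodAxioms rbar Good) {I : Ideal (U 𝒪 G)} (hI : IsAdm Good I) :
    ∃ n, mU rbar ^ n ≤ I := by
  obtain ⟨hloc, h⟩ := hI
  obtain ⟨n, hn⟩ := exists_pow_max_eq_bot (hG.test h)
  have := hG.pow_le_ker h hn
  rw [ev_taut] at this
  exact ⟨n, fun f hf => Ideal.Quotient.eq_zero_iff_mem.mp (RingHom.mem_ker.mp (this hf))⟩

lemma IsAdm.finite (hG : GoodAxioms rbar Good) {I : Ideal (U 𝒪 G)} (hI : IsAdm Good I) :
    Finite (U 𝒪 G ⧸ I) := by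
  obtain ⟨hloc, h⟩ := hI
  exact finite_of_test (hG.test h)

/-- (A3) admissible ideals are upward closed among proper ideals. -/
theorem IsAdm.of_le (hG : GoodAxioms rbar Good) {I J : Ideal (U 𝒪 G)} (hI : IsAdm Good I)
    (hIJ : I ≤ J) (hJ : J ≤ mU rbar) : IsAdm Good J := by
  have hfin := hI.finite hG
  obtain ⟨n, hn⟩ := hI.exists_pow_le hG
  obtain ⟨hloc, h⟩ := hI
  have : Finite (U 𝒪 G ⧸ J) :=
    Finite.of_surjective _ (Ideal.Quotient.factor_surjective hIJ)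
  obtain ⟨hlocJ, htest⟩ := test_quotient (rbar := rbar) J hJ n (hn.trans hIJ)
  refine ⟨hlocJ, ?_⟩
  have := hG.map h htest (Ideal.Quotient.factorₐ 𝒪 hIJ)
  rwa [taut_map_factor] at this

/-- (A5) the maximal ideal is admissible. -/
theorem GoodAxioms.isAdm_mU (hG : GoodAxioms rbar Good) : IsAdm Good (mU rbar) :=
  hG.isAdm_ker hG.bar

/-- (A2) admissible ideals are closed under intersection. -/
theorem IsAdm.inf (hG : GoodAxioms rbar Good) {I J : Ideal (U 𝒪 G)} (hI : IsAdm Good I)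
    (hJ : IsAdm Good J) : IsAdm Good (I ⊓ J) := by
  have hfinI := hI.finite hG
  have hfinJ := hJ.finite hG
  have hIm := hI.le_mU hG
  have hJm := hJ.le_mU hG
  obtain ⟨n, hn⟩ := hI.exists_pow_le hG
  obtain ⟨m, hm⟩ := hJ.exists_pow_le hG
  have hsup : IsAdm Good (I ⊔ J) := hI.of_le hG le_sup_left (sup_le hIm hJm)
  obtain ⟨hlocI, hgI⟩ := hI
  obtain ⟨hlocJ, hgJ⟩ := hJ
  obtain ⟨hlocC, hgC⟩ := hsup
  let pA : U 𝒪 G ⧸ (I ⊓ J) →ₐ[𝒪] U 𝒪 G ⧸ I := Ideal.Quotient.factorₐ 𝒪 inf_le_left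
  let pB : U 𝒪 G ⧸ (I ⊓ J) →ₐ[𝒪] U 𝒪 G ⧸ J := Ideal.Quotient.factorₐ 𝒪 inf_le_right
  have hinj : Function.Injective (fun x => (pA x, pB x)) := by
    intro a b hab
    obtain ⟨f, rfl⟩ := Ideal.Quotient.mk_surjective a
    obtain ⟨g, rfl⟩ := Ideal.Quotient.mk_surjective b
    simp only [Prod.mk.injEq] at hab
    obtain ⟨h1, h2⟩ := hab
    have h1' : Ideal.Quotient.mk I f = Ideal.Quotient.mk I g := h1
    have h2' : Ideal.Quotient.mk J f = Ideal.Quotient.mk J g := h2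
    rw [Ideal.Quotient.eq] at h1' h2' ⊢
    exact ⟨h1', h2'⟩
  have : Finite (U 𝒪 G ⧸ (I ⊓ J)) := Finite.of_injective _ hinj
  have hpow : mU rbar ^ (n + m) ≤ I ⊓ J :=
    le_inf ((Ideal.pow_le_pow_right (Nat.le_add_right n m)).trans hn)
      ((Ideal.pow_le_pow_right (Nat.le_add_left m n)).trans hm)
  obtain ⟨hlocP, htestP⟩ := test_quotient (rbar := rbar) (I ⊓ J) (inf_le_left.trans hIm) _ hpow
  refine ⟨hlocP, ?_⟩
  refine hG.of_fibreProduct (hG.test hgC) htestP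
    (Ideal.Quotient.factorₐ 𝒪 (le_sup_left : I ≤ I ⊔ J))
    (Ideal.Quotient.factorₐ 𝒪 (le_sup_right : J ≤ I ⊔ J)) pA pB ?_ hinj ?_ ?_ ?_
  · apply AlgHom.ext
    intro a
    obtain ⟨f, rfl⟩ := Ideal.Quotient.mk_surjective a
    rfl
  · intro a b hab
    obtain ⟨f, rfl⟩ := Ideal.Quotient.mk_surjective a
    obtain ⟨g, rfl⟩ := Ideal.Quotient.mk_surjective b
    have hab' : Ideal.Quotient.mk (I ⊔ J) f = Ideal.Quotient.mk (I ⊔ J) g := hab
    rw [Ideal.Quotient.eq, Submodule.mem_sup] at hab'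
    obtain ⟨i, hi, j, hj, hij⟩ := hab'
    refine ⟨Ideal.Quotient.mk _ (f - i), ?_, ?_⟩
    · change Ideal.Quotient.mk I (f - i) = Ideal.Quotient.mk I f
      rw [Ideal.Quotient.eq]
      simpa using I.neg_mem hi
    · change Ideal.Quotient.mk J (f - i) = Ideal.Quotient.mk J g
      rw [Ideal.Quotient.eq]
      have : f - i - g = j := by linear_combination -hij
      rw [this]; exact hj
  · rw [taut_map_factor]; exact hgI
  · rw [taut_map_factor]; exact hgJ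

end adm




section least

omit [IsLocalRing 𝒪] in
/-- a nonempty family of ideals, closed under `⊓`, with boundedly finite quotients has a least
element. -/
lemma exists_least_of_bounded {R : Type} [CommRing R] (p : Ideal R → Prop) (C : ℕ)
    (hne : ∃ I, p I) (hinf : ∀ I J, p I → p J → p (I ⊓ J))
    (hfin : ∀ I, p I → Finite (R ⧸ I)) (hC : ∀ I, p I → Nat.card (R ⧸ I) ≤ C) :
    ∃ I, p I ∧ ∀ J, p J → I ≤ J := by
  classical
  let P : ℕ → Prop := fun m => ∃ I, p I ∧ Nat.card (R ⧸ I) = m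
  obtain ⟨I₀, hI₀⟩ := hne
  have hP₀ : P (Nat.card (R ⧸ I₀)) := ⟨I₀, hI₀, rfl⟩
  obtain ⟨I, hI, hcard⟩ : P (Nat.findGreatest P C) := Nat.findGreatest_spec (hC I₀ hI₀) hP₀
  refine ⟨I, hI, fun J hJ => ?_⟩
  have hIJ := hinf I J hI hJ
  have := hfin _ hIJ
  have := hfin _ hI
  have h1 : Nat.card (R ⧸ (I ⊓ J)) ≤ Nat.card (R ⧸ I) := by
    rw [hcard]
    exact Nat.le_findGreatest (hC _ hIJ) ⟨_, hIJ, rfl⟩
  have hsurj : Function.Surjective (Ideal.Quotient.factor (inf_le_left : I ⊓ J ≤ I)) :=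
    Ideal.Quotient.factor_surjective _
  have h2 : Nat.card (R ⧸ I) ≤ Nat.card (R ⧸ (I ⊓ J)) := Nat.card_le_card_of_surjective _ hsurj
  have hbij : Function.Bijective (Ideal.Quotient.factor (inf_le_left : I ⊓ J ≤ I)) :=
    (Function.Surjective.bijective_of_nat_card_le hsurj h1)
  intro f hf
  have h3 : Ideal.Quotient.factor (inf_le_left : I ⊓ J ≤ I) (Ideal.Quotient.mk _ f) =
      Ideal.Quotient.factor (inf_le_left : I ⊓ J ≤ I) 0 := by
    rw [map_zero, Ideal.Quotient.factor_mk]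
    exact Ideal.Quotient.eq_zero_iff_mem.mpr hf
  have h4 := hbij.1 h3
  exact (Ideal.Quotient.eq_zero_iff_mem.mp h4).2


omit [IsLocalRing 𝒪] in
lemma finite_quot_ker_pow {P k : Type} [CommRing P] [IsNoetherianRing P] [CommRing k] [Finite k]
    (β : P →+* k) (n : ℕ) : Finite (P ⧸ (RingHom.ker β) ^ n) := by
  have : Finite (P ⧸ RingHom.ker β) := Finite.of_injective _ (RingHom.kerLift_injective β)
  exact Ideal.finite_quotient_pow (IsNoetherian.noetherian _) n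

omit [IsLocalRing 𝒪] in
lemma card_bound_aux {P V k : Type} [CommRing P] [IsNoetherianRing P] [CommRing V] [CommRing k]
    [Finite k] (ι : P →+* V) (e : V →+* k) (n : ℕ) (I : Ideal V) (hI : RingHom.ker e ^ n ≤ I)
    (hsurj : Function.Surjective ((Ideal.Quotient.mk I).comp ι)) :
    Finite (V ⧸ I) ∧ Nat.card (V ⧸ I) ≤ Nat.card (P ⧸ (RingHom.ker (e.comp ι)) ^ n) := by
  have hfin := finite_quot_ker_pow (e.comp ι) n
  have hker : ∀ f ∈ (RingHom.ker (e.comp ι)) ^ n, ((Ideal.Quotient.mk I).comp ι) f = 0 := by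
    intro f hf
    have h1 : RingHom.ker (e.comp ι) ≤ (RingHom.ker e).comap ι := by
      intro g hg
      exact hg
    have h2 : f ∈ (RingHom.ker e ^ n).comap ι :=
      (Ideal.le_comap_pow _ n) (Ideal.pow_right_mono h1 n hf)
    exact Ideal.Quotient.eq_zero_iff_mem.mpr (hI h2)
  have hsurj' : Function.Surjective (Ideal.Quotient.lift _ ((Ideal.Quotient.mk I).comp ι) hker) :=
    Ideal.Quotient.lift_surjective_of_surjective _ _ hsurj
  exact ⟨Finite.of_surjective _ hsurj', Nat.card_le_card_of_surjective _ hsurj'⟩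


variable [IsNoetherianRing 𝒪] [Finite (ResidueField 𝒪)]
  {rbar : G → Matrix (Fin 2) (Fin 2) (ResidueField 𝒪)}

lemma exists_card_bound (S : Finset (G × Fin 2 × Fin 2)) (n : ℕ) :
    ∃ C : ℕ, ∀ I : Ideal (U 𝒪 G), mU rbar ^ n ≤ I →
      Algebra.adjoin 𝒪 ((fun p => Ideal.Quotient.mk I (MvPolynomial.X p)) '' (S : Set _)) = ⊤ →
      Finite (U 𝒪 G ⧸ I) ∧ Nat.card (U 𝒪 G ⧸ I) ≤ C := by
  refine ⟨_, fun I hI hgen => card_bound_aux
    (MvPolynomial.rename Subtype.val : MvPolynomial S 𝒪 →ₐ[𝒪] U 𝒪 G).toRingHom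
    (ev rbar : U 𝒪 G →ₐ[𝒪] ResidueField 𝒪).toRingHom n I hI ?_⟩
  have hα : ((Ideal.Quotient.mkₐ 𝒪 I).comp
      (MvPolynomial.rename Subtype.val : MvPolynomial S 𝒪 →ₐ[𝒪] U 𝒪 G)) =
      MvPolynomial.aeval (fun s : S => Ideal.Quotient.mk I (MvPolynomial.X s.1)) := by
    apply MvPolynomial.algHom_ext
    intro s
    simp
  have hsurj : Function.Surjective ((Ideal.Quotient.mkₐ 𝒪 I).comp
      (MvPolynomial.rename Subtype.val : MvPolynomial S 𝒪 →ₐ[𝒪] U 𝒪 G)) := by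
    rw [← AlgHom.range_eq_top, hα, ← Algebra.adjoin_range_eq_range_aeval, ← hgen]
    congr 1
    ext z
    simp
  exact hsurj

end least

/-- MAIN THEOREM of this piece. -/
theorem exists_least_adm [IsNoetherianRing 𝒪] [Finite (ResidueField 𝒪)]
    (rbar : G → Matrix (Fin 2) (Fin 2) (ResidueField 𝒪))
    (Good : ∀ (A : Type) [CommRing A] [IsLocalRing A] [Algebra 𝒪 A],
      (G → Matrix (Fin 2) (Fin 2) A) → Prop)
    (hG : GoodAxioms rbar Good)
    (hgen : ∃ S : Finset (G × Fin 2 × Fin 2), ∀ I : Ideal (U 𝒪 G), IsAdm Good I →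
      Algebra.adjoin 𝒪 ((fun p => Ideal.Quotient.mk I (MvPolynomial.X p)) '' (S : Set _)) = ⊤) :
    ∃ I : ℕ → Ideal (U 𝒪 G),
      (∀ n, IsAdm Good (I n)) ∧
      (∀ n, I n ≤ RingHom.ker (ev rbar : U 𝒪 G →ₐ[𝒪] ResidueField 𝒪)) ∧
      (∀ n, RingHom.ker (ev rbar : U 𝒪 G →ₐ[𝒪] ResidueField 𝒪) ^ (n + 1) ≤ I n) ∧
      (∀ n, I n = I (n + 1) ⊔ RingHom.ker (ev rbar : U 𝒪 G →ₐ[𝒪] ResidueField 𝒪) ^ (n + 1)) ∧
      (∀ (n : ℕ) (A : Type) [CommRing A] [IsLocalRing A] [Algebra 𝒪 A]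
        (r : G → Matrix (Fin 2) (Fin 2) A), Good A r → maximalIdeal A ^ (n + 1) = ⊥ →
          I n ≤ RingHom.ker (ev r : U 𝒪 G →ₐ[𝒪] A)) := by
  obtain ⟨S, hS⟩ := hgen
  have hmain : ∀ n : ℕ, ∃ I : Ideal (U 𝒪 G), (IsAdm Good I ∧ mU rbar ^ (n + 1) ≤ I) ∧
      ∀ J, (IsAdm Good J ∧ mU rbar ^ (n + 1) ≤ J) → I ≤ J := by
    intro n
    obtain ⟨C, hC⟩ := exists_card_bound (rbar := rbar) S (n + 1)
    refine exists_least_of_bounded (fun I => IsAdm Good I ∧ mU rbar ^ (n + 1) ≤ I) C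
      ⟨mU rbar, hG.isAdm_mU, Ideal.pow_le_self (Nat.succ_ne_zero n)⟩ ?_ ?_ ?_
    · rintro I J ⟨hI, hI'⟩ ⟨hJ, hJ'⟩
      exact ⟨hI.inf hG hJ, le_inf hI' hJ'⟩
    · rintro I ⟨hI, hI'⟩
      exact (hC I hI' (hS I hI)).1
    · rintro I ⟨hI, hI'⟩
      exact (hC I hI' (hS I hI)).2
  choose I hI hmin using hmain
  refine ⟨I, fun n => (hI n).1, fun n => (hI n).1.le_mU hG, fun n => (hI n).2, fun n => ?_,
    fun n A _ _ _ r hr hn => hmin n _ ⟨hG.isAdm_ker hr, hG.pow_le_ker hr hn⟩⟩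
  apply le_antisymm
  · refine hmin n _ ⟨(hI (n + 1)).1.of_le hG le_sup_left
      (sup_le ((hI (n + 1)).1.le_mU hG) (Ideal.pow_le_self (Nat.succ_ne_zero n))), le_sup_right⟩
  · refine sup_le (hmin (n + 1) _ ⟨(hI n).1, ?_⟩) (hI n).2
    exact (Ideal.pow_le_pow_right (Nat.le_succ (n + 1))).trans (hI n).2

end Fermat.Agent.S53.Adm
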