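import Fermat.Agent.S53.Good
import Fermat.Agent.S53.LimitMap

/-!
# S53, part of E3: deformations to an arbitrary complete noetherian local `𝒪`-algebra
owner: helper21
-/

set_option autoImplicit false
set_option linter.unusedSectionVars false
set_option linter.style.haveILetI false

namespace Fermat.Agent.S53

open IsLocalRing GaloisRep

variable {𝒪 : Type} [CommRing 𝒪] [IsLocalRing 𝒪]
variable {𝒟 : ∀ ⦃A : Type⦄ [CommRing A] [IsLocalRing A] [Algebra 𝒪 A], GaloisRepAdic A → Prop}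
variable {rbar : GQ →* M2 (ResidueField 𝒪)} {S : SliceIdx GQ} {c : Fin 3 → 𝒪}

theorem isLift_mapMat {A B : Type} [CommRing A] [IsLocalRing A] [Algebra 𝒪 A] [CommRing B]
    [IsLocalRing B] [Algebra 𝒪 B] (φ : A →ₐ[𝒪] B) (hφ : IsLocalHom (φ : A →+* B))
    {r : GQ →* M2 A} (hl : IsLift rbar r) : IsLift rbar (mapMat (φ : A →+* B) r) := by
  intro σ i j x hx
  have h1 := hl σ i j x hx
  have h2 : mapMat (φ : A →+* B) r σ i j - algebraMap 𝒪 B x = φ (r σ i j - algebraMap 𝒪 A x) := by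
    rw [map_sub, AlgHom.commutes]
    rfl
  rw [h2]
  haveI := hφ
  exact map_nonunit (φ : A →+* B) _ h1

theorem isNormalized_mapMat {A B : Type} [CommRing A] [IsLocalRing A] [Algebra 𝒪 A] [CommRing B]
    [IsLocalRing B] [Algebra 𝒪 B] (φ : A →ₐ[𝒪] B)
    {r : GQ →* M2 A} (hn : IsNormalized S c r) : IsNormalized S c (mapMat (φ : A →+* B) r) := by
  intro s
  rw [mapMat_apply, hn s]
  exact φ.commutes _

section complete

variable {A : Type} [CommRing A] [IsLocalRing A] [IsNoetherianRing A]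
  [IsAdicComplete (maximalIdeal A) A] [Algebra 𝒪 A]

/-- `𝒟` is invariant under equivalence over complete noetherian local `𝒪`-algebras. -/
theorem type_of_isEquiv (h𝒟 : IsDeformationCondition 𝒪 𝒟) (hloc : IsLocalHom (algebraMap 𝒪 A))
    (hsurj : Function.Surjective (residue A ∘ algebraMap 𝒪 A)) {ρ ρ' : GaloisRepAdic A}
    (e : ρ.IsEquiv ρ') (h : 𝒟 ρ) : 𝒟 ρ' := by
  obtain ⟨e⟩ := e
  refine (h𝒟.iff_forall_surjective hloc hsurj ρ').2 fun B _ _ _ hB q hq hqs => ?_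
  exact h𝒟.of_isEquiv hB ⟨e.baseChangeAlong (q : A →+* B) hq⟩
    ((h𝒟.iff_forall_surjective hloc hsurj ρ).1 h hB q hq hqs)

/-- push-forward of a deformation along a surjection onto an Artinian test algebra. -/
theorem IsDefo.map_surjective (h𝒟 : IsDeformationCondition 𝒪 𝒟)
    (hloc : IsLocalHom (algebraMap 𝒪 A))
    (hsurj : Function.Surjective (residue A ∘ algebraMap 𝒪 A))
    {B : Type} [CommRing B] [IsLocalRing B] [Algebra 𝒪 B] (hB : IsArtinianTestAlgebra 𝒪 B)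
    (q : A →ₐ[𝒪] B) (hq : IsLocalHom (q : A →+* B)) (hqs : Function.Surjective q)
    {r : GQ →* M2 A} (hr : IsDefo 𝒟 rbar S c r) :
    IsDefo 𝒟 rbar S c (mapMat (q : A →+* B) r) where
  cont := hr.cont.mapMat _ hq
  lift := isLift_mapMat q hq hr.lift
  norm := isNormalized_mapMat q hr.norm
  type := h𝒟.of_isEquiv hB (baseChangeAlong_ofMat _ hq r hr.cont (hr.cont.mapMat _ hq))
    ((h𝒟.iff_forall_surjective hloc hsurj _).1 hr.type hB q hq hqs)

/-- every deformation of type `𝒟` has a normalised matrix form. -/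
theorem exists_isDefo (h𝒟 : IsDeformationCondition 𝒪 𝒟) (hS : IsSliceData rbar S c)
    {ρbar : ResidualGaloisRep (ResidueField 𝒪)} {hbar : GaloisFactorsThroughFiniteLevel rbar}
    (e : ρbar.IsEquiv (resOfMat rbar hbar)) [hloc : IsLocalHom (algebraMap 𝒪 A)]
    (hsurj : Function.Surjective (residue A ∘ algebraMap 𝒪 A)) (ρA : GaloisRepAdic A)
    (hD : 𝒟 ρA)
    (hres : ρA.residual.IsEquiv (ρbar.baseChangeAlong (ResidueField.map (algebraMap 𝒪 A)))) :
    ∃ (r : GQ →* M2 A) (h : IsDefo 𝒟 rbar S c r), ρA.IsEquiv (ofMat r h.cont) := by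
  obtain ⟨r, hr, he, hl⟩ := exists_isLift_of_residual_isEquiv e ρA hres
  obtain ⟨P, hl', hn'⟩ := exists_normalized hS r hl
  have hr' : MatCont (conjMat P r) := conjMat_cont P hr
  have he' : ρA.IsEquiv (ofMat (conjMat P r) hr') :=
    isEquiv_trans he (ofMat_isEquiv_conjMat P hr)
  exact ⟨conjMat P r, ⟨hr', hl', hn', type_of_isEquiv h𝒟 hloc hsurj he' hD⟩, he'⟩

/-- the evaluation at a deformation over `A` maps an ideal contained in the kernels of all
good pairs of level `n` into `𝔪_A ^ (n+1)`. -/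
theorem ev_mem_pow_of_least (h𝒟 : IsDeformationCondition 𝒪 𝒟)
    (hloc : IsLocalHom (algebraMap 𝒪 A))
    (hsurj : Function.Surjective (residue A ∘ algebraMap 𝒪 A))
    {r : GQ →* M2 A} (hr : IsDefo 𝒟 rbar S c r) (n : ℕ) (I : Ideal (Adm.U 𝒪 GQ))
    (hI : ∀ (B : Type) [CommRing B] [IsLocalRing B] [Algebra 𝒪 B]
      (r' : GQ → Matrix (Fin 2) (Fin 2) B), Good 𝒟 rbar S c B r' → maximalIdeal B ^ (n + 1) = ⊥ →
        I ≤ RingHom.ker (Adm.ev r' : Adm.U 𝒪 GQ →ₐ[𝒪] B)) :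
    ∀ x ∈ I, (Adm.ev (r : GQ → Matrix (Fin 2) (Fin 2) A) : Adm.U 𝒪 GQ →ₐ[𝒪] A) x ∈
      maximalIdeal A ^ (n + 1) := by
  have hne : maximalIdeal A ^ (n + 1) ≠ ⊤ := by
    intro h
    have h1 : maximalIdeal A ^ (n + 1) ≤ maximalIdeal A := Ideal.pow_le_self (Nat.succ_ne_zero n)
    rw [h] at h1
    exact (maximalIdeal.isMaximal A).ne_top (top_le_iff.1 h1)
  haveI : Nontrivial (A ⧸ maximalIdeal A ^ (n + 1)) := Ideal.Quotient.nontrivial_iff.2 hne
  haveI : IsLocalRing (A ⧸ maximalIdeal A ^ (n + 1)) :=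
    IsLocalRing.of_surjective' (Ideal.Quotient.mk _) Ideal.Quotient.mk_surjective
  let q : A →ₐ[𝒪] A ⧸ maximalIdeal A ^ (n + 1) := Ideal.Quotient.mkₐ 𝒪 _
  have hqs : Function.Surjective q := Ideal.Quotient.mk_surjective
  have hq : IsLocalHom (q : A →+* A ⧸ maximalIdeal A ^ (n + 1)) :=
    IsLocalHom.of_surjective _ hqs
  have hmax : ∀ y ∈ maximalIdeal (A ⧸ maximalIdeal A ^ (n + 1)), ∃ a ∈ maximalIdeal A, q a = y := by
    intro y hy
    obtain ⟨a, rfl⟩ := hqs y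
    refine ⟨a, ?_, rfl⟩
    rw [mem_maximalIdeal, mem_nonunits_iff] at hy ⊢
    exact fun h => hy (h.map q)
  have hpow : maximalIdeal (A ⧸ maximalIdeal A ^ (n + 1)) ^ (n + 1) = ⊥ := by
    have h1 : maximalIdeal (A ⧸ maximalIdeal A ^ (n + 1)) ≤
        (maximalIdeal A).map (q : A →+* A ⧸ maximalIdeal A ^ (n + 1)) := by
      intro y hy
      obtain ⟨a, ha, rfl⟩ := hmax y hy
      exact Ideal.mem_map_of_mem _ ha
    rw [eq_bot_iff]
    refine (Ideal.pow_right_mono h1 (n + 1)).trans ?_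
    rw [← Ideal.map_pow, Ideal.map_le_iff_le_comap]
    intro a ha
    rw [Ideal.mem_comap, Ideal.mem_bot]
    exact Ideal.Quotient.eq_zero_iff_mem.2 ha
  have hB : IsArtinianTestAlgebra 𝒪 (A ⧸ maximalIdeal A ^ (n + 1)) := by
    refine ⟨?_, ?_, ?_⟩
    · have : algebraMap 𝒪 (A ⧸ maximalIdeal A ^ (n + 1)) =
          (q : A →+* A ⧸ maximalIdeal A ^ (n + 1)).comp (algebraMap 𝒪 A) := rfl
      rw [this]
      haveI := hq
      haveI := hloc
      exact RingHom.isLocalHom_comp _ _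
    · intro y
      obtain ⟨b, rfl⟩ := residue_surjective y
      obtain ⟨a, rfl⟩ := hqs b
      obtain ⟨o, ho⟩ := hsurj (residue A a)
      refine ⟨o, ?_⟩
      have h1 : algebraMap 𝒪 A o - a ∈ maximalIdeal A := by
        rw [← residue_eq_zero_iff, map_sub, sub_eq_zero]
        exact ho
      have h2 : q (algebraMap 𝒪 A o - a) ∈ maximalIdeal (A ⧸ maximalIdeal A ^ (n + 1)) := by
        haveI := hq
        exact map_nonunit (q : A →+* A ⧸ maximalIdeal A ^ (n + 1)) _ h1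
      rw [← residue_eq_zero_iff, map_sub, map_sub, sub_eq_zero] at h2
      exact h2
    · rw [isArtinianRing_iff_isNilpotent_maximalIdeal]
      exact ⟨n + 1, hpow⟩
  have hrB := hr.map_surjective h𝒟 hloc hsurj hB q hq hqs
  have hgood : Good 𝒟 rbar S c (A ⧸ maximalIdeal A ^ (n + 1))
      (fun g => ((r : GQ → Matrix (Fin 2) (Fin 2) A) g).map q) := ⟨hB, _, rfl, hrB⟩
  intro x hx
  have h1 := hI _ _ hgood hpow hx
  rw [RingHom.mem_ker, Adm.ev_map] at h1
  exact Ideal.Quotient.eq_zero_iff_mem.1 h1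

end complete

end Fermat.Agent.S53
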