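import Mathlib

/-!
# S53: counting lemma

If `m` is an ideal of `R` with finite quotient, `J` an ideal containing `m ^ n` such that
`m` is generated modulo `J` by `d` elements of `m`, then `R ⧸ J` is finite, with an explicit bound
on its cardinality depending only on `#(R ⧸ m)`, `d`, `n`.
-/

set_option autoImplicit false

namespace Fermat.Agent.S53

open scoped Pointwise

/-- `I` has a system of representatives of size at most `N`. -/
def HasReps {R : Type*} [CommRing R] (N : ℕ) (I : Ideal R) : Prop :=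
  ∃ T : Finset R, T.card ≤ N ∧ ∀ x : R, ∃ t ∈ T, x - t ∈ I

theorem HasReps.finite_card_le {R : Type*} [CommRing R] {N : ℕ} {I : Ideal R}
    (h : HasReps N I) : Finite (R ⧸ I) ∧ Nat.card (R ⧸ I) ≤ N := by
  classical
  obtain ⟨T, hT, hx⟩ := h
  have hsurj : Function.Surjective (fun t : T => Ideal.Quotient.mk I t.1) := by
    intro y
    obtain ⟨x, rfl⟩ := Ideal.Quotient.mk_surjective y
    obtain ⟨t, ht, hxt⟩ := hx x
    exact ⟨⟨t, ht⟩, (Ideal.Quotient.eq.mpr hxt).symm⟩
  have hfin : Finite (R ⧸ I) := Finite.of_surjective _ hsurj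
  refine ⟨hfin, ?_⟩
  calc Nat.card (R ⧸ I) ≤ Nat.card T := Nat.card_le_card_of_surjective _ hsurj
    _ = T.card := by simp
    _ ≤ N := hT

/-- one step of the filtration. -/
theorem exists_reps_step {R : Type*} [CommRing R] (m J J' : Ideal R) [Finite (R ⧸ m)]
    (T : Finset R) (hJ : J ≤ J') (hT : m * Ideal.span (T : Set R) ≤ J') :
    ∃ T' : Finset R, T'.card ≤ Nat.card (R ⧸ m) ^ T.card ∧
      ∀ y ∈ J ⊔ Ideal.span (T : Set R), ∃ t ∈ T', y - t ∈ J' := by
  classical
  have : Fintype (R ⧸ m) := Fintype.ofFinite _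
  refine ⟨Finset.image (fun c : T → R ⧸ m => ∑ t : T, (Quotient.out (c t) : R) * t.1) Finset.univ,
    ?_, ?_⟩
  · refine Finset.card_image_le.trans ?_
    simp [Nat.card_eq_fintype_card]
  · intro y hy
    obtain ⟨j, hj, z, hz, rfl⟩ := Submodule.mem_sup.mp hy
    obtain ⟨f, rfl⟩ := (Submodule.mem_span_finset').mp hz
    refine ⟨_, Finset.mem_image.mpr ⟨fun t => Ideal.Quotient.mk m (f t), Finset.mem_univ _, rfl⟩, ?_⟩
    have : j + ∑ a : T, f a • a.1 -
        ∑ t : T, (Quotient.out (Ideal.Quotient.mk m (f t)) : R) * t.1 =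
        j + ∑ t : T, (f t - (Quotient.out (Ideal.Quotient.mk m (f t)) : R)) * t.1 := by
      simp only [smul_eq_mul, sub_mul, Finset.sum_sub_distrib]
      ring
    rw [this]
    refine J'.add_mem (hJ hj) (J'.sum_mem fun t _ => hT (Ideal.mul_mem_mul ?_ ?_))
    · rw [← Ideal.Quotient.eq]
      exact (Ideal.Quotient.mk_out _).symm
    · exact Ideal.subset_span t.2

theorem HasReps.step {R : Type*} [CommRing R] {N N' : ℕ} {K J' : Ideal R}
    (h : HasReps N K) (h' : ∃ T' : Finset R, T'.card ≤ N' ∧ ∀ y ∈ K, ∃ t ∈ T', y - t ∈ J') :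
    HasReps (N * N') J' := by
  classical
  obtain ⟨T, hT, hx⟩ := h
  obtain ⟨T', hT', hy⟩ := h'
  refine ⟨T + T', (Finset.card_add_le).trans (Nat.mul_le_mul hT hT'), fun x => ?_⟩
  obtain ⟨t, ht, hxt⟩ := hx x
  obtain ⟨t', ht', hxt'⟩ := hy _ hxt
  refine ⟨t + t', Finset.add_mem_add ht ht', ?_⟩
  have : x - (t + t') = x - t - t' := by ring
  rwa [this]

theorem sup_mul_sup_le {R : Type*} [CommRing R] (J A B : Ideal R) :
    (J ⊔ A) * (J ⊔ B) ≤ J ⊔ A * B := by
  rw [Ideal.mul_le]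
  intro x hx y hy
  obtain ⟨j, hj, a, ha, rfl⟩ := Submodule.mem_sup.mp hx
  obtain ⟨j', hj', b, hb, rfl⟩ := Submodule.mem_sup.mp hy
  have : (j + a) * (j' + b) = (j * (j' + b) + a * j') + a * b := by ring
  rw [this]
  exact Submodule.add_mem_sup
    (J.add_mem (J.mul_mem_right _ hj) (J.mul_mem_left _ hj')) (Ideal.mul_mem_mul ha hb)

/-- The counting lemma. -/
theorem finite_quotient_card_le {R : Type*} [CommRing R] (m J : Ideal R) [Finite (R ⧸ m)]
    {d : ℕ} (u : Fin d → R) (hu' : ∀ i, u i ∈ m)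
    (hu : m ≤ J ⊔ Ideal.span (Set.range u)) (n : ℕ) (hn : m ^ n ≤ J) :
    Finite (R ⧸ J) ∧ Nat.card (R ⧸ J) ≤ Nat.card (R ⧸ m) ^ (∑ i ∈ Finset.range n, d ^ i) := by
  classical
  set S : Finset R := Finset.image u Finset.univ with hS
  have hScard : S.card ≤ d := by
    refine Finset.card_image_le.trans ?_
    simp
  have hSspan : Ideal.span (Set.range u) = Ideal.span (S : Set R) := by
    simp [hS]
  have hSm : Ideal.span (S : Set R) ≤ m := by
    rw [← hSspan, Ideal.span_le]
    rintro _ ⟨i, rfl⟩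
    exact hu' i
  have hq : 1 ≤ Nat.card (R ⧸ m) := Nat.one_le_iff_ne_zero.mpr (Nat.card_pos).ne'
  -- powers
  have hpow : ∀ k : ℕ, Ideal.span (S : Set R) ^ k = Ideal.span ((S ^ k : Finset R) : Set R) := by
    intro k
    rw [Finset.coe_pow]
    exact Submodule.span_pow _ _
  have hle : ∀ k : ℕ, m ^ k ≤ J ⊔ Ideal.span (S : Set R) ^ k := by
    intro k
    induction k with
    | zero => simp
    | succ k ih =>
      rw [pow_succ, pow_succ]
      exact (Ideal.mul_mono ih (hSspan ▸ hu)).trans (sup_mul_sup_le J _ _)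
  have key : ∀ k : ℕ, HasReps (Nat.card (R ⧸ m) ^ (∑ i ∈ Finset.range k, d ^ i)) (J ⊔ m ^ k) := by
    intro k
    induction k with
    | zero =>
      refine ⟨{0}, by simp, fun x => ⟨0, by simp, by simp⟩⟩
    | succ k ih =>
      rw [Finset.sum_range_succ, pow_add]
      refine ih.step ?_
      obtain ⟨T', hT', h⟩ := exists_reps_step m J (J ⊔ m ^ (k + 1)) (S ^ k) le_sup_left (by
        rw [← hpow, pow_succ']
        exact (Ideal.mul_mono le_rfl (Ideal.pow_right_mono hSm k)).trans le_sup_right)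
      refine ⟨T', hT'.trans (Nat.pow_le_pow_right hq
        ((Finset.card_pow_le).trans (Nat.pow_le_pow_left hScard k))), fun y hy => h y ?_⟩
      rw [← hpow]
      exact (sup_le le_sup_left (hle k)) hy
  have := key n
  rw [sup_eq_left.mpr hn] at this
  exact this.finite_card_le

/-- An inf-closed nonempty family of ideals with uniformly bounded finite quotients has a least
element. -/
theorem exists_least_of_inf_closed {R : Type*} [CommRing R] (P : Ideal R → Prop) (N : ℕ)
    (hne : ∃ I, P I) (hinf : ∀ I J, P I → P J → P (I ⊓ J))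
    (hcard : ∀ I, P I → Finite (R ⧸ I) ∧ Nat.card (R ⧸ I) ≤ N) :
    ∃ I, P I ∧ ∀ J, P J → I ≤ J := by
  classical
  -- choose `I` with maximal quotient cardinality
  have hex : ∃ k, ∃ I, P I ∧ Nat.card (R ⧸ I) = k := by
    obtain ⟨I, hI⟩ := hne
    exact ⟨_, I, hI, rfl⟩
  have hbd : ∀ k, (∃ I, P I ∧ Nat.card (R ⧸ I) = k) → k ≤ N := by
    rintro _ ⟨I, hI, rfl⟩
    exact (hcard I hI).2
  obtain ⟨k0, hk0⟩ := hex
  have hspec := Nat.findGreatest_spec (P := fun k => ∃ I, P I ∧ Nat.card (R ⧸ I) = k)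
    (hbd k0 hk0) hk0
  obtain ⟨I, hI, hIcard⟩ := hspec
  refine ⟨I, hI, fun J hJ => ?_⟩
  have hIJ := hinf I J hI hJ
  have hle : Nat.card (R ⧸ (I ⊓ J)) ≤ Nat.card (R ⧸ I) := by
    rw [hIcard]
    exact Nat.le_findGreatest (hcard _ hIJ).2 ⟨_, hIJ, rfl⟩
  have := (hcard _ hIJ).1
  have := (hcard _ hI).1
  have hsurj : Function.Surjective (Ideal.Quotient.factor (inf_le_left : I ⊓ J ≤ I)) :=
    Ideal.Quotient.factor_surjective _
  have hinj : Function.Injective (Ideal.Quotient.factor (inf_le_left : I ⊓ J ≤ I)) := by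
    have : Function.Bijective (Ideal.Quotient.factor (inf_le_left : I ⊓ J ≤ I)) := by
      rw [Nat.bijective_iff_surjective_and_card]
      exact ⟨hsurj, le_antisymm hle (Nat.card_le_card_of_surjective _ hsurj)⟩
    exact this.1
  intro x hx
  have h0 : Ideal.Quotient.factor (inf_le_left : I ⊓ J ≤ I) (Ideal.Quotient.mk _ x) =
      Ideal.Quotient.factor (inf_le_left : I ⊓ J ≤ I) 0 := by
    rw [Ideal.Quotient.factor_mk, map_zero]
    exact Ideal.Quotient.eq_zero_iff_mem.mpr hx
  have h1 := hinj h0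
  exact (Ideal.Quotient.eq_zero_iff_mem.mp h1).2

end Fermat.Agent.S53
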