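import Mathlib

/-!
# S53, part 1: rigidification of 2x2 matrix families over a local ring

Pure algebra: a "slice" for the conjugation action on families of `2 × 2` matrices.
-/

set_option autoImplicit false
set_option linter.unusedSectionVars false

namespace Fermat.Agent.S53

open IsLocalRing Matrix

local notation "M2" => Matrix (Fin 2) (Fin 2)

section EntriesIn

variable {A : Type*} [CommRing A] {l m n : Type*} [Fintype l] [Fintype m] [Fintype n]

/-- all entries of the matrix lie in the ideal `I`. -/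
def EntriesIn (I : Ideal A) (X : Matrix m n A) : Prop := ∀ i j, X i j ∈ I

lemma EntriesIn.add {I : Ideal A} {X Y : Matrix m n A} (hX : EntriesIn I X) (hY : EntriesIn I Y) :
    EntriesIn I (X + Y) := fun i j => I.add_mem (hX i j) (hY i j)

lemma EntriesIn.sub {I : Ideal A} {X Y : Matrix m n A} (hX : EntriesIn I X) (hY : EntriesIn I Y) :
    EntriesIn I (X - Y) := fun i j => I.sub_mem (hX i j) (hY i j)

lemma EntriesIn.neg {I : Ideal A} {X : Matrix m n A} (hX : EntriesIn I X) :
    EntriesIn I (-X) := fun i j => I.neg_mem (hX i j)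

lemma EntriesIn.mono {I J : Ideal A} (h : I ≤ J) {X : Matrix m n A} (hX : EntriesIn I X) :
    EntriesIn J X := fun i j => h (hX i j)

lemma EntriesIn.mul_right {I : Ideal A} {X : Matrix l m A} (hX : EntriesIn I X)
    (Y : Matrix m n A) : EntriesIn I (X * Y) := fun i j => by
  rw [Matrix.mul_apply]
  exact I.sum_mem fun k _ => I.mul_mem_right _ (hX i k)

lemma EntriesIn.mul_left {I : Ideal A} (X : Matrix l m A) {Y : Matrix m n A}
    (hY : EntriesIn I Y) : EntriesIn I (X * Y) := fun i j => by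
  rw [Matrix.mul_apply]
  exact I.sum_mem fun k _ => I.mul_mem_left _ (hY k j)

lemma EntriesIn.mul {I J : Ideal A} {X : Matrix l m A} {Y : Matrix m n A}
    (hX : EntriesIn I X) (hY : EntriesIn J Y) : EntriesIn (I * J) (X * Y) := fun i j => by
  rw [Matrix.mul_apply]
  exact (I * J).sum_mem fun k _ => Ideal.mul_mem_mul (hX i k) (hY k j)

lemma EntriesIn.mulVec {I : Ideal A} (X : Matrix m n A) {v : n → A} (hv : ∀ j, v j ∈ I) (i : m) :
    (X *ᵥ v) i ∈ I := by
  rw [Matrix.mulVec, dotProduct]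
  exact I.sum_mem fun k _ => I.mul_mem_left _ (hv k)

lemma entriesIn_bot {X : Matrix m n A} (hX : EntriesIn (⊥ : Ideal A) X) : X = 0 := by
  ext i j
  simpa using hX i j

end EntriesIn

section Defs

variable {A G : Type*}

/-- indices of the three normalised matrix entries. -/
structure SliceIdx (G : Type*) where
  /-- group elements -/
  h : Fin 3 → G
  /-- row indices -/
  a : Fin 3 → Fin 2
  /-- column indices -/
  b : Fin 3 → Fin 2

/-- a complement of the scalar matrices. -/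
def evec [Zero A] (x : Fin 3 → A) : M2 A := !![x 0, x 1; x 2, 0]

variable [CommRing A]

/-- the selected entries of the commutators `[X, r (h s)]`. -/
def lam (S : SliceIdx G) (r : G → M2 A) (X : M2 A) (s : Fin 3) : A :=
  (X * r (S.h s) - r (S.h s) * X) (S.a s) (S.b s)

/-- matrix of `lam` restricted to the complement `evec`. -/
def theta (S : SliceIdx G) (r : G → M2 A) : Matrix (Fin 3) (Fin 3) A :=
  Matrix.of fun s u => lam S r (evec (Pi.single u 1)) s

lemma evec_eq_sum (x : Fin 3 → A) :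
    evec x = ∑ u, x u • evec (Pi.single u (1 : A)) := by
  ext i j
  fin_cases i <;> fin_cases j <;> simp [evec, Fin.sum_univ_three, Pi.single_apply]

lemma lam_sum_smul (S : SliceIdx G) (r : G → M2 A) (x : Fin 3 → A) (Y : Fin 3 → M2 A) (s : Fin 3) :
    lam S r (∑ u, x u • Y u) s = ∑ u, x u * lam S r (Y u) s := by
  simp only [lam, Finset.sum_mul, Finset.mul_sum, Matrix.sub_apply, Matrix.sum_apply,
    Matrix.smul_mul, Matrix.mul_smul, Matrix.smul_apply, smul_eq_mul, mul_sub,
    Finset.sum_sub_distrib]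

lemma lam_evec (S : SliceIdx G) (r : G → M2 A) (x : Fin 3 → A) (s : Fin 3) :
    lam S r (evec x) s = (theta S r *ᵥ x) s := by
  rw [evec_eq_sum, lam_sum_smul, Matrix.mulVec, dotProduct]
  exact Finset.sum_congr rfl fun u _ => by rw [theta, Matrix.of_apply, mul_comm]

lemma evec_entriesIn {I : Ideal A} {x : Fin 3 → A} (hx : ∀ u, x u ∈ I) : EntriesIn I (evec x) := by
  intro i j
  fin_cases i <;> fin_cases j <;> simp [evec, hx]

lemma theta_map {B : Type*} [CommRing B] (f : A →+* B) (S : SliceIdx G) (r : G → M2 A) :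
    (theta S r).map f = theta S (fun g => (r g).map f) := by
  ext s u
  have hE : (evec (Pi.single u (1 : B)) : M2 B) = (evec (Pi.single u (1 : A)) : M2 A).map f := by
    ext i j
    fin_cases i <;> fin_cases j <;> simp [evec, Pi.single_apply, apply_ite f]
  simp only [theta, lam, Matrix.map_apply, Matrix.of_apply, hE]
  rw [← Matrix.map_mul, ← Matrix.map_mul, Matrix.sub_apply, Matrix.sub_apply, Matrix.map_apply,
    Matrix.map_apply, map_sub]

end Defs

section Rigidity

variable {A G : Type*} [CommRing A] [IsLocalRing A]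

lemma isUnit_of_sub_one_mem {x : A} (hx : x - 1 ∈ maximalIdeal A) : IsUnit x := by
  by_contra h
  have h1 : x ∈ maximalIdeal A := (mem_maximalIdeal x).2 h
  have h2 : (1 : A) ∈ maximalIdeal A := by
    have := (maximalIdeal A).sub_mem h1 hx
    simpa using this
  exact (Ideal.ne_top_iff_one _).1 (maximalIdeal.isMaximal A).ne_top h2

lemma eq_smul_one_add_evec (γ : M2 A) :
    γ = γ 1 1 • (1 : M2 A) + evec ![γ 0 0 - γ 1 1, γ 0 1, γ 1 0] := by
  ext i j
  fin_cases i <;> fin_cases j <;> simp [evec]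

/-- **Rigidity**: two normalised families which are congruent modulo the maximal ideal and
conjugate are equal. -/
theorem rigidity (S : SliceIdx G) (r r' : G → M2 A)
    (hθ : IsUnit (theta S r).det)
    (hcong : ∀ g, EntriesIn (maximalIdeal A) (r' g - r g))
    (hnorm : ∀ s, r' (S.h s) (S.a s) (S.b s) = r (S.h s) (S.a s) (S.b s))
    (γ : M2 A) (hγ : IsUnit γ) (hconj : ∀ g, r' g * γ = γ * r g) : r' = r := by
  obtain ⟨γi, hγi⟩ := hγ.exists_right_inv
  set c : Fin 3 → A := ![γ 0 0 - γ 1 1, γ 0 1, γ 1 0] with hc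
  set 𝔟 : Ideal A := Ideal.span (Set.range c) with h𝔟
  have hc𝔟 : ∀ u, c u ∈ 𝔟 := fun u => Ideal.subset_span ⟨u, rfl⟩
  have hγdec : γ = γ 1 1 • (1 : M2 A) + evec c := eq_smul_one_add_evec γ
  -- the basic commutator identity
  have h1 : ∀ g, (r' g - r g) * γ = evec c * r g - r g * evec c := by
    intro g
    rw [sub_mul, hconj g]
    conv_lhs => rw [hγdec]
    simp only [add_mul, mul_add, Matrix.smul_mul, Matrix.mul_smul, one_mul, mul_one]
    abel
  have hE : EntriesIn 𝔟 (evec c) := evec_entriesIn hc𝔟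
  have h2 : ∀ g, EntriesIn 𝔟 (r' g - r g) := by
    intro g
    have : r' g - r g = (evec c * r g - r g * evec c) * γi := by
      rw [← h1 g, mul_assoc, hγi, mul_one]
    rw [this]
    exact ((hE.mul_right _).sub (hE.mul_left _)).mul_right _
  have hθc : ∀ s, (theta S r *ᵥ c) s = ((r' (S.h s) - r (S.h s)) * γ) (S.a s) (S.b s) := by
    intro s
    rw [← lam_evec, lam, h1]
  have hoff : ∀ i j : Fin 2, i ≠ j → γ i j ∈ 𝔟 := by
    intro i j hij
    fin_cases i <;> fin_cases j
    · exact absurd rfl hij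
    · exact hc𝔟 1
    · exact hc𝔟 2
    · exact absurd rfl hij
  -- solve back for `c`
  have hsolve : ∀ I : Ideal A, (∀ s, (theta S r *ᵥ c) s ∈ I) → ∀ u, c u ∈ I := by
    intro I hI u
    have : c = (theta S r)⁻¹ *ᵥ (theta S r *ᵥ c) := by
      rw [Matrix.mulVec_mulVec, Matrix.nonsing_inv_mul _ hθ, Matrix.one_mulVec]
    rw [this]
    exact EntriesIn.mulVec _ hI u
  have hcm : ∀ u, c u ∈ maximalIdeal A := by
    apply hsolve
    intro s
    rw [hθc]
    exact (hcong _).mul_right _ _ _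
  have hcsq : ∀ u, c u ∈ 𝔟 * 𝔟 := by
    apply hsolve
    intro s
    rw [hθc, Matrix.mul_apply]
    refine Ideal.sum_mem _ fun l _ => ?_
    by_cases hl : l = S.b s
    · subst hl
      rw [Matrix.sub_apply, hnorm s, sub_self, zero_mul]
      exact Ideal.zero_mem _
    · exact Ideal.mul_mem_mul (h2 _ _ _) (hoff _ _ hl)
  have h𝔟m : 𝔟 ≤ maximalIdeal A := Ideal.span_le.2 (by rintro _ ⟨u, rfl⟩; exact hcm u)
  have h𝔟le : 𝔟 ≤ maximalIdeal A • 𝔟 := by
    refine Ideal.span_le.2 ?_
    rintro _ ⟨u, rfl⟩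
    exact Ideal.mul_mono_left h𝔟m (hcsq u)
  have h𝔟bot : 𝔟 = ⊥ :=
    Submodule.eq_bot_of_le_smul_of_le_jacobson_bot (maximalIdeal A) 𝔟
      ⟨(Set.finite_range c).toFinset, by simp [h𝔟, Ideal.span]⟩ h𝔟le
      (maximalIdeal_le_jacobson _)
  funext g
  have := entriesIn_bot (h𝔟bot ▸ h2 g)
  exact sub_eq_zero.1 this

end Rigidity

section NormalForm

variable {A G : Type*} [CommRing A] [IsLocalRing A]

lemma isUnit_det_of_entriesIn_sub_one {γ : M2 A} (h : EntriesIn (maximalIdeal A) (γ - 1)) :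
    IsUnit γ.det := by
  apply isUnit_of_sub_one_mem
  rw [Matrix.det_fin_two]
  have h00 : γ 0 0 - 1 ∈ maximalIdeal A := by simpa using h 0 0
  have h11 : γ 1 1 - 1 ∈ maximalIdeal A := by simpa using h 1 1
  have h01 : γ 0 1 ∈ maximalIdeal A := by simpa using h 0 1
  have : γ 0 0 * γ 1 1 - γ 0 1 * γ 1 0 - 1
      = (γ 0 0 - 1) * γ 1 1 + (γ 1 1 - 1) - γ 0 1 * γ 1 0 := by ring
  rw [this]
  exact Ideal.sub_mem _ (Ideal.add_mem _ (Ideal.mul_mem_right _ _ h00) h11)
    (Ideal.mul_mem_right _ _ h01)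

lemma isUnit_det_theta_congr (S : SliceIdx G) (r r' : G → M2 A)
    (hcong : ∀ g, EntriesIn (maximalIdeal A) (r' g - r g)) (h : IsUnit (theta S r).det) :
    IsUnit (theta S r').det := by
  rw [← residue_ne_zero_iff_isUnit] at h ⊢
  have key : ∀ g, (r' g).map (residue A) = (r g).map (residue A) := by
    intro g
    ext i j
    have := hcong g i j
    rw [Matrix.sub_apply, ← residue_eq_zero_iff, map_sub, sub_eq_zero] at this
    simpa using this
  rw [RingHom.map_det, RingHom.mapMatrix_apply, theta_map] at h ⊢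
  simpa only [key] using h

lemma conj_congr {I : Ideal A} {γ γ' : M2 A} (hγ : IsUnit γ.det) (hγ' : IsUnit γ'.det)
    (h : EntriesIn I (γ' - γ)) (M : M2 A) : EntriesIn I (γ' * M * γ'⁻¹ - γ * M * γ⁻¹) := by
  have hinv : γ'⁻¹ - γ⁻¹ = γ'⁻¹ * (-(γ' - γ)) * γ⁻¹ := by
    rw [neg_sub, mul_sub, sub_mul, Matrix.nonsing_inv_mul _ hγ', one_mul, mul_assoc,
      Matrix.mul_nonsing_inv _ hγ, mul_one]
  have : γ' * M * γ'⁻¹ - γ * M * γ⁻¹ = (γ' - γ) * M * γ'⁻¹ + γ * M * (γ'⁻¹ - γ⁻¹) := by
    noncomm_ring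
  rw [this, hinv]
  exact ((h.mul_right _).mul_right _).add (((h.neg.mul_left _).mul_right _).mul_left _)

lemma normalForm_step (S : SliceIdx G) (r : G → M2 A) (hθ : IsUnit (theta S r).det)
    (c : Fin 3 → A) (n : ℕ) (hn : 1 ≤ n)
    (he : ∀ s, c s - r (S.h s) (S.a s) (S.b s) ∈ maximalIdeal A ^ n) :
    ∃ δ : M2 A, EntriesIn (maximalIdeal A ^ n) (δ - 1) ∧
      ∀ s, c s - (δ * r (S.h s) * δ⁻¹) (S.a s) (S.b s) ∈ maximalIdeal A ^ (n + 1) := by
  set e : Fin 3 → A := fun s => c s - r (S.h s) (S.a s) (S.b s) with he_def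
  set x : Fin 3 → A := (theta S r)⁻¹ *ᵥ e with hx_def
  have hx : ∀ u, x u ∈ maximalIdeal A ^ n := fun u => EntriesIn.mulVec _ he u
  have hθx : theta S r *ᵥ x = e := by
    rw [hx_def, Matrix.mulVec_mulVec, Matrix.mul_nonsing_inv _ hθ, Matrix.one_mulVec]
  set X : M2 A := evec x with hX_def
  have hX : EntriesIn (maximalIdeal A ^ n) X := evec_entriesIn hx
  have hδ1 : EntriesIn (maximalIdeal A ^ n) ((1 + X) - 1) := by simpa using hX
  have hδm : EntriesIn (maximalIdeal A) ((1 + X) - 1) :=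
    hδ1.mono (Ideal.pow_le_self (by omega))
  have hδu : IsUnit (1 + X).det := isUnit_det_of_entriesIn_sub_one hδm
  refine ⟨1 + X, hδ1, fun s => ?_⟩
  set ρ : M2 A := r (S.h s) with hρ
  set E : M2 A := (1 + X) * ρ * (1 + X)⁻¹ - ρ with hE_def
  have hE1 : E * (1 + X) = X * ρ - ρ * X := by
    rw [hE_def, sub_mul, mul_assoc, Matrix.nonsing_inv_mul _ hδu]
    noncomm_ring
  have hEn : EntriesIn (maximalIdeal A ^ n) E := by
    have : E = (X * ρ - ρ * X) * (1 + X)⁻¹ := by
      rw [← hE1, mul_assoc, Matrix.mul_nonsing_inv _ hδu, mul_one]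
    rw [this]
    exact ((hX.mul_right _).sub (hX.mul_left _)).mul_right _
  have hE2 : E = (X * ρ - ρ * X) - E * X := by
    rw [← hE1]; noncomm_ring
  have hEX : EntriesIn (maximalIdeal A ^ (n + 1)) (E * X) := by
    refine (hEn.mul hX).mono ?_
    rw [← pow_add]
    exact Ideal.pow_le_pow_right (by omega)
  have hlam : (X * ρ - ρ * X) (S.a s) (S.b s) = e s := by
    have := lam_evec S r x s
    rw [hθx] at this
    exact this
  have : c s - ((1 + X) * ρ * (1 + X)⁻¹) (S.a s) (S.b s) = (E * X) (S.a s) (S.b s) := by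
    have h1 : ((1 + X) * ρ * (1 + X)⁻¹) (S.a s) (S.b s) = E (S.a s) (S.b s) + ρ (S.a s) (S.b s) := by
      rw [hE_def, Matrix.sub_apply, sub_add_cancel]
    have h2 : E (S.a s) (S.b s) = e s - (E * X) (S.a s) (S.b s) := by
      conv_lhs => rw [hE2]
      rw [Matrix.sub_apply, hlam]
    rw [h1, h2, he_def]
    ring
  rw [this]
  exact hEX _ _

/-- **Normal form**: over a complete local ring every family can be conjugated (by a matrix
congruent to `1`) into normalised position. -/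
theorem exists_normalForm [IsAdicComplete (maximalIdeal A) A]
    (S : SliceIdx G) (r : G → M2 A) (hθ : IsUnit (theta S r).det) (c : Fin 3 → A)
    (hc : ∀ s, c s - r (S.h s) (S.a s) (S.b s) ∈ maximalIdeal A) :
    ∃ γ : M2 A, EntriesIn (maximalIdeal A) (γ - 1) ∧
      ∀ s, (γ * r (S.h s) * γ⁻¹) (S.a s) (S.b s) = c s := by
  set 𝔪 := maximalIdeal A with h𝔪
  let P : ℕ → M2 A → Prop := fun n γ => EntriesIn 𝔪 (γ - 1) ∧
    ∀ s, c s - (γ * r (S.h s) * γ⁻¹) (S.a s) (S.b s) ∈ 𝔪 ^ (n + 1)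
  have base : P 0 1 := by
    refine ⟨by intro i j; simp, fun s => ?_⟩
    simpa using hc s
  have step : ∀ (n : ℕ) (γ : {γ : M2 A // P n γ}),
      ∃ γ' : {γ : M2 A // P (n + 1) γ}, EntriesIn (𝔪 ^ (n + 1)) (γ'.1 - γ.1) := by
    rintro n ⟨γ, hγ1, hγ2⟩
    have hγu : IsUnit γ.det := isUnit_det_of_entriesIn_sub_one hγ1
    have hcong : ∀ g, EntriesIn 𝔪 (γ * r g * γ⁻¹ - r g) := by
      intro g
      have := conj_congr (I := 𝔪) (γ := 1) (γ' := γ) (by simp) hγu hγ1 (r g)
      simpa using this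
    obtain ⟨δ, hδ1, hδ2⟩ := normalForm_step S (fun g => γ * r g * γ⁻¹)
      (isUnit_det_theta_congr S r _ hcong hθ) c (n + 1) (by omega) hγ2
    have hδm : EntriesIn 𝔪 (δ - 1) := hδ1.mono (Ideal.pow_le_self (by omega))
    have hdiff : δ * γ - γ = (δ - 1) * γ := by noncomm_ring
    refine ⟨⟨δ * γ, ?_, fun s => ?_⟩, ?_⟩
    · have : δ * γ - 1 = (δ - 1) * γ + (γ - 1) := by noncomm_ring
      rw [this]
      exact (hδm.mul_right _).add hγ1
    · have : δ * γ * r (S.h s) * (δ * γ)⁻¹ = δ * (γ * r (S.h s) * γ⁻¹) * δ⁻¹ := by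
        rw [Matrix.mul_inv_rev]; noncomm_ring
      rw [this]
      exact hδ2 s
    · show EntriesIn (𝔪 ^ (n + 1)) (δ * γ - γ)
      rw [hdiff]
      exact hδ1.mul_right _
  choose next hnext using step
  let seq : (n : ℕ) → {γ : M2 A // P n γ} := fun n => Nat.rec ⟨1, base⟩ (fun n γ => next n γ) n
  have hseq : ∀ n, EntriesIn (𝔪 ^ (n + 1)) ((seq (n + 1)).1 - (seq n).1) := fun n => hnext n (seq n)
  have hlim : ∀ i j, ∃ L : A, ∀ n, (seq n).1 i j - L ∈ 𝔪 ^ n := by
    intro i j
    have hcauchy : AdicCompletion.IsAdicCauchy 𝔪 A (fun n => (seq n).1 i j) := by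
      rw [AdicCompletion.isAdicCauchy_iff]
      intro n
      rw [SModEq.sub_mem, smul_eq_mul, Ideal.mul_top]
      have := (hseq n).neg i j
      rw [neg_sub, Matrix.sub_apply] at this
      exact Ideal.pow_le_pow_right (Nat.le_succ n) this
    obtain ⟨L, hL⟩ := IsPrecomplete.prec (I := 𝔪) (M := A) inferInstance hcauchy
    refine ⟨L, fun n => ?_⟩
    have := hL n
    rwa [SModEq.sub_mem, smul_eq_mul, Ideal.mul_top] at this
  choose L hL using hlim
  set γ : M2 A := Matrix.of L with hγ_def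
  have hγn : ∀ n, EntriesIn (𝔪 ^ n) (γ - (seq n).1) := by
    intro n i j
    have := neg_mem (hL i j n)
    rwa [neg_sub] at this
  have hγ1 : EntriesIn 𝔪 (γ - 1) := by
    have h1 := hγn 1
    rw [pow_one] at h1
    have : γ - 1 = (γ - (seq 1).1) + ((seq 1).1 - 1) := by abel
    rw [this]
    exact h1.add (seq 1).2.1
  have hγu : IsUnit γ.det := isUnit_det_of_entriesIn_sub_one hγ1
  refine ⟨γ, hγ1, fun s => ?_⟩
  have hall : ∀ n, c s - (γ * r (S.h s) * γ⁻¹) (S.a s) (S.b s) ∈ 𝔪 ^ n := by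
    intro n
    have h1 := conj_congr (isUnit_det_of_entriesIn_sub_one (seq n).2.1) hγu (hγn n) (r (S.h s))
      (S.a s) (S.b s)
    have h2 := Ideal.pow_le_pow_right (I := 𝔪) (Nat.le_succ n) ((seq n).2.2 s)
    rw [Matrix.sub_apply] at h1
    have := Ideal.sub_mem _ h2 h1
    convert this using 1
    ring
  have h0 : c s - (γ * r (S.h s) * γ⁻¹) (S.a s) (S.b s) = 0 := by
    refine IsHausdorff.haus (I := 𝔪) (M := A) inferInstance _ fun n => ?_
    rw [SModEq.zero, smul_eq_mul, Ideal.mul_top]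
    exact hall n
  exact (sub_eq_zero.1 h0).symm

end NormalForm

end Fermat.Agent.S53
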