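import Mathlib
import Fermat.Agent.S53.Slice
import Fermat.Prelude.Def_GaloisRep_DeformationRingData
import Fermat.Prelude.Def_GaloisRep_DeformationCondition

/-!
# Shared definitions for S53 (existence of the universal deformation ring)
-/

set_option autoImplicit false
set_option linter.unusedSectionVars false

namespace Fermat.Agent.S53

open IsLocalRing

/-- The absolute Galois group of `ℚ`. -/
abbrev GQ : Type := AlgebraicClosure ℚ ≃ₐ[ℚ] AlgebraicClosure ℚ

/-- `2 × 2` matrices. -/
abbrev M2 (A : Type) : Type := Matrix (Fin 2) (Fin 2) A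

section basic

variable {A B : Type} [CommRing A] [CommRing B]

/-- push a matrix representation forward along a ring homomorphism. -/
noncomputable def mapMat (φ : A →+* B) (r : GQ →* M2 A) : GQ →* M2 B :=
  ((φ.mapMatrix : M2 A →+* M2 B) : M2 A →* M2 B).comp r

@[simp] theorem mapMat_apply (φ : A →+* B) (r : GQ →* M2 A) (σ : GQ) (i j : Fin 2) :
    mapMat φ r σ i j = φ (r σ i j) := rfl

/-- `r'` is the conjugate of `r` by `P`. -/
def IsConjBy (P : (M2 A)ˣ) (r r' : GQ →* M2 A) : Prop :=
  ∀ σ, r' σ * (P : M2 A) = (P : M2 A) * r σ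

variable [IsLocalRing A]

/-- adic continuity of a matrix representation. -/
def MatCont (r : GQ →* M2 A) : Prop :=
  ∀ n : ℕ, ∃ L : IntermediateField ℚ (AlgebraicClosure ℚ), FiniteDimensional ℚ L ∧
    ∀ σ : GQ, (∀ x ∈ L, σ x = x) → ∀ i j, (r σ - 1) i j ∈ maximalIdeal A ^ n

theorem mem_smul_top_pi {I : Ideal A} (v : Fin 2 → A) (hv : ∀ i, v i ∈ I) :
    v ∈ I • (⊤ : Submodule A (Fin 2 → A)) := by
  have : v = ∑ i, v i • (Pi.single i (1 : A) : Fin 2 → A) := by
    ext j
    simp [Finset.sum_apply, Pi.single_apply]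
  rw [this]
  exact Submodule.sum_mem _ fun i _ => Submodule.smul_mem_smul (hv i) Submodule.mem_top

/-- The `GaloisRepAdic` attached to a continuous matrix representation (on `Fin 2 → A`). -/
noncomputable def ofMat (r : GQ →* M2 A) (hr : MatCont r) : GaloisRepAdic A where
  V := Fin 2 → A
  finrank_eq := by simp
  ρ := ((Matrix.toLinAlgEquiv' : M2 A ≃ₐ[A] _) : M2 A →* Module.End A (Fin 2 → A)).comp r
  isAdicContinuous := by
    intro n
    obtain ⟨L, hL, h⟩ := hr n
    refine ⟨L, hL, fun σ hσ v => ?_⟩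
    apply mem_smul_top_pi
    intro i
    have h1 : (((Matrix.toLinAlgEquiv' : M2 A ≃ₐ[A] _) : M2 A →* Module.End A (Fin 2 → A)).comp r)
        σ v - v = (r σ - 1).mulVec v := by
      rw [Matrix.sub_mulVec, Matrix.one_mulVec]
      rfl
    rw [h1]
    simp only [Matrix.mulVec, dotProduct]
    exact Ideal.sum_mem _ fun j _ => Ideal.mul_mem_right _ _ (h σ hσ i j)

@[simp] theorem ofMat_ρ_apply (r : GQ →* M2 A) (hr : MatCont r) (σ : GQ) (v : Fin 2 → A) :
    (ofMat r hr).ρ σ v = (r σ).mulVec v := rfl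

end basic

section resid

variable {k : Type} [Field k]

/-- The `ResidualGaloisRep` attached to a matrix representation over a field. -/
noncomputable def resOfMat (r : GQ →* M2 k) (hr : GaloisFactorsThroughFiniteLevel r) :
    ResidualGaloisRep k where
  V := Fin 2 → k
  finrank_eq := by simp
  ρ := ((Matrix.toLinAlgEquiv' : M2 k ≃ₐ[k] _) : M2 k →* Module.End k (Fin 2 → k)).comp r
  factorsThroughFiniteLevel := by
    obtain ⟨L, hL, h⟩ := hr
    exact ⟨L, hL, fun σ hσ => by rw [MonoidHom.comp_apply, h σ hσ, map_one]⟩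

end resid

section defo

variable (𝒪 : Type) [CommRing 𝒪] [IsLocalRing 𝒪]

/-- The `𝒪`-algebra structure on the dual numbers used in `GaloisRep.TangentFinite`. -/
@[reducible] noncomputable def dualAlg : Algebra 𝒪 (DualNumber (ResidueField 𝒪)) :=
  ((algebraMap (ResidueField 𝒪) (DualNumber (ResidueField 𝒪))).comp
      (algebraMap 𝒪 (ResidueField 𝒪))).toAlgebra

variable {𝒪}
variable {A : Type} [CommRing A] [IsLocalRing A] [Algebra 𝒪 A]

/-- `r` lifts `rbar` entrywise. (No `IsLocalHom` needed: we compare with lifts in `𝒪`.) -/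
def IsLift (rbar : GQ →* M2 (ResidueField 𝒪)) (r : GQ →* M2 A) : Prop :=
  ∀ (σ : GQ) (i j : Fin 2) (x : 𝒪), residue 𝒪 x = rbar σ i j →
    r σ i j - algebraMap 𝒪 A x ∈ maximalIdeal A

/-- The three normalising entry equations (indices `S`, prescribed values `c`). -/
def IsNormalized (S : SliceIdx GQ) (c : Fin 3 → 𝒪) (r : GQ →* M2 A) : Prop :=
  ∀ s, r (S.h s) (S.a s) (S.b s) = algebraMap 𝒪 A (c s)

/-- `r` is a normalised continuous lift of `rbar` of type `𝒟`. -/
structure IsDefo
    (𝒟 : ∀ ⦃A : Type⦄ [CommRing A] [IsLocalRing A] [Algebra 𝒪 A], GaloisRepAdic A → Prop)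
    (rbar : GQ →* M2 (ResidueField 𝒪)) (S : SliceIdx GQ) (c : Fin 3 → 𝒪) (r : GQ →* M2 A) :
    Prop where
  cont : MatCont r
  lift : IsLift rbar r
  norm : IsNormalized S c r
  type : 𝒟 (ofMat r cont)

/-- The fixed slice data: `theta S rbar` is invertible and `c` lifts the selected entries. -/
structure IsSliceData (rbar : GQ →* M2 (ResidueField 𝒪)) (S : SliceIdx GQ) (c : Fin 3 → 𝒪) :
    Prop where
  unit : IsUnit (theta S rbar).det
  lift : ∀ s, residue 𝒪 (c s) = rbar (S.h s) (S.a s) (S.b s)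

end defo

end Fermat.Agent.S53
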