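import Fermat.Agent.S53.Defs

/-!
# S53, piece C: dictionary between `GaloisRepAdic` and matrix representations
owner: helper21
-/

set_option autoImplicit false
set_option linter.unusedSectionVars false

namespace Fermat.Agent.S53

open IsLocalRing Matrix
open scoped TensorProduct

section Generic

variable {A : Type} [CommRing A] {V V' : Type} [AddCommGroup V] [Module A V]
  [AddCommGroup V'] [Module A V']

/-- matrix form of a representation with respect to a basis. -/
noncomputable def matRep (b : Module.Basis (Fin 2) A V) (ρ : GQ →* Module.End A V) : GQ →* M2 A :=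
  ((LinearMap.toMatrixAlgEquiv b : Module.End A V ≃ₐ[A] M2 A) : Module.End A V →* M2 A).comp ρ

lemma matRep_apply (b : Module.Basis (Fin 2) A V) (ρ : GQ →* Module.End A V) (σ : GQ) :
    matRep b ρ σ = LinearMap.toMatrix b b (ρ σ) := rfl

lemma matRep_conj_of_equiv (b : Module.Basis (Fin 2) A V) (b' : Module.Basis (Fin 2) A V')
    {ρ : GQ →* Module.End A V} {ρ' : GQ →* Module.End A V'} (e : V ≃ₗ[A] V')
    (h : ∀ σ x, e (ρ σ x) = ρ' σ (e x)) :
    ∃ γ : M2 A, IsUnit γ ∧ ∀ σ, matRep b' ρ' σ * γ = γ * matRep b ρ σ := by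
  refine ⟨LinearMap.toMatrix b b' e.toLinearMap, ?_, fun σ => ?_⟩
  · refine ⟨⟨LinearMap.toMatrix b b' e.toLinearMap, LinearMap.toMatrix b' b e.symm.toLinearMap,
      ?_, ?_⟩, rfl⟩
    · rw [← LinearMap.toMatrix_comp]; simp
    · rw [← LinearMap.toMatrix_comp]; simp
  · rw [matRep_apply, matRep_apply, ← LinearMap.toMatrix_comp, ← LinearMap.toMatrix_comp]
    congr 1
    ext x
    exact (h σ x).symm

lemma equiv_of_matRep_conj (b : Module.Basis (Fin 2) A V) (b' : Module.Basis (Fin 2) A V')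
    {ρ : GQ →* Module.End A V} {ρ' : GQ →* Module.End A V'} (γ : M2 A) (hγ : IsUnit γ)
    (h : ∀ σ, matRep b' ρ' σ * γ = γ * matRep b ρ σ) :
    ∃ e : V ≃ₗ[A] V', ∀ σ x, e (ρ σ x) = ρ' σ (e x) := by
  obtain ⟨u, rfl⟩ := hγ
  let e : V ≃ₗ[A] V' := LinearEquiv.ofLinearMap (Matrix.toLin b b' (u : M2 A))
    (Matrix.toLin b' b ((u⁻¹ : (M2 A)ˣ) : M2 A))
    (by rw [← Matrix.toLin_mul]; simp) (by rw [← Matrix.toLin_mul]; simp)
  refine ⟨e, fun σ x => ?_⟩
  have key : (Matrix.toLin b b' (u : M2 A)).comp (ρ σ) = (ρ' σ).comp (Matrix.toLin b b' (u : M2 A)) := by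
    apply (LinearMap.toMatrix b b').injective
    rw [LinearMap.toMatrix_comp b b b', LinearMap.toMatrix_comp b b' b', LinearMap.toMatrix_toLin]
    exact (h σ).symm
  exact LinearMap.congr_fun key x

end Generic

section SmulTop

variable {A : Type} [CommRing A] {V : Type} [AddCommGroup V] [Module A V]

lemma mem_smul_top_iff_repr (b : Module.Basis (Fin 2) A V) (I : Ideal A) (x : V) :
    x ∈ I • (⊤ : Submodule A V) ↔ ∀ i, b.repr x i ∈ I := by
  rw [← b.span_eq, Submodule.mem_ideal_smul_span_iff_exists_sum]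
  constructor
  · rintro ⟨a, ha, rfl⟩ i
    have : b.repr (a.sum fun i c => c • b i) = a := by
      have h1 : (a.sum fun i c => c • b i) = Finsupp.linearCombination A b a := rfl
      rw [h1, b.repr_linearCombination]
    rw [this]
    exact ha i
  · intro h
    exact ⟨b.repr x, h, b.linearCombination_repr x⟩

end SmulTop

section OfMat

variable {A : Type} [CommRing A] [IsLocalRing A]

/-- the action on `A²` given by a matrix valued homomorphism. -/
noncomputable def matAction (r : GQ →* M2 A) : GQ →* Module.End A (Fin 2 → A) :=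
  ((Matrix.toLinAlgEquiv' : M2 A ≃ₐ[A] Module.End A (Fin 2 → A)) :
    M2 A →* Module.End A (Fin 2 → A)).comp r

lemma matAction_apply (r : GQ →* M2 A) (σ : GQ) (v : Fin 2 → A) : matAction r σ v = r σ *ᵥ v := rfl

lemma matRep_matAction (r : GQ →* M2 A) : matRep (Pi.basisFun A (Fin 2)) (matAction r) = r := by
  ext σ : 1
  rw [matRep_apply]
  show LinearMap.toMatrix (Pi.basisFun A (Fin 2)) (Pi.basisFun A (Fin 2)) (Matrix.toLin' (r σ)) = r σ
  rw [LinearMap.toMatrix_eq_toMatrix', LinearMap.toMatrix'_toLin']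

lemma isAdicContinuous_iff_matCont {V : Type} [AddCommGroup V] [Module A V]
    (b : Module.Basis (Fin 2) A V) (ρ : GQ →* Module.End A V) :
    GaloisActionIsAdicContinuous A ρ ↔ MatCont (matRep b ρ) := by
  have key : ∀ (n : ℕ) (σ : GQ), (∀ v : V, ρ σ v - v ∈ (maximalIdeal A ^ n) • (⊤ : Submodule A V)) ↔
      EntriesIn (maximalIdeal A ^ n) (matRep b ρ σ - 1) := by
    intro n σ
    have hentry : ∀ i j, (matRep b ρ σ - 1) i j = b.repr (ρ σ (b j) - b j) i := by
      intro i j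
      rw [Matrix.sub_apply, matRep_apply, LinearMap.toMatrix_apply, map_sub, Finsupp.sub_apply,
        b.repr_self, Matrix.one_apply, Finsupp.single_apply]
      simp only [eq_comm]
    constructor
    · intro h i j
      rw [hentry]
      exact (mem_smul_top_iff_repr b _ _).1 (h (b j)) i
    · intro h v
      have hb : ∀ j, ρ σ (b j) - b j ∈ (maximalIdeal A ^ n) • (⊤ : Submodule A V) := by
        intro j
        rw [mem_smul_top_iff_repr b]
        intro i
        rw [← hentry]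
        exact h i j
      have : ρ σ v - v = ∑ j, b.repr v j • (ρ σ (b j) - b j) := by
        conv_lhs => rw [← b.sum_repr v]
        rw [map_sum, ← Finset.sum_sub_distrib]
        exact Finset.sum_congr rfl fun j _ => by rw [map_smul, smul_sub]
      rw [this]
      exact Submodule.sum_mem _ fun j _ => Submodule.smul_mem _ _ (hb j)
  constructor
  · intro h n
    obtain ⟨L, hL, h1⟩ := h n
    exact ⟨L, hL, fun σ hσ => (key n σ).1 (h1 σ hσ)⟩
  · intro h n
    obtain ⟨L, hL, h1⟩ := h n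
    exact ⟨L, hL, fun σ hσ => (key n σ).2 (h1 σ hσ)⟩

/-- the standard basis of `ofMat`. -/
noncomputable def ofMatBasis (r : GQ →* M2 A) (hr : MatCont r) :
    Module.Basis (Fin 2) A (ofMat r hr).V := Pi.basisFun A (Fin 2)

/-- matrix form of a `GaloisRepAdic` with respect to a basis. -/
noncomputable def matOf (ρ : GaloisRepAdic A) (b : Module.Basis (Fin 2) A ρ.V) : GQ →* M2 A :=
  matRep b ρ.ρ

lemma matOf_cont (ρ : GaloisRepAdic A) (b : Module.Basis (Fin 2) A ρ.V) : MatCont (matOf ρ b) :=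
  (isAdicContinuous_iff_matCont b ρ.ρ).1 ρ.isAdicContinuous

/-- a basis of the underlying module. -/
noncomputable def someBasis (ρ : GaloisRepAdic A) : Module.Basis (Fin 2) A ρ.V :=
  Module.finBasisOfFinrankEq A ρ.V ρ.finrank_eq

/-- criterion for equivalence in terms of matrices. -/
lemma isEquiv_iff_conj (ρ ρ' : GaloisRepAdic A) (b : Module.Basis (Fin 2) A ρ.V)
    (b' : Module.Basis (Fin 2) A ρ'.V) :
    ρ.IsEquiv ρ' ↔ ∃ γ : M2 A, IsUnit γ ∧ ∀ σ, matOf ρ' b' σ * γ = γ * matOf ρ b σ := by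
  constructor
  · rintro ⟨e⟩
    exact matRep_conj_of_equiv b b' e.toLinearEquiv e.map_apply
  · rintro ⟨γ, hγ, h⟩
    obtain ⟨e, he⟩ := equiv_of_matRep_conj b b' γ hγ h
    exact ⟨⟨e, he⟩⟩

lemma matOf_ofMat (r : GQ →* M2 A) (hr : MatCont r) :
    matOf (ofMat r hr) (ofMatBasis r hr) = r := matRep_matAction r

lemma isEquiv_ofMat_matOf (ρ : GaloisRepAdic A) (b : Module.Basis (Fin 2) A ρ.V) :
    ρ.IsEquiv (ofMat (matOf ρ b) (matOf_cont ρ b)) := by
  rw [isEquiv_iff_conj ρ _ b (ofMatBasis _ _)]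
  exact ⟨1, isUnit_one, fun σ => by rw [matOf_ofMat, mul_one, one_mul]⟩

lemma ofMat_isEquiv_iff_isUnit {r r' : GQ →* M2 A} (hr : MatCont r) (hr' : MatCont r') :
    (ofMat r hr).IsEquiv (ofMat r' hr') ↔ ∃ γ : M2 A, IsUnit γ ∧ ∀ σ, r' σ * γ = γ * r σ := by
  rw [isEquiv_iff_conj _ _ (ofMatBasis r hr) (ofMatBasis r' hr'), matOf_ofMat, matOf_ofMat]

lemma isEquiv_ofMat_iff (ρ : GaloisRepAdic A) (b : Module.Basis (Fin 2) A ρ.V) {r : GQ →* M2 A}
    (hr : MatCont r) :
    ρ.IsEquiv (ofMat r hr) ↔ ∃ γ : M2 A, IsUnit γ ∧ ∀ σ, r σ * γ = γ * matOf ρ b σ := by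
  rw [isEquiv_iff_conj _ _ b (ofMatBasis r hr), matOf_ofMat]

lemma isEquiv_symm {ρ ρ' : GaloisRepAdic A} (h : ρ.IsEquiv ρ') : ρ'.IsEquiv ρ :=
  h.elim fun e => ⟨e.symm⟩

lemma isEquiv_trans {ρ ρ' ρ'' : GaloisRepAdic A} (h : ρ.IsEquiv ρ') (h' : ρ'.IsEquiv ρ'') :
    ρ.IsEquiv ρ'' :=
  h.elim fun e => h'.elim fun e' => ⟨e.trans e'⟩

/-- the conjugate `P r P⁻¹`. -/
noncomputable def conjMat (P : (M2 A)ˣ) (r : GQ →* M2 A) : GQ →* M2 A where
  toFun σ := (P : M2 A) * r σ * ((P⁻¹ : (M2 A)ˣ) : M2 A)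
  map_one' := by simp
  map_mul' σ τ := by
    rw [map_mul]
    simp only [mul_assoc]
    rw [← mul_assoc (((P⁻¹ : (M2 A)ˣ) : M2 A)) (P : M2 A), Units.inv_mul, one_mul]

lemma conjMat_apply (γ : (M2 A)ˣ) (r : GQ →* M2 A) (σ : GQ) :
    conjMat γ r σ = (γ : M2 A) * r σ * ((γ⁻¹ : (M2 A)ˣ) : M2 A) := rfl

lemma conjMat_mul (γ : (M2 A)ˣ) (r : GQ →* M2 A) (σ : GQ) :
    conjMat γ r σ * (γ : M2 A) = (γ : M2 A) * r σ := by
  rw [conjMat_apply, mul_assoc, Units.inv_mul, mul_one]

lemma conjMat_cont (γ : (M2 A)ˣ) {r : GQ →* M2 A} (hr : MatCont r) : MatCont (conjMat γ r) := by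
  intro n
  obtain ⟨L, hL, h⟩ := hr n
  refine ⟨L, hL, fun σ hσ => ?_⟩
  have : conjMat γ r σ - 1 = (γ : M2 A) * (r σ - 1) * ((γ⁻¹ : (M2 A)ˣ) : M2 A) := by
    rw [conjMat_apply, mul_sub, sub_mul, mul_one, Units.mul_inv]
  rw [this]
  exact ((show EntriesIn _ _ from h σ hσ).mul_left _).mul_right _

lemma ofMat_isEquiv_conjMat (γ : (M2 A)ˣ) {r : GQ →* M2 A} (hr : MatCont r) :
    (ofMat r hr).IsEquiv (ofMat (conjMat γ r) (conjMat_cont γ hr)) :=
  (ofMat_isEquiv_iff_isUnit _ _).2 ⟨γ, γ.isUnit, conjMat_mul γ r⟩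

end OfMat

section BaseChange

variable {A B : Type} [CommRing A] [IsLocalRing A] [CommRing B] [IsLocalRing B]

lemma mapMat_eq_map {A B : Type} [CommRing A] [CommRing B] (φ : A →+* B) (r : GQ →* M2 A) (σ : GQ) :
    mapMat φ r σ = (r σ).map φ := rfl

lemma mapMat_mapMat {A B C : Type} [CommRing A] [CommRing B] [CommRing C] (φ : A →+* B)
    (ψ : B →+* C) (r : GQ →* M2 A) : mapMat ψ (mapMat φ r) = mapMat (ψ.comp φ) r := by
  ext σ i j
  rfl

lemma map_maximalIdeal_pow_le (φ : A →+* B) (hφ : IsLocalHom φ) (n : ℕ) :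
    (maximalIdeal A ^ n).map φ ≤ maximalIdeal B ^ n := by
  rw [Ideal.map_pow]
  exact Ideal.pow_right_mono (Ideal.map_le_iff_le_comap.mpr fun a ha =>
    Ideal.mem_comap.mpr (haveI := hφ; map_nonunit φ a ha)) n

lemma mapMat_cont (φ : A →+* B) (hφ : IsLocalHom φ) {r : GQ →* M2 A} (hr : MatCont r) :
    MatCont (mapMat φ r) := by
  intro n
  obtain ⟨L, hL, h⟩ := hr n
  refine ⟨L, hL, fun σ hσ i j => ?_⟩
  have : (mapMat φ r σ - 1) i j = φ ((r σ - 1) i j) := by
    rw [Matrix.sub_apply, Matrix.sub_apply, mapMat_apply, map_sub, Matrix.one_apply,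
      Matrix.one_apply]
    split_ifs <;> simp
  rw [this]
  exact map_maximalIdeal_pow_le φ hφ n (Ideal.mem_map_of_mem φ (h σ hσ i j))

/-- the base changed basis. -/
noncomputable def baseChangeBasis (φ : A →+* B) (hφ : IsLocalHom φ) (ρ : GaloisRepAdic A)
    (b : Module.Basis (Fin 2) A ρ.V) : Module.Basis (Fin 2) B (ρ.baseChangeAlong φ hφ).V :=
  letI : Algebra A B := φ.toAlgebra
  Algebra.TensorProduct.basis B b

lemma matOf_baseChangeAlong (φ : A →+* B) (hφ : IsLocalHom φ) (ρ : GaloisRepAdic A)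
    (b : Module.Basis (Fin 2) A ρ.V) :
    matOf (ρ.baseChangeAlong φ hφ) (baseChangeBasis φ hφ ρ b) = mapMat φ (matOf ρ b) := by
  let _ : Algebra A B := φ.toAlgebra
  ext σ : 1
  exact LinearMap.toMatrix_baseChange B (ρ.ρ σ) b b

lemma baseChangeAlong_isEquiv_ofMat (φ : A →+* B) (hφ : IsLocalHom φ) (ρ : GaloisRepAdic A)
    (b : Module.Basis (Fin 2) A ρ.V) :
    (ρ.baseChangeAlong φ hφ).IsEquiv
      (ofMat (mapMat φ (matOf ρ b)) (mapMat_cont φ hφ (matOf_cont ρ b))) := by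
  rw [isEquiv_ofMat_iff _ (baseChangeBasis φ hφ ρ b), matOf_baseChangeAlong]
  exact ⟨1, isUnit_one, fun σ => by rw [mul_one, one_mul]⟩

lemma baseChangeAlong_ofMat_aux (φ : A →+* B) (hφ : IsLocalHom φ) {r : GQ →* M2 A} (hr : MatCont r) :
    ((ofMat r hr).baseChangeAlong φ hφ).IsEquiv (ofMat (mapMat φ r) (mapMat_cont φ hφ hr)) := by
  have := baseChangeAlong_isEquiv_ofMat φ hφ (ofMat r hr) (ofMatBasis r hr)
  simpa only [matOf_ofMat] using this

end BaseChange

section Residual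

variable {k : Type} [Field k]

/-- matrix form of a residual representation. -/
noncomputable def matOfRes (ρ : ResidualGaloisRep k) (b : Module.Basis (Fin 2) k ρ.V) : GQ →* M2 k :=
  matRep b ρ.ρ

/-- a basis of the underlying space. -/
noncomputable def someBasisRes (ρ : ResidualGaloisRep k) : Module.Basis (Fin 2) k ρ.V :=
  Module.finBasisOfFinrankEq k ρ.V ρ.finrank_eq

lemma res_isEquiv_iff_conj (ρ ρ' : ResidualGaloisRep k) (b : Module.Basis (Fin 2) k ρ.V)
    (b' : Module.Basis (Fin 2) k ρ'.V) :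
    ρ.IsEquiv ρ' ↔ ∃ γ : M2 k, IsUnit γ ∧ ∀ σ, matOfRes ρ' b' σ * γ = γ * matOfRes ρ b σ := by
  constructor
  · rintro ⟨e⟩
    exact matRep_conj_of_equiv b b' e.toLinearEquiv e.map_apply
  · rintro ⟨γ, hγ, h⟩
    obtain ⟨e, he⟩ := equiv_of_matRep_conj b b' γ hγ h
    exact ⟨⟨e, he⟩⟩

/-- the base changed basis of a residual representation. -/
noncomputable def resBaseChangeBasis {k' : Type} [Field k'] (ι : k →+* k') (ρ : ResidualGaloisRep k)
    (b : Module.Basis (Fin 2) k ρ.V) : Module.Basis (Fin 2) k' (ρ.baseChangeAlong ι).V :=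
  letI : Algebra k k' := ι.toAlgebra
  Algebra.TensorProduct.basis k' b

lemma matOfRes_baseChangeAlong {k' : Type} [Field k'] (ι : k →+* k') (ρ : ResidualGaloisRep k)
    (b : Module.Basis (Fin 2) k ρ.V) :
    matOfRes (ρ.baseChangeAlong ι) (resBaseChangeBasis ι ρ b) = mapMat ι (matOfRes ρ b) := by
  let _ : Algebra k k' := ι.toAlgebra
  ext σ : 1
  exact LinearMap.toMatrix_baseChange k' (ρ.ρ σ) b b

variable {A : Type} [CommRing A] [IsLocalRing A]

/-- the induced basis of the residual representation. -/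
noncomputable def residualBasis (ρ : GaloisRepAdic A) (b : Module.Basis (Fin 2) A ρ.V) :
    Module.Basis (Fin 2) (ResidueField A) ρ.residual.V :=
  Algebra.TensorProduct.basis (ResidueField A) b

lemma matOfRes_residual (ρ : GaloisRepAdic A) (b : Module.Basis (Fin 2) A ρ.V) :
    matOfRes ρ.residual (residualBasis ρ b) = mapMat (residue A) (matOf ρ b) := by
  ext σ : 1
  exact LinearMap.toMatrix_baseChange (ResidueField A) (ρ.ρ σ) b b

/-- `r` lifts `rb` along `ι`. -/
def IsLiftAlong (ι : k →+* ResidueField A) (rb : GQ →* M2 k) (r : GQ →* M2 A) : Prop :=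
  mapMat (residue A) r = mapMat ι rb

lemma residual_ofMat_isEquiv (ι : k →+* ResidueField A) (ρbar : ResidualGaloisRep k)
    (bb : Module.Basis (Fin 2) k ρbar.V) {r : GQ →* M2 A} (hr : MatCont r)
    (hlift : IsLiftAlong ι (matOfRes ρbar bb) r) :
    (ofMat r hr).residual.IsEquiv (ρbar.baseChangeAlong ι) := by
  rw [res_isEquiv_iff_conj _ _ (residualBasis _ (ofMatBasis r hr))
    (resBaseChangeBasis ι ρbar bb), matOfRes_residual, matOfRes_baseChangeAlong, matOf_ofMat, hlift]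
  exact ⟨1, isUnit_one, fun σ => by rw [mul_one, one_mul]⟩

/-- every unit matrix over the residue field lifts to a unit matrix. -/
lemma exists_unit_lift (γ : M2 (ResidueField A)) (hγ : IsUnit γ) :
    ∃ δ : (M2 A)ˣ, (δ : M2 A).map (residue A) = γ := by
  choose f hf using fun i j => residue_surjective (R := A) (γ i j)
  have hmap : (Matrix.of f : M2 A).map (residue A) = γ := by
    ext i j
    exact hf i j
  have hdet : IsUnit (Matrix.of f : M2 A).det := by
    rw [← residue_ne_zero_iff_isUnit, RingHom.map_det, RingHom.mapMatrix_apply, hmap]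
    exact ((Matrix.isUnit_iff_isUnit_det _).1 hγ).ne_zero
  obtain ⟨δ, hδ⟩ := (Matrix.isUnit_iff_isUnit_det _).2 hdet
  exact ⟨δ, by rw [hδ, hmap]⟩

/-- a deformation of `ρbar` has a matrix form lifting the matrix form of `ρbar`. -/
theorem exists_lift_of_residual_isEquiv (ι : k →+* ResidueField A) (ρbar : ResidualGaloisRep k)
    (bb : Module.Basis (Fin 2) k ρbar.V) (ρ : GaloisRepAdic A)
    (h : ρ.residual.IsEquiv (ρbar.baseChangeAlong ι)) :
    ∃ (r : GQ →* M2 A) (hr : MatCont r), IsLiftAlong ι (matOfRes ρbar bb) r ∧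
      ρ.IsEquiv (ofMat r hr) := by
  set b := someBasis ρ
  rw [res_isEquiv_iff_conj _ _ (residualBasis ρ b) (resBaseChangeBasis ι ρbar bb),
    matOfRes_residual, matOfRes_baseChangeAlong] at h
  obtain ⟨γ, hγ, hconj⟩ := h
  obtain ⟨δ, hδ⟩ := exists_unit_lift γ hγ
  refine ⟨conjMat δ (matOf ρ b), conjMat_cont δ (matOf_cont ρ b), ?_,
    isEquiv_trans (isEquiv_ofMat_matOf ρ b) (ofMat_isEquiv_conjMat δ _)⟩
  ext σ : 1
  have h1 : mapMat (residue A) (conjMat δ (matOf ρ b)) σ * γ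
      = γ * mapMat (residue A) (matOf ρ b) σ := by
    rw [mapMat_eq_map, mapMat_eq_map, ← hδ, ← Matrix.map_mul, ← Matrix.map_mul, conjMat_mul]
  obtain ⟨u, rfl⟩ := hγ
  have h2 := (hconj σ).trans h1.symm
  exact (Units.mul_left_inj u).1 h2.symm

end Residual



/-! ## The statements of the skeleton -/

section

variable {A B : Type} [CommRing A] [IsLocalRing A] [CommRing B] [IsLocalRing B]

theorem exists_ofMat (ρ : GaloisRepAdic A) :
    ∃ (r : GQ →* M2 A) (hr : MatCont r), ρ.IsEquiv (ofMat r hr) :=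
  ⟨matOf ρ (someBasis ρ), matOf_cont ρ _, isEquiv_ofMat_matOf ρ _⟩

theorem MatCont.mapMat {r : GQ →* M2 A} (hr : MatCont r) (φ : A →+* B) (hφ : IsLocalHom φ) :
    MatCont (mapMat φ r) :=
  mapMat_cont φ hφ hr

theorem baseChangeAlong_ofMat (φ : A →+* B) (hφ : IsLocalHom φ) (r : GQ →* M2 A)
    (hr : MatCont r) (hr' : MatCont (mapMat φ r)) :
    ((ofMat r hr).baseChangeAlong φ hφ).IsEquiv (ofMat (mapMat φ r) hr') :=
  baseChangeAlong_ofMat_aux φ hφ hr

theorem ofMat_isEquiv_iff (r r' : GQ →* M2 A) (hr : MatCont r) (hr' : MatCont r') :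
    (ofMat r hr).IsEquiv (ofMat r' hr') ↔ ∃ P : (M2 A)ˣ, IsConjBy P r r' := by
  rw [ofMat_isEquiv_iff_isUnit]
  constructor
  · rintro ⟨γ, ⟨P, rfl⟩, h⟩
    exact ⟨P, h⟩
  · rintro ⟨P, h⟩
    exact ⟨P, P.isUnit, h⟩

theorem isConjBy_conjMat (P : (M2 A)ˣ) (r : GQ →* M2 A) : IsConjBy P r (conjMat P r) := by
  intro σ
  simp [conjMat, mul_assoc]

theorem eq_conjMat_of_isConjBy {P : (M2 A)ˣ} {r r' : GQ →* M2 A} (h : IsConjBy P r r') :
    r' = conjMat P r := by
  ext σ : 1
  exact (Units.mul_left_inj P).1 ((h σ).trans (conjMat_mul P r σ).symm)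

theorem MatCont.of_isConjBy {P : (M2 A)ˣ} {r r' : GQ →* M2 A} (h : IsConjBy P r r')
    (hr : MatCont r) : MatCont r' := by
  rw [eq_conjMat_of_isConjBy h]
  exact conjMat_cont P hr

end

section residual

/-- the standard basis of `resOfMat`. -/
noncomputable def resOfMatBasis {k : Type} [Field k] (r : GQ →* M2 k)
    (hr : GaloisFactorsThroughFiniteLevel r) :
    Module.Basis (Fin 2) k (resOfMat r hr).V := Pi.basisFun k (Fin 2)

lemma matOfRes_resOfMat {k : Type} [Field k] (r : GQ →* M2 k)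
    (hr : GaloisFactorsThroughFiniteLevel r) :
    matOfRes (resOfMat r hr) (resOfMatBasis r hr) = r := matRep_matAction r

lemma matOfRes_factors {k : Type} [Field k] (ρbar : ResidualGaloisRep k)
    (b : Module.Basis (Fin 2) k ρbar.V) : GaloisFactorsThroughFiniteLevel (matOfRes ρbar b) := by
  obtain ⟨L, hL, h⟩ := ρbar.factorsThroughFiniteLevel
  exact ⟨L, hL, fun σ hσ => by
    rw [matOfRes, matRep, MonoidHom.comp_apply, h σ hσ, map_one]⟩

/-- matrix form of a residual representation in a given basis. -/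
theorem exists_resOfMat_of_basis {k : Type} [Field k] (ρbar : ResidualGaloisRep k)
    (b : Module.Basis (Fin 2) k ρbar.V) :
    ∃ (rbar : GQ →* M2 k) (h : GaloisFactorsThroughFiniteLevel rbar),
      ρbar.IsEquiv (resOfMat rbar h) ∧ ∀ σ, rbar σ = LinearMap.toMatrix b b (ρbar.ρ σ) := by
  refine ⟨matOfRes ρbar b, matOfRes_factors ρbar b, ?_, fun σ => rfl⟩
  rw [res_isEquiv_iff_conj _ _ b (resOfMatBasis _ _), matOfRes_resOfMat]
  exact ⟨1, isUnit_one, fun σ => by rw [mul_one, one_mul]⟩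

/-- an equivalence with `resOfMat rbar` yields a basis in which the matrix form is `rbar`. -/
lemma exists_basis_of_isEquiv_resOfMat {k : Type} [Field k] {ρbar : ResidualGaloisRep k}
    {rbar : GQ →* M2 k} {hbar : GaloisFactorsThroughFiniteLevel rbar}
    (e : ρbar.IsEquiv (resOfMat rbar hbar)) :
    ∃ bb : Module.Basis (Fin 2) k ρbar.V, matOfRes ρbar bb = rbar := by
  obtain ⟨e⟩ := e
  refine ⟨(resOfMatBasis rbar hbar).map e.toLinearEquiv.symm, ?_⟩
  ext σ i j
  have h1 : matOfRes ρbar ((resOfMatBasis rbar hbar).map e.toLinearEquiv.symm) σ i j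
      = (resOfMatBasis rbar hbar).repr (e.toLinearEquiv (ρbar.ρ σ
          (e.toLinearEquiv.symm (resOfMatBasis rbar hbar j)))) i := by
    rw [matOfRes, matRep_apply, LinearMap.toMatrix_apply]
    simp
  rw [h1, e.map_apply, LinearEquiv.apply_symm_apply]
  have h2 := congrFun (congrFun (congrArg (fun f => f σ) (matOfRes_resOfMat rbar hbar)) i) j
  rw [← h2, matOfRes, matRep_apply, LinearMap.toMatrix_apply]

variable {𝒪 : Type} [CommRing 𝒪] [IsLocalRing 𝒪]

lemma isLift_iff_isLiftAlong {A : Type} [CommRing A] [IsLocalRing A] [Algebra 𝒪 A]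
    (ι : ResidueField 𝒪 →+* ResidueField A)
    (hι : ∀ x, ι (residue 𝒪 x) = residue A (algebraMap 𝒪 A x))
    (rbar : GQ →* M2 (ResidueField 𝒪)) (r : GQ →* M2 A) :
    IsLift rbar r ↔ IsLiftAlong ι rbar r := by
  constructor
  · intro h
    ext σ i j
    obtain ⟨x, hx⟩ := residue_surjective (rbar σ i j)
    have := h σ i j x hx
    rw [← residue_eq_zero_iff, map_sub, sub_eq_zero] at this
    rw [mapMat_apply, mapMat_apply, this, ← hx, hι]
  · intro h σ i j x hx
    have h1 : residue A (r σ i j) = ι (rbar σ i j) :=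
      congrFun (congrFun (congrArg (fun f => f σ) h) i) j
    rw [← residue_eq_zero_iff, map_sub, sub_eq_zero, h1, ← hx, hι]

variable {A : Type} [CommRing A] [IsLocalRing A] [Algebra 𝒪 A] [IsLocalHom (algebraMap 𝒪 A)]

theorem residual_isEquiv_of_isLift {ρbar : ResidualGaloisRep (ResidueField 𝒪)}
    {rbar : GQ →* M2 (ResidueField 𝒪)} {hbar : GaloisFactorsThroughFiniteLevel rbar}
    (e : ρbar.IsEquiv (resOfMat rbar hbar)) {r : GQ →* M2 A} (hr : MatCont r)
    (hl : IsLift rbar r) :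
    (ofMat r hr).residual.IsEquiv
      (ρbar.baseChangeAlong (ResidueField.map (algebraMap 𝒪 A))) := by
  obtain ⟨bb, hbb⟩ := exists_basis_of_isEquiv_resOfMat e
  refine residual_ofMat_isEquiv _ ρbar bb hr ?_
  rw [hbb]
  exact (isLift_iff_isLiftAlong _ (fun x => rfl) rbar r).1 hl

theorem exists_isLift_of_residual_isEquiv {ρbar : ResidualGaloisRep (ResidueField 𝒪)}
    {rbar : GQ →* M2 (ResidueField 𝒪)} {hbar : GaloisFactorsThroughFiniteLevel rbar}
    (e : ρbar.IsEquiv (resOfMat rbar hbar)) (ρ : GaloisRepAdic A)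
    (h : ρ.residual.IsEquiv (ρbar.baseChangeAlong (ResidueField.map (algebraMap 𝒪 A)))) :
    ∃ (r : GQ →* M2 A) (hr : MatCont r), ρ.IsEquiv (ofMat r hr) ∧ IsLift rbar r := by
  obtain ⟨bb, hbb⟩ := exists_basis_of_isEquiv_resOfMat e
  obtain ⟨r, hr, hl, he⟩ := exists_lift_of_residual_isEquiv _ ρbar bb ρ h
  rw [hbb] at hl
  exact ⟨r, hr, he, (isLift_iff_isLiftAlong _ (fun x => rfl) rbar r).2 hl⟩

/-- `ofResidualGaloisRep` in matrix form. -/
theorem ofResidualGaloisRep_isEquiv {k : Type} [Field k] {ρbar : ResidualGaloisRep k}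
    {rbar : GQ →* M2 k} {hbar : GaloisFactorsThroughFiniteLevel rbar}
    (e : ρbar.IsEquiv (resOfMat rbar hbar)) (hr : MatCont rbar) :
    (GaloisRepAdic.ofResidualGaloisRep ρbar).IsEquiv (ofMat rbar hr) := by
  obtain ⟨e⟩ := e
  exact ⟨⟨e.toLinearEquiv, e.map_apply⟩⟩

theorem matCont_of_factors {k : Type} [Field k] {rbar : GQ →* M2 k}
    (hbar : GaloisFactorsThroughFiniteLevel rbar) : MatCont rbar := by
  intro n
  obtain ⟨L, hL, h⟩ := hbar
  refine ⟨L, hL, fun σ hσ i j => ?_⟩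
  rw [h σ hσ, sub_self]
  exact Ideal.zero_mem _

/-- the variant of `residual_isEquiv_of_isLift` in the exact shape used by
`GaloisRep.TangentFinite`. -/
theorem residual_isEquiv_dual {ρbar : ResidualGaloisRep (ResidueField 𝒪)}
    {rbar : GQ →* M2 (ResidueField 𝒪)} {hbar : GaloisFactorsThroughFiniteLevel rbar}
    (e : ρbar.IsEquiv (resOfMat rbar hbar)) :
    letI := dualAlg 𝒪
    letI : Algebra (ResidueField 𝒪) (ResidueField (DualNumber (ResidueField 𝒪))) :=
      ((IsLocalRing.residue (DualNumber (ResidueField 𝒪))).comp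
        (algebraMap (ResidueField 𝒪) (DualNumber (ResidueField 𝒪)))).toAlgebra
    ∀ {r : GQ →* M2 (DualNumber (ResidueField 𝒪))} (hr : MatCont r), IsLift rbar r →
    (ofMat r hr).residual.IsEquiv
      (ρbar.baseChange (ResidueField (DualNumber (ResidueField 𝒪)))) := by
  intro r hr hl
  obtain ⟨bb, hbb⟩ := exists_basis_of_isEquiv_resOfMat e
  refine residual_ofMat_isEquiv ((IsLocalRing.residue (DualNumber (ResidueField 𝒪))).comp
        (algebraMap (ResidueField 𝒪) (DualNumber (ResidueField 𝒪)))) ρbar bb hr ?_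
  rw [hbb]
  exact (isLift_iff_isLiftAlong _ (fun x => rfl) rbar r).1 hl

end residual

end Fermat.Agent.S53
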