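import Fermat.Agent.S53.Normal
import Fermat.Agent.S53.Adm

/-!
# S53: the class of good pairs (definition only)
-/

set_option autoImplicit false

namespace Fermat.Agent.S53

open IsLocalRing GaloisRep

variable {𝒪 : Type} [CommRing 𝒪] [IsLocalRing 𝒪]

/-- `(A, r)` is good: `A` is an Artinian test algebra and the function `r` is (the underlying
function of) a normalised continuous lift of `rbar` of type `𝒟`. -/
def Good (𝒟 : ∀ ⦃A : Type⦄ [CommRing A] [IsLocalRing A] [Algebra 𝒪 A], GaloisRepAdic A → Prop)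
    (rbar : GQ →* M2 (ResidueField 𝒪)) (S : SliceIdx GQ) (c : Fin 3 → 𝒪)
    (A : Type) [CommRing A] [IsLocalRing A] [Algebra 𝒪 A] (r : GQ → Matrix (Fin 2) (Fin 2) A) :
    Prop :=
  IsArtinianTestAlgebra 𝒪 A ∧ ∃ r' : GQ →* M2 A, (r' : GQ → M2 A) = r ∧ IsDefo 𝒟 rbar S c r'

end Fermat.Agent.S53
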