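import Fermat.Agent.S53.DAlg

/-!
# S53: small facts on Artinian test algebras (core versions, independent of `Defs`)
-/

set_option autoImplicit false

namespace Fermat.Agent.S53

open IsLocalRing

variable {𝒪 : Type} [CommRing 𝒪] [IsLocalRing 𝒪]

/-- the dual numbers are an Artinian test algebra. -/
theorem dalg_isArtinianTestAlgebra_dual :
    letI := dalgDualAlgebra 𝒪
    GaloisRep.IsArtinianTestAlgebra 𝒪 (DualNumber (ResidueField 𝒪)) := by
  letI := dalgDualAlgebra 𝒪
  have hmap : ∀ a : 𝒪, algebraMap 𝒪 (DualNumber (ResidueField 𝒪)) a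
      = TrivSqZeroExt.inl (residue 𝒪 a) := fun a => rfl
  refine ⟨⟨fun a ha => ?_⟩, fun x => ?_, ?_⟩
  · rw [hmap, TrivSqZeroExt.isUnit_iff_isUnit_fst, TrivSqZeroExt.fst_inl] at ha
    exact (isUnit_map_iff (residue 𝒪) a).1 ha
  · obtain ⟨y, rfl⟩ := residue_surjective x
    obtain ⟨a, ha⟩ := residue_surjective (R := 𝒪) y.fst
    refine ⟨a, ?_⟩
    rw [Function.comp_apply, hmap, ← sub_eq_zero, ← map_sub, residue_eq_zero_iff,
      mem_maximalIdeal, mem_nonunits_iff, TrivSqZeroExt.isUnit_iff_isUnit_fst]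
    simp [ha]
  · have : Module.Finite (ResidueField 𝒪) (DualNumber (ResidueField 𝒪)) :=
      inferInstanceAs (Module.Finite (ResidueField 𝒪) (ResidueField 𝒪 × ResidueField 𝒪))
    exact IsArtinianRing.of_finite (ResidueField 𝒪) (DualNumber (ResidueField 𝒪))

/-- the residue field is an Artinian test algebra. -/
theorem dalg_isArtinianTestAlgebra_residueField :
    GaloisRep.IsArtinianTestAlgebra 𝒪 (ResidueField 𝒪) := by
  refine ⟨?_, ?_, inferInstance⟩
  · exact (inferInstance : IsLocalHom (residue 𝒪))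
  · exact (residue_surjective (R := ResidueField 𝒪)).comp (residue_surjective (R := 𝒪))

/-- any ring map out of an Artinian local ring into a nontrivial ring is local. -/
theorem dalg_isLocalHom_of_isArtinian {S T : Type*} [CommRing S] [IsLocalRing S]
    [CommRing T] [Nontrivial T] [IsArtinianRing S] (φ : S →+* T) : IsLocalHom φ := by
  refine ⟨fun s hs => ?_⟩
  by_contra hns
  have hmem : s ∈ maximalIdeal S := hns
  obtain ⟨n, hn⟩ := IsArtinianRing.isNilpotent_jacobson_bot (R := S)
  rw [IsLocalRing.jacobson_eq_maximalIdeal ⊥ bot_ne_top] at hn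
  have h0 : s ^ n = 0 := by
    have := Ideal.pow_mem_pow hmem n
    rw [hn] at this
    simpa using this
  have h1 : IsUnit (φ s ^ n) := hs.pow n
  rw [← map_pow, h0, map_zero] at h1
  exact not_isUnit_zero h1

/-- If `𝒪`-algebra maps `S → k[ε]` are determined by their values on the subset `T` of the maximal
ideal, then `T` together with `𝔪_𝒪` generates the maximal ideal of `S`. -/
theorem dalg_maximalIdeal_eq_of_dualNumber {S : Type} [CommRing S] [IsLocalRing S] [Algebra 𝒪 S]
    (hS : GaloisRep.IsArtinianTestAlgebra 𝒪 S) (T : Set S) (hT : T ⊆ maximalIdeal S)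
    (h : letI := dalgDualAlgebra 𝒪
      ∀ φ ψ : S →ₐ[𝒪] DualNumber (ResidueField 𝒪), (∀ s ∈ T, φ s = ψ s) → φ = ψ) :
    maximalIdeal S = Ideal.span T ⊔ (maximalIdeal 𝒪).map (algebraMap 𝒪 S) := by
  haveI := hS.isLocalHom
  have htop : Algebra.adjoin 𝒪 T = ⊤ := by
    apply subalgebra_eq_top_of_dualNumber_ext hS
    intro f g hfg
    exact h f g fun s hs => hfg s (Algebra.subset_adjoin hs)
  have key : ∀ s : S, ∃ o : 𝒪, s - algebraMap 𝒪 S o ∈ Ideal.span T := by
    intro s
    have hs : s ∈ Algebra.adjoin 𝒪 T := htop ▸ Algebra.mem_top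
    induction hs using Algebra.adjoin_induction with
    | mem x hx => exact ⟨0, by simpa using Ideal.subset_span hx⟩
    | algebraMap r => exact ⟨r, by simp⟩
    | add x y _ _ hx hy =>
      obtain ⟨a, ha⟩ := hx
      obtain ⟨b, hb⟩ := hy
      refine ⟨a + b, ?_⟩
      have := Ideal.add_mem _ ha hb
      rw [map_add]
      convert this using 1
      ring
    | mul x y _ _ hx hy =>
      obtain ⟨a, ha⟩ := hx
      obtain ⟨b, hb⟩ := hy
      refine ⟨a * b, ?_⟩
      have := Ideal.add_mem _ (Ideal.mul_mem_left _ y ha)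
        (Ideal.mul_mem_left _ (algebraMap 𝒪 S a) hb)
      rw [map_mul]
      convert this using 1
      ring
  apply le_antisymm
  · intro s hs
    obtain ⟨o, ho⟩ := key s
    have hspan : Ideal.span T ≤ maximalIdeal S := Ideal.span_le.2 hT
    have ho' : algebraMap 𝒪 S o ∈ maximalIdeal S := by
      have := Ideal.sub_mem _ hs (hspan ho)
      simpa using this
    have ho'' : o ∈ maximalIdeal 𝒪 := by
      rw [mem_maximalIdeal, mem_nonunits_iff] at ho' ⊢
      exact fun hu => ho' (hu.map _)
    have : s = (s - algebraMap 𝒪 S o) + algebraMap 𝒪 S o := by ring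
    rw [this]
    exact Ideal.add_mem _ (Ideal.mem_sup_left ho) (Ideal.mem_sup_right (Ideal.mem_map_of_mem _ ho''))
  · refine sup_le (Ideal.span_le.2 hT) ?_
    exact IsLocalRing.map_maximalIdeal_le (algebraMap 𝒪 S)

end Fermat.Agent.S53
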