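import Fermat.Agent.S53.Defs
import Fermat.Agent.S53.TangentCore

/-!
# S53: small facts on Artinian test algebras
owner: helper4
-/

set_option autoImplicit false

namespace Fermat.Agent.S53

open IsLocalRing

variable {𝒪 : Type} [CommRing 𝒪] [IsLocalRing 𝒪]

/-- If `𝒪`-algebra maps `S → k[ε]` are determined by their values on the subset `T` of the maximal
ideal, then `T` together with `𝔪_𝒪` generates the maximal ideal of `S`. -/
theorem maximalIdeal_eq_of_dualNumber {S : Type} [CommRing S] [IsLocalRing S] [Algebra 𝒪 S]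
    (hS : GaloisRep.IsArtinianTestAlgebra 𝒪 S) (T : Set S) (hT : T ⊆ maximalIdeal S)
    (h : letI := dualAlg 𝒪
      ∀ φ ψ : S →ₐ[𝒪] DualNumber (ResidueField 𝒪), (∀ s ∈ T, φ s = ψ s) → φ = ψ) :
    maximalIdeal S = Ideal.span T ⊔ (maximalIdeal 𝒪).map (algebraMap 𝒪 S) :=
  dalg_maximalIdeal_eq_of_dualNumber hS T hT h

/-- the dual numbers are an Artinian test algebra. -/
theorem isArtinianTestAlgebra_dual :
    letI := dualAlg 𝒪
    GaloisRep.IsArtinianTestAlgebra 𝒪 (DualNumber (ResidueField 𝒪)) :=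
  dalg_isArtinianTestAlgebra_dual

/-- the residue field is an Artinian test algebra. -/
theorem isArtinianTestAlgebra_residueField :
    GaloisRep.IsArtinianTestAlgebra 𝒪 (ResidueField 𝒪) :=
  dalg_isArtinianTestAlgebra_residueField

/-- any `𝒪`-algebra map out of an Artinian test algebra into a local ring is local. -/
theorem isLocalHom_of_test {S T : Type} [CommRing S] [IsLocalRing S] [Algebra 𝒪 S]
    [CommRing T] [IsLocalRing T] [Algebra 𝒪 T]
    (hS : GaloisRep.IsArtinianTestAlgebra 𝒪 S) (φ : S →ₐ[𝒪] T) :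
    IsLocalHom (φ : S →+* T) :=
  haveI := hS.isArtinian
  dalg_isLocalHom_of_isArtinian (φ : S →+* T)

end Fermat.Agent.S53
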