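import Fermat.Agent.S53.Good
import Fermat.Agent.S53.Tangent

/-!
# S53, piece R1: the good pairs satisfy `Adm.GoodAxioms`
-/

set_option autoImplicit false

namespace Fermat.Agent.S53

open IsLocalRing GaloisRep

variable {𝒪 : Type} [CommRing 𝒪] [IsLocalRing 𝒪]
variable {𝒟 : ∀ ⦃A : Type⦄ [CommRing A] [IsLocalRing A] [Algebra 𝒪 A], GaloisRepAdic A → Prop}
variable {rbar : GQ →* M2 (ResidueField 𝒪)} {S : SliceIdx GQ} {c : Fin 3 → 𝒪}

theorem admAux_isEquiv_symm {A : Type} [CommRing A] [IsLocalRing A] {ρ ρ' : GaloisRepAdic A}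
    (h : ρ.IsEquiv ρ') : ρ'.IsEquiv ρ := by
  obtain ⟨e⟩ := h
  exact ⟨e.symm⟩

/-- functoriality of `IsDefo` between Artinian test algebras. -/
theorem IsDefo.map (h𝒟 : IsDeformationCondition 𝒪 𝒟)
    {A B : Type} [CommRing A] [IsLocalRing A] [Algebra 𝒪 A] [CommRing B] [IsLocalRing B]
    [Algebra 𝒪 B] (hA : IsArtinianTestAlgebra 𝒪 A) (hB : IsArtinianTestAlgebra 𝒪 B)
    (φ : A →ₐ[𝒪] B) {r : GQ →* M2 A} (hr : IsDefo 𝒟 rbar S c r) :
    IsDefo 𝒟 rbar S c (mapMat (φ : A →+* B) r) := by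
  have hφ : IsLocalHom (φ : A →+* B) := isLocalHom_of_test hA φ
  have hc : MatCont (mapMat (φ : A →+* B) r) := hr.cont.mapMat _ hφ
  refine ⟨hc, ?_, ?_, ?_⟩
  · intro σ i j x hx
    have h1 := hr.lift σ i j x hx
    have h2 : (φ : A →+* B) (r σ i j - algebraMap 𝒪 A x) ∈ maximalIdeal B :=
      map_nonunit (φ : A →+* B) _ h1
    simpa using h2
  · intro s
    rw [mapMat_apply, hr.norm s]
    simp
  · exact h𝒟.of_isEquiv hB (baseChangeAlong_ofMat _ hφ r hr.cont hc)
      (h𝒟.baseChangeAlong hA hB φ hφ hr.type)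

theorem admAux_pow_eq_bot {A : Type} [CommRing A] [IsLocalRing A] [Algebra 𝒪 A]
    (hA : IsArtinianTestAlgebra 𝒪 A) : ∃ n, maximalIdeal A ^ n = ⊥ :=
  Adm.exists_pow_max_eq_bot hA

/-- a continuous representation over an Artinian test algebra is trivial on an open subgroup. -/
theorem admAux_trivial_of_cont {A : Type} [CommRing A] [IsLocalRing A] [Algebra 𝒪 A]
    (hA : IsArtinianTestAlgebra 𝒪 A) {r : GQ →* M2 A} (hr : MatCont r) :
    ∃ L : IntermediateField ℚ (AlgebraicClosure ℚ), FiniteDimensional ℚ L ∧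
      ∀ σ : GQ, (∀ x ∈ L, σ x = x) → r σ = 1 := by
  obtain ⟨n, hn⟩ := admAux_pow_eq_bot hA
  obtain ⟨L, hL, h⟩ := hr n
  refine ⟨L, hL, fun σ hσ => ?_⟩
  ext i j
  have := h σ hσ i j
  rw [hn, Ideal.mem_bot, Matrix.sub_apply, sub_eq_zero] at this
  exact this

theorem admAux_cont_of_trivial {A : Type} [CommRing A] [IsLocalRing A] {r : GQ →* M2 A}
    (h : ∃ L : IntermediateField ℚ (AlgebraicClosure ℚ), FiniteDimensional ℚ L ∧
      ∀ σ : GQ, (∀ x ∈ L, σ x = x) → r σ = 1) : MatCont r := by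
  obtain ⟨L, hL, h⟩ := h
  intro n
  refine ⟨L, hL, fun σ hσ i j => ?_⟩
  rw [h σ hσ, sub_self]
  exact Ideal.zero_mem _

theorem admAux_mem_max_of_map {A B : Type} [CommRing A] [IsLocalRing A] [CommRing B]
    [IsLocalRing B] (φ : A →+* B) {a : A} (h : φ a ∈ maximalIdeal B) : a ∈ maximalIdeal A := by
  by_contra ha
  have hu : IsUnit a := by
    by_contra hu
    exact ha hu
  exact h (hu.map φ)

/-- descent of `IsDefo` along injective maps. -/
theorem IsDefo.of_map_injective (h𝒟 : IsDeformationCondition 𝒪 𝒟)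
    {A B : Type} [CommRing A] [IsLocalRing A] [Algebra 𝒪 A] [CommRing B] [IsLocalRing B]
    [Algebra 𝒪 B] (hA : IsArtinianTestAlgebra 𝒪 A) (hB : IsArtinianTestAlgebra 𝒪 B)
    (φ : A →ₐ[𝒪] B) (hinj : Function.Injective φ) {r : GQ →* M2 A}
    (hr : IsDefo 𝒟 rbar S c (mapMat (φ : A →+* B) r)) : IsDefo 𝒟 rbar S c r := by
  have hφ : IsLocalHom (φ : A →+* B) := isLocalHom_of_test hA φ
  have hc : MatCont r := by
    apply admAux_cont_of_trivial
    obtain ⟨L, hL, h⟩ := admAux_trivial_of_cont hB hr.cont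
    refine ⟨L, hL, fun σ hσ => ?_⟩
    ext i j
    apply hinj
    have := congrFun (congrFun (h σ hσ) i) j
    rw [mapMat_apply] at this
    rw [Matrix.one_apply] at this ⊢
    split_ifs at this ⊢ <;> simpa using this
  refine ⟨hc, ?_, ?_, ?_⟩
  · intro σ i j x hx
    have h1 := hr.lift σ i j x hx
    apply admAux_mem_max_of_map (φ : A →+* B)
    simpa using h1
  · intro s
    apply hinj
    have := hr.norm s
    rw [mapMat_apply] at this
    simpa using this
  · exact h𝒟.of_baseChangeAlong_injective hA hB φ hφ hinj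
      (h𝒟.of_isEquiv hB (admAux_isEquiv_symm (baseChangeAlong_ofMat _ hφ r hc hr.cont)) hr.type)

/-- `IsDefo` on a fibre product. -/
theorem IsDefo.of_fibreProduct (h𝒟 : IsDeformationCondition 𝒪 𝒟)
    {A B C P : Type} [CommRing A] [IsLocalRing A] [Algebra 𝒪 A]
    [CommRing B] [IsLocalRing B] [Algebra 𝒪 B] [CommRing C] [IsLocalRing C] [Algebra 𝒪 C]
    [CommRing P] [IsLocalRing P] [Algebra 𝒪 P]
    (hA : IsArtinianTestAlgebra 𝒪 A) (hB : IsArtinianTestAlgebra 𝒪 B)
    (hC : IsArtinianTestAlgebra 𝒪 C) (hP : IsArtinianTestAlgebra 𝒪 P)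
    (f : A →ₐ[𝒪] C) (g : B →ₐ[𝒪] C) (pA : P →ₐ[𝒪] A) (pB : P →ₐ[𝒪] B)
    (hcomp : f.comp pA = g.comp pB)
    (hinj : Function.Injective (fun x => (pA x, pB x)))
    (hsurj : ∀ a b, f a = g b → ∃ x, pA x = a ∧ pB x = b)
    {r : GQ →* M2 P}
    (hrA : IsDefo 𝒟 rbar S c (mapMat (pA : P →+* A) r))
    (hrB : IsDefo 𝒟 rbar S c (mapMat (pB : P →+* B) r)) : IsDefo 𝒟 rbar S c r := by
  have hpA : IsLocalHom (pA : P →+* A) := isLocalHom_of_test hP pA
  have hpB : IsLocalHom (pB : P →+* B) := isLocalHom_of_test hP pB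
  have hc : MatCont r := by
    apply admAux_cont_of_trivial
    obtain ⟨L, hL, h⟩ := admAux_trivial_of_cont hA hrA.cont
    obtain ⟨L', hL', h'⟩ := admAux_trivial_of_cont hB hrB.cont
    refine ⟨L ⊔ L', IntermediateField.finiteDimensional_sup L L', fun σ hσ => ?_⟩
    have h1 := h σ fun x hx => hσ x ((le_sup_left : L ≤ L ⊔ L') hx)
    have h2 := h' σ fun x hx => hσ x ((le_sup_right : L' ≤ L ⊔ L') hx)
    ext i j
    apply hinj
    have h1' := congrFun (congrFun h1 i) j
    have h2' := congrFun (congrFun h2 i) j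
    rw [mapMat_apply] at h1' h2'
    rw [Matrix.one_apply] at h1' h2' ⊢
    split_ifs at h1' h2' ⊢ <;> simp_all
  refine ⟨hc, ?_, ?_, ?_⟩
  · intro σ i j x hx
    have h1 := hrA.lift σ i j x hx
    apply admAux_mem_max_of_map (pA : P →+* A)
    simpa using h1
  · intro s
    apply hinj
    have h1 := hrA.norm s
    have h2 := hrB.norm s
    rw [mapMat_apply] at h1 h2
    simp_all
  · exact h𝒟.of_fibreProduct hA hB hC hP f g pA pB hpA hpB hcomp hinj hsurj
      (h𝒟.of_isEquiv hA (admAux_isEquiv_symm (baseChangeAlong_ofMat _ hpA r hc hrA.cont)) hrA.type)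
      (h𝒟.of_isEquiv hB (admAux_isEquiv_symm (baseChangeAlong_ofMat _ hpB r hc hrB.cont)) hrB.type)

theorem admAux_coe_mapMat {A B : Type} [CommRing A] [CommRing B] (φ : A →+* B) (r : GQ →* M2 A) :
    (⇑(mapMat φ r) : GQ → Matrix (Fin 2) (Fin 2) B) = fun g => (r g).map φ := by
  funext g
  ext i j
  rfl

/-- a matrix valued function which becomes multiplicative after a jointly injective family of two
ring homomorphisms is multiplicative. -/
theorem admAux_exists_monoidHom {P A B : Type} [CommRing P] [CommRing A] [CommRing B]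
    (pA : P →+* A) (pB : P →+* B) (hinj : Function.Injective (fun x => (pA x, pB x)))
    (r : GQ → Matrix (Fin 2) (Fin 2) P) (rA : GQ →* M2 A) (rB : GQ →* M2 B)
    (hA : ⇑rA = fun g => (r g).map pA) (hB : ⇑rB = fun g => (r g).map pB) :
    ∃ r' : GQ →* M2 P, ⇑r' = r := by
  have hinjM : ∀ X Y : Matrix (Fin 2) (Fin 2) P, X.map pA = Y.map pA → X.map pB = Y.map pB →
      X = Y := by
    intro X Y h1 h2
    ext i j
    apply hinj
    have h1' := congrFun (congrFun h1 i) j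
    have h2' := congrFun (congrFun h2 i) j
    simp only [Matrix.map_apply] at h1' h2'
    simp [h1', h2']
  have hA' : ∀ g, (r g).map pA = rA g := fun g => (congrFun hA g).symm
  have hB' : ∀ g, (r g).map pB = rB g := fun g => (congrFun hB g).symm
  refine ⟨⟨⟨r, ?_⟩, ?_⟩, rfl⟩
  · apply hinjM
    · rw [hA', map_one, Matrix.map_one _ (map_zero _) (map_one _)]
    · rw [hB', map_one, Matrix.map_one _ (map_zero _) (map_one _)]
  · intro g h
    apply hinjM
    · rw [hA', map_mul, Matrix.map_mul, hA', hA']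
    · rw [hB', map_mul, Matrix.map_mul, hB', hB']

theorem goodAxioms (h𝒟 : IsDeformationCondition 𝒪 𝒟) (hbar : IsDefo 𝒟 rbar S c rbar) :
    Adm.GoodAxioms (rbar : GQ → Matrix (Fin 2) (Fin 2) (ResidueField 𝒪)) (Good 𝒟 rbar S c) where
  test h := h.1
  bar := ⟨isArtinianTestAlgebra_residueField, rbar, rfl, hbar⟩
  lifts := by
    rintro A _ _ _ r ⟨-, r', rfl, h⟩
    exact h.lift
  map := by
    rintro A B _ _ _ _ _ _ r ⟨hA, r', rfl, h⟩ hB φ
    exact ⟨hB, mapMat (φ : A →+* B) r', admAux_coe_mapMat _ _, h.map h𝒟 hA hB φ⟩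
  of_injective := by
    rintro A B _ _ _ _ _ _ r hA φ hinj ⟨hB, rB, hrB, h⟩
    obtain ⟨r', rfl⟩ := admAux_exists_monoidHom (φ : A →+* B) (φ : A →+* B)
      (fun a b hab => hinj (congrArg Prod.fst hab)) r rB rB hrB hrB
    refine ⟨hA, r', rfl, IsDefo.of_map_injective h𝒟 hA hB φ hinj ?_⟩
    have : mapMat (φ : A →+* B) r' = rB := by
      apply DFunLike.coe_injective
      rw [admAux_coe_mapMat, hrB]
      rfl
    rw [this]
    exact h
  of_fibreProduct := by
    rintro A B C P _ _ _ _ _ _ _ _ _ _ _ _ hC hP f g pA pB hcomp hinj hsurj r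
      ⟨hA, rA, hrA, hdA⟩ ⟨hB, rB, hrB, hdB⟩
    obtain ⟨r', rfl⟩ := admAux_exists_monoidHom (pA : P →+* A) (pB : P →+* B) hinj r rA rB hrA hrB
    refine ⟨hP, r', rfl, IsDefo.of_fibreProduct h𝒟 hA hB hC hP f g pA pB hcomp hinj hsurj ?_ ?_⟩
    · have : mapMat (pA : P →+* A) r' = rA := by
        apply DFunLike.coe_injective
        rw [admAux_coe_mapMat, hrA]
        rfl
      rw [this]
      exact hdA
    · have : mapMat (pB : P →+* B) r' = rB := by
        apply DFunLike.coe_injective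
        rw [admAux_coe_mapMat, hrB]
        rfl
      rw [this]
      exact hdB

end Fermat.Agent.S53
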