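import Fermat.Agent.S53.Slice

/-!
# S53, part 2: existence of slice indices from Schur's lemma
-/

set_option autoImplicit false

namespace Fermat.Agent.S53

open Matrix

local notation "M2" => Matrix (Fin 2) (Fin 2)

theorem exists_sliceIdx {k G : Type*} [Field k] (rb : G → M2 k)
    (hschur : ∀ X : M2 k, (∀ g, X * rb g = rb g * X) → ∃ c : k, X = c • (1 : M2 k)) :
    ∃ S : SliceIdx G, IsUnit (theta S rb).det := by
  classical
  -- the family of row vectors
  let v : G × Fin 2 × Fin 2 → (Fin 3 → k) := fun p u =>
    (evec (Pi.single u (1 : k)) * rb p.1 - rb p.1 * evec (Pi.single u (1 : k))) p.2.1 p.2.2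
  have hv : ∀ (p : G × Fin 2 × Fin 2) (x : Fin 3 → k),
      ∑ u, x u * v p u = (evec x * rb p.1 - rb p.1 * evec x) p.2.1 p.2.2 := by
    intro p x
    have := lam_sum_smul (⟨fun _ => p.1, fun _ => p.2.1, fun _ => p.2.2⟩ : SliceIdx G) rb x
      (fun u => evec (Pi.single u (1 : k))) 0
    rw [← evec_eq_sum] at this
    exact this.symm
  have hspan : Submodule.span k (Set.range v) = ⊤ := by
    by_contra hne
    obtain ⟨f, hf0, hf⟩ := Submodule.exists_le_ker_of_lt_top _ (lt_top_iff_ne_top.2 hne)
    set x : Fin 3 → k := fun u => f (Pi.single u 1) with hx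
    have hfx : ∀ w : Fin 3 → k, f w = ∑ u, x u * w u := by
      intro w
      conv_lhs => rw [← Finset.univ_sum_single w]
      rw [map_sum]
      refine Finset.sum_congr rfl fun u _ => ?_
      have : (Pi.single u (w u) : Fin 3 → k) = w u • Pi.single u (1 : k) := by
        rw [← Pi.single_smul, smul_eq_mul, mul_one]
      rw [this, map_smul, smul_eq_mul, mul_comm]
    have hcomm : ∀ g, evec x * rb g = rb g * evec x := by
      intro g
      ext i j
      have h1 : f (v (g, i, j)) = 0 := hf (Submodule.subset_span ⟨_, rfl⟩)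
      rw [hfx, hv] at h1
      simpa [sub_eq_zero] using h1
    obtain ⟨c, hc⟩ := hschur _ hcomm
    have hc0 : c = 0 := by
      have := congrFun (congrFun hc 1) 1
      simpa [evec] using this.symm
    have hx0 : x = 0 := by
      rw [hc0, zero_smul] at hc
      funext u
      fin_cases u
      · simpa [evec] using congrFun (congrFun hc 0) 0
      · simpa [evec] using congrFun (congrFun hc 0) 1
      · simpa [evec] using congrFun (congrFun hc 1) 0
    apply hf0
    ext w
    simp [hfx, hx0]
  obtain ⟨f, hfmem, -, hfli⟩ := Submodule.exists_fun_fin_finrank_span_eq k (Set.range v)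
  have hrank : Module.finrank k (Submodule.span k (Set.range v)) = 3 := by
    rw [hspan, finrank_top]; simp
  choose p hp using hfmem
  -- reindex along `Fin 3`
  let e : Fin 3 ≃ Fin (Module.finrank k (Submodule.span k (Set.range v))) := finCongr hrank.symm
  refine ⟨⟨fun s => (p (e s)).1, fun s => (p (e s)).2.1, fun s => (p (e s)).2.2⟩, ?_⟩
  rw [← Matrix.isUnit_iff_isUnit_det, ← Matrix.linearIndependent_rows_iff_isUnit]
  have : (theta (⟨fun s => (p (e s)).1, fun s => (p (e s)).2.1, fun s => (p (e s)).2.2⟩ :
      SliceIdx G) rb).row = f ∘ e := by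
    funext s
    rw [Function.comp_apply, ← hp (e s)]
    rfl
  rw [this]
  exact hfli.comp _ e.injective

end Fermat.Agent.S53
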