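import Fermat.Agent.S53.Dict
import Fermat.Agent.S53.SliceData

/-!
# S53, piece B': wrappers around `Slice.lean` (rigidity / normal form) for matrix representations
owner: helper28
-/

set_option autoImplicit false
set_option linter.style.haveILetI false

namespace Fermat.Agent.S53

open IsLocalRing TensorProduct

/-- Schur's lemma for an absolutely irreducible residual representation. -/
theorem schur_of_absIrr {k : Type} [Field k] (ρbar : ResidualGaloisRep k)
    (habs : ρbar.IsAbsolutelyIrreducible) (f : Module.End k ρbar.V)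
    (hf : ∀ σ, f * ρbar.ρ σ = ρbar.ρ σ * f) : ∃ c : k, f = c • (1 : Module.End k ρbar.V) := by
  classical
  let K := AlgebraicClosure k
  let fK : Module.End K (K ⊗[k] ρbar.V) := f.baseChange K
  have hfr : Module.finrank K (K ⊗[k] ρbar.V) = 2 := by
    rw [Module.finrank_baseChange, ρbar.finrank_eq]
  haveI : Nontrivial (K ⊗[k] ρbar.V) := Module.nontrivial_of_finrank_pos (R := K) (by omega)
  obtain ⟨μ, hμ⟩ := Module.End.exists_eigenvalue fK
  have hW : Module.End.eigenspace fK μ = ⊥ ∨ Module.End.eigenspace fK μ = ⊤ := by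
    apply habs
    intro σ x hx
    rw [Module.End.mem_eigenspace_iff] at hx ⊢
    have h1 : fK ((ρbar.ρ σ).baseChange K x) = (ρbar.ρ σ).baseChange K (fK x) := by
      have := congrArg (fun g => (LinearMap.baseChange K g) x) (hf σ)
      simpa [LinearMap.baseChange_mul, fK] using this
    show fK ((ρbar.ρ σ).baseChange K x) = μ • (ρbar.ρ σ).baseChange K x
    rw [h1, hx, map_smul]
  have hW' : Module.End.eigenspace fK μ = ⊤ := hW.resolve_left hμ
  have hfK : ∀ x, fK x = μ • x := fun x => by
    have : x ∈ Module.End.eigenspace fK μ := hW' ▸ Submodule.mem_top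
    exact Module.End.mem_eigenspace_iff.mp this
  let b := Module.finBasisOfFinrankEq k ρbar.V ρbar.finrank_eq
  have hM : (LinearMap.toMatrix b b f).map (algebraMap k K) = μ • (1 : Matrix (Fin 2) (Fin 2) K) := by
    rw [← LinearMap.toMatrix_baseChange]
    have : f.baseChange K = μ • (1 : Module.End K (K ⊗[k] ρbar.V)) := by
      ext x
      have := hfK (1 ⊗ₜ x)
      simpa [fK] using this
    rw [this, map_smul]
    congr 1
    exact LinearMap.toMatrix_one _
  have hinj := (algebraMap k K).injective
  set M := LinearMap.toMatrix b b f with hMdef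
  have h01 : M 0 1 = 0 := hinj (by simpa using congrFun (congrFun hM 0) 1)
  have h10 : M 1 0 = 0 := hinj (by simpa using congrFun (congrFun hM 1) 0)
  have h11 : M 1 1 = M 0 0 := hinj (by
    have a := congrFun (congrFun hM 0) 0
    have b := congrFun (congrFun hM 1) 1
    simp at a b
    rw [a, b])
  refine ⟨M 0 0, ?_⟩
  apply (LinearMap.toMatrix b b).injective
  rw [map_smul, ← hMdef]
  have : LinearMap.toMatrix b b (1 : Module.End k ρbar.V) = 1 := LinearMap.toMatrix_one _
  rw [this]
  ext i j
  fin_cases i <;> fin_cases j <;> simp [h01, h10, h11]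

variable {𝒪 : Type} [CommRing 𝒪] [IsLocalRing 𝒪]

theorem exists_sliceData (ρbar : ResidualGaloisRep (ResidueField 𝒪))
    (habs : ρbar.IsAbsolutelyIrreducible) (b : Module.Basis (Fin 2) (ResidueField 𝒪) ρbar.V) :
    ∃ (S : SliceIdx GQ) (c : Fin 3 → 𝒪), IsSliceData (matOfRes ρbar b) S c := by
  classical
  obtain ⟨S, hS⟩ := exists_sliceIdx (matOfRes ρbar b : GQ → M2 (ResidueField 𝒪)) (by
    intro X hX
    obtain ⟨c, hc⟩ := schur_of_absIrr ρbar habs ((LinearMap.toMatrixAlgEquiv b).symm X) (by
      intro σ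
      apply (LinearMap.toMatrixAlgEquiv b).injective
      rw [map_mul, map_mul, AlgEquiv.apply_symm_apply]
      have : LinearMap.toMatrixAlgEquiv b (ρbar.ρ σ) = matOfRes ρbar b σ := rfl
      rw [this]
      exact hX σ)
    refine ⟨c, ?_⟩
    have := congrArg (LinearMap.toMatrixAlgEquiv b) hc
    rw [AlgEquiv.apply_symm_apply, map_smul, map_one] at this
    exact this)
  choose c hc using fun s => residue_surjective (matOfRes ρbar b (S.h s) (S.a s) (S.b s))
  exact ⟨S, c, hS, hc⟩

variable {A : Type} [CommRing A] [IsLocalRing A] [Algebra 𝒪 A]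
variable {rbar : GQ →* M2 (ResidueField 𝒪)} {S : SliceIdx GQ} {c : Fin 3 → 𝒪}

/-- `theta` of any lift of `rbar` is invertible. -/
theorem isUnit_theta_of_isLift (hS : IsSliceData rbar S c) {r : GQ →* M2 A}
    (hl : IsLift rbar r) : IsUnit (theta S r).det := by
  choose rt hrt using fun (σ : GQ) (i j : Fin 2) => residue_surjective (rbar σ i j)
  let r0 : GQ → M2 𝒪 := fun σ => Matrix.of (rt σ)
  have h0 : IsUnit (theta S r0).det := by
    rw [← residue_ne_zero_iff_isUnit, RingHom.map_det, RingHom.mapMatrix_apply, theta_map]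
    have : (fun g => (r0 g).map (residue 𝒪)) = rbar := by
      funext g
      ext i j
      simp [r0, hrt]
    rw [this]
    exact hS.unit.ne_zero
  have h1 : IsUnit (theta S (fun g => (r0 g).map (algebraMap 𝒪 A))).det := by
    rw [← theta_map, ← RingHom.mapMatrix_apply, ← RingHom.map_det]
    exact h0.map _
  refine isUnit_det_theta_congr S _ _ ?_ h1
  intro g i j
  exact hl g i j _ (hrt g i j)

theorem eq_of_isConjBy (hS : IsSliceData rbar S c)
    {r r' : GQ →* M2 A} (hl : IsLift rbar r) (hl' : IsLift rbar r')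
    (hn : IsNormalized S c r) (hn' : IsNormalized S c r') (P : M2 A) (hP : IsUnit P)
    (h : ∀ σ, r' σ * P = P * r σ) : r = r' := by
  have := rigidity S r r' (isUnit_theta_of_isLift hS hl) (by
    intro g i j
    obtain ⟨x, hx⟩ := residue_surjective (rbar g i j)
    have h1 := hl g i j x hx
    have h2 := hl' g i j x hx
    have : (r' g - r g) i j = (r' g i j - algebraMap 𝒪 A x) - (r g i j - algebraMap 𝒪 A x) := by
      simp
    rw [this]
    exact Ideal.sub_mem _ h2 h1) (fun s => by rw [hn s, hn' s]) P hP h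
  exact (DFunLike.coe_injective this).symm

theorem exists_normalized [IsAdicComplete (maximalIdeal A) A] (hS : IsSliceData rbar S c)
    (r : GQ →* M2 A) (hl : IsLift rbar r) :
    ∃ P : (M2 A)ˣ, IsLift rbar (conjMat P r) ∧ IsNormalized S c (conjMat P r) := by
  obtain ⟨γ, hγ, hγn⟩ := exists_normalForm S r (isUnit_theta_of_isLift hS hl)
    (fun s => algebraMap 𝒪 A (c s)) (fun s => by
      have := hl (S.h s) (S.a s) (S.b s) (c s) (hS.lift s)
      rw [← neg_sub]
      exact Ideal.neg_mem_iff _ |>.mpr this)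
  have hdet : IsUnit γ.det := isUnit_det_of_entriesIn_sub_one hγ
  let P : (M2 A)ˣ := ((Matrix.isUnit_iff_isUnit_det γ).mpr hdet).unit
  have hP : (P : M2 A) = γ := rfl
  have hPinv : ((P⁻¹ : (M2 A)ˣ) : M2 A) = γ⁻¹ := by
    rw [Matrix.coe_units_inv, hP]
  refine ⟨P, ?_, ?_⟩
  · intro σ i j x hx
    have h1 := hl σ i j x hx
    have h2 := conj_congr (I := maximalIdeal A) (γ := 1) (γ' := γ) (by simp) hdet hγ (r σ) i j
    have h3 : conjMat P r σ i j - algebraMap 𝒪 A x =
        (γ * r σ * γ⁻¹ - (1 : M2 A) * r σ * (1 : M2 A)⁻¹) i j + (r σ i j - algebraMap 𝒪 A x) := by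
      simp [conjMat, hP, hPinv]
    rw [h3]
    exact Ideal.add_mem _ h2 h1
  · intro s
    have := hγn s
    simpa [conjMat, hP, hPinv] using this

end Fermat.Agent.S53
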