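import Fermat.Agent.S53.UnivProp

/-!
# S53: from the matrix universal property to the universal property of `DeformationRingData`
owner: helper21
-/

set_option autoImplicit false
set_option linter.unusedSectionVars false

namespace Fermat.Agent.S53

open IsLocalRing GaloisRep

variable {𝒪 : Type} [CommRing 𝒪] [IsLocalRing 𝒪]
variable {𝒟 : ∀ ⦃A : Type⦄ [CommRing A] [IsLocalRing A] [Algebra 𝒪 A], GaloisRepAdic A → Prop}
variable {rbar : GQ →* M2 (ResidueField 𝒪)} {S : SliceIdx GQ} {c : Fin 3 → 𝒪}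
variable {R : Type} [CommRing R] [IsLocalRing R] [Algebra 𝒪 R]

/-- the `universal` field of `DeformationRingData` from the matrix universal property. -/
theorem universal_of_runiv (h𝒟 : IsDeformationCondition 𝒪 𝒟) (hS : IsSliceData rbar S c)
    {ρbar : ResidualGaloisRep (ResidueField 𝒪)} {hbar : GaloisFactorsThroughFiniteLevel rbar}
    (e : ρbar.IsEquiv (resOfMat rbar hbar))
    (runiv : GQ →* M2 R) (hruniv : IsDefo 𝒟 rbar S c runiv)
    (A : Type) [CommRing A] [IsLocalRing A] [IsNoetherianRing A]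
    [IsAdicComplete (maximalIdeal A) A] [Algebra 𝒪 A] [IsLocalHom (algebraMap 𝒪 A)]
    (hA : Function.Surjective (residue A ∘ algebraMap 𝒪 A))
    (huniv : ∀ (r : GQ →* M2 A), IsDefo 𝒟 rbar S c r →
      ∃! φ : R →ₐ[𝒪] A, mapMat (φ : R →+* A) runiv = r)
    (ρA : GaloisRepAdic A) (hD : 𝒟 ρA)
    (hres : ρA.residual.IsEquiv (ρbar.baseChangeAlong (ResidueField.map (algebraMap 𝒪 A)))) :
    ∃! φ : R →ₐ[𝒪] A, ∃ hφ : IsLocalHom (φ : R →+* A),
      ((ofMat runiv hruniv.cont).baseChangeAlong (φ : R →+* A) hφ).IsEquiv ρA := by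
  obtain ⟨r, hr, he⟩ := exists_isDefo h𝒟 hS e hA ρA hD hres
  obtain ⟨φ, hφ, huniq⟩ := huniv r hr
  refine ⟨φ, ⟨univProp_isLocalHom A hA φ, ?_⟩, ?_⟩
  · subst hφ
    exact isEquiv_trans (baseChangeAlong_ofMat _ _ runiv hruniv.cont hr.cont) (isEquiv_symm he)
  · rintro ψ ⟨hψ, heψ⟩
    apply huniq
    have hc : MatCont (mapMat (ψ : R →+* A) runiv) := hruniv.cont.mapMat _ hψ
    have h1 : (ofMat (mapMat (ψ : R →+* A) runiv) hc).IsEquiv (ofMat r hr.cont) :=
      isEquiv_trans (isEquiv_symm (baseChangeAlong_ofMat _ hψ runiv hruniv.cont hc))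
        (isEquiv_trans heψ he)
    obtain ⟨P, hP⟩ := (ofMat_isEquiv_iff _ _ _ _).1 h1
    exact eq_of_isConjBy hS (isLift_mapMat ψ hψ hruniv.lift) hr.lift
      (isNormalized_mapMat ψ hruniv.norm) hr.norm P P.isUnit hP

end Fermat.Agent.S53
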